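import Mathlib
import Fermat.Prelude.Def_ModularCurve_X0
import Fermat.Agent.S24.Bridge.JqExpansion

/-!
# JT3 / node D0 (Hauptmoduln), level 2: the two identities modulo `X ^ 10`

Truncated formal computation: with `E = eisenstein4`, `D = X * etaProd ^ 24`,
`D₂ = X ^ 2 * (etaProd ^ 24)(X ^ 2)` in `ℤ⟦X⟧`,

* `E ^ 3 * D * D₂ ≡ (D + 256 * D₂) ^ 3  (mod X ^ 10)`,
* `E(X ^ 2) ^ 3 * D * D₂ ≡ (D + 16 * D₂) ^ 3  (mod X ^ 10)`.

Together with the Sturm bound on `Γ₀(2)` in weight `36` (bound `9`) this gives the two identities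
exactly (`Hauptmodul/Level2Analytic.lean`).  The explicit polynomials below were generated by a
script; every step is checked by `ring`.
-/

set_option autoImplicit false
set_option maxRecDepth 4000

open PowerSeries

namespace Fermat.Agent.JT3

/-- Congruence of integral power series modulo `X ^ n`. -/
def hm_Cong (n : ℕ) (f g : PowerSeries ℤ) : Prop := (X : PowerSeries ℤ) ^ n ∣ f - g

namespace hm_Cong

variable {n : ℕ} {f g h f' g' : PowerSeries ℤ}

theorem refl (f : PowerSeries ℤ) : hm_Cong n f f := by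
  unfold hm_Cong
  rw [sub_self]
  exact dvd_zero _

theorem symm (h1 : hm_Cong n f g) : hm_Cong n g f := by
  unfold hm_Cong at *
  rw [← neg_sub]
  exact (dvd_neg).2 h1

theorem trans (h1 : hm_Cong n f g) (h2 : hm_Cong n g h) : hm_Cong n f h := by
  unfold hm_Cong at *
  have : f - h = (f - g) + (g - h) := by ring
  rw [this]
  exact dvd_add h1 h2

theorem add (h1 : hm_Cong n f g) (h2 : hm_Cong n f' g') : hm_Cong n (f + f') (g + g') := by
  unfold hm_Cong at *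
  have : f + f' - (g + g') = (f - g) + (f' - g') := by ring
  rw [this]
  exact dvd_add h1 h2

theorem mul (h1 : hm_Cong n f g) (h2 : hm_Cong n f' g') : hm_Cong n (f * f') (g * g') := by
  unfold hm_Cong at *
  have : f * f' - g * g' = (f - g) * f' + g * (f' - g') := by ring
  rw [this]
  exact dvd_add (Dvd.dvd.mul_right h1 _) (Dvd.dvd.mul_left h2 _)

theorem const_mul (c : PowerSeries ℤ) (h1 : hm_Cong n f g) : hm_Cong n (c * f) (c * g) :=
  (refl c).mul h1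

theorem pow (h1 : hm_Cong n f g) (k : ℕ) : hm_Cong n (f ^ k) (g ^ k) := by
  induction k with
  | zero => simpa using refl (1 : PowerSeries ℤ)
  | succ k ih => rw [pow_succ, pow_succ]; exact ih.mul h1

/-- An explicit identity `f = g + X ^ n * r` gives a congruence. -/
theorem of_eq {r : PowerSeries ℤ} (h1 : f = g + X ^ n * r) : hm_Cong n f g := by
  unfold hm_Cong
  exact ⟨r, by rw [h1]; ring⟩

/-- Product of two congruences followed by an explicit reduction. -/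
theorem mul_eq {F G H r : PowerSeries ℤ} (h1 : hm_Cong n f F) (h2 : hm_Cong n f' G)
    (h3 : F * G = H + X ^ n * r) : hm_Cong n (f * f') H :=
  (h1.mul h2).trans (of_eq h3)

theorem iff_coeff : hm_Cong n f g ↔ ∀ m < n, coeff m f = coeff m g := by
  unfold hm_Cong
  rw [X_pow_dvd_iff]
  refine forall_congr' fun m => forall_congr' fun _ => ?_
  rw [map_sub, sub_eq_zero]

/-- `expand` preserves congruences (even doubles the modulus; we only keep `n`). -/
theorem expand {p : ℕ} (hp : p ≠ 0) (h1 : hm_Cong n f g) :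
    hm_Cong n (PowerSeries.expand p hp f) (PowerSeries.expand p hp g) := by
  unfold hm_Cong at *
  obtain ⟨r, hr⟩ := h1
  refine ⟨X ^ (n * (p - 1)) * PowerSeries.expand p hp r, ?_⟩
  rw [← map_sub, hr, map_mul, map_pow, expand_X, ← pow_mul, ← mul_assoc, ← pow_add]
  congr 2
  obtain ⟨q, rfl⟩ : ∃ q, p = q + 1 := ⟨p - 1, by omega⟩
  simp only [Nat.add_sub_cancel]
  ring

end hm_Cong

/-! ### The explicit truncations -/

/-- explicit truncation `P1` -/
noncomputable def hm_P1 : PowerSeries ℤ :=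
  (1 : PowerSeries ℤ) + (-1) * X + (-1) * X ^ 2 + 1 * X ^ 5 + 1 * X ^ 7

/-- explicit truncation `P2` -/
noncomputable def hm_P2 : PowerSeries ℤ :=
  (1 : PowerSeries ℤ) + (-2) * X + (-1) * X ^ 2 + 2 * X ^ 3 + 1 * X ^ 4 + 2 * X ^ 5 + (-2) * X ^ 6 + (-2) * X ^ 8 + (-2) * X ^ 9

/-- explicit truncation `P3` -/
noncomputable def hm_P3 : PowerSeries ℤ :=
  (1 : PowerSeries ℤ) + (-3) * X + 5 * X ^ 3 + (-7) * X ^ 6

/-- explicit truncation `P6` -/
noncomputable def hm_P6 : PowerSeries ℤ :=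
  (1 : PowerSeries ℤ) + (-6) * X + 9 * X ^ 2 + 10 * X ^ 3 + (-30) * X ^ 4 + 11 * X ^ 6 + 42 * X ^ 7 + (-70) * X ^ 9

/-- explicit truncation `P12` -/
noncomputable def hm_P12 : PowerSeries ℤ :=
  (1 : PowerSeries ℤ) + (-12) * X + 54 * X ^ 2 + (-88) * X ^ 3 + (-99) * X ^ 4 + 540 * X ^ 5 + (-418) * X ^ 6 + (-648) * X ^ 7 + 594 * X ^ 8 + 836 * X ^ 9

/-- explicit truncation `P24` -/
noncomputable def hm_P24 : PowerSeries ℤ :=
  (1 : PowerSeries ℤ) + (-24) * X + 252 * X ^ 2 + (-1472) * X ^ 3 + 4830 * X ^ 4 + (-6048) * X ^ 5 + (-16744) * X ^ 6 + 84480 * X ^ 7 + (-113643) * X ^ 8 + (-115920) * X ^ 9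

/-- explicit truncation `Dh` -/
noncomputable def hm_Dh : PowerSeries ℤ :=
  1 * X + (-24) * X ^ 2 + 252 * X ^ 3 + (-1472) * X ^ 4 + 4830 * X ^ 5 + (-6048) * X ^ 6 + (-16744) * X ^ 7 + 84480 * X ^ 8 + (-113643) * X ^ 9

/-- explicit truncation `P24e` -/
noncomputable def hm_P24e : PowerSeries ℤ :=
  (1 : PowerSeries ℤ) + (-24) * X ^ 2 + 252 * X ^ 4 + (-1472) * X ^ 6 + 4830 * X ^ 8

/-- explicit truncation `D2h` -/
noncomputable def hm_D2h : PowerSeries ℤ :=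
  1 * X ^ 2 + (-24) * X ^ 4 + 252 * X ^ 6 + (-1472) * X ^ 8

/-- explicit truncation `E` -/
noncomputable def hm_E : PowerSeries ℤ :=
  (1 : PowerSeries ℤ) + 240 * X + 2160 * X ^ 2 + 6720 * X ^ 3 + 17520 * X ^ 4 + 30240 * X ^ 5 + 60480 * X ^ 6 + 82560 * X ^ 7 + 140400 * X ^ 8 + 181680 * X ^ 9

/-- explicit truncation `E2` -/
noncomputable def hm_E2 : PowerSeries ℤ :=
  (1 : PowerSeries ℤ) + 480 * X + 61920 * X ^ 2 + 1050240 * X ^ 3 + 7926240 * X ^ 4 + 37500480 * X ^ 5 + 135480960 * X ^ 6 + 395301120 * X ^ 7 + 1014559200 * X ^ 8 + 2296875360 * X ^ 9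

/-- explicit truncation `E3` -/
noncomputable def hm_E3 : PowerSeries ℤ :=
  (1 : PowerSeries ℤ) + 720 * X + 179280 * X ^ 2 + 16954560 * X ^ 3 + 396974160 * X ^ 4 + 4632858720 * X ^ 5 + 34413301440 * X ^ 6 + 187477879680 * X ^ 7 + 814940600400 * X ^ 8 + 2975469665040 * X ^ 9

/-- explicit truncation `L1` -/
noncomputable def hm_L1 : PowerSeries ℤ :=
  1 * X + 696 * X ^ 2 + 162252 * X ^ 3 + 12831808 * X ^ 4 + 34188270 * X ^ 5 + (-882400608) * X ^ 6 + (-833380744) * X ^ 7 + 25487347200 * X ^ 8 + (-20041723323) * X ^ 9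

/-- explicit truncation `L2` -/
noncomputable def hm_L2 : PowerSeries ℤ :=
  1 * X ^ 3 + 696 * X ^ 4 + 162228 * X ^ 5 + 12815104 * X ^ 6 + 30294474 * X ^ 7 + (-1190188608) * X ^ 8 + (-1613013192) * X ^ 9

/-- explicit truncation `S` -/
noncomputable def hm_S : PowerSeries ℤ :=
  1 * X + 232 * X ^ 2 + 252 * X ^ 3 + (-7616) * X ^ 4 + 4830 * X ^ 5 + 58464 * X ^ 6 + (-16744) * X ^ 7 + (-292352) * X ^ 8 + (-113643) * X ^ 9

/-- explicit truncation `S2` -/
noncomputable def hm_S2 : PowerSeries ℤ :=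
  1 * X ^ 2 + 464 * X ^ 3 + 54328 * X ^ 4 + 101696 * X ^ 5 + (-3460660) * X ^ 6 + (-1480416) * X ^ 7 + 87531584 * X ^ 8 + (-52458624) * X ^ 9

/-- explicit truncation `S3` -/
noncomputable def hm_S3 : PowerSeries ℤ :=
  1 * X ^ 3 + 696 * X ^ 4 + 162228 * X ^ 5 + 12815104 * X ^ 6 + 30294474 * X ^ 7 + (-1190188608) * X ^ 8 + (-1613013192) * X ^ 9

/-- explicit truncation `Ee` -/
noncomputable def hm_Ee : PowerSeries ℤ :=
  (1 : PowerSeries ℤ) + 240 * X ^ 2 + 2160 * X ^ 4 + 6720 * X ^ 6 + 17520 * X ^ 8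

/-- explicit truncation `Ee2` -/
noncomputable def hm_Ee2 : PowerSeries ℤ :=
  (1 : PowerSeries ℤ) + 480 * X ^ 2 + 61920 * X ^ 4 + 1050240 * X ^ 6 + 7926240 * X ^ 8

/-- explicit truncation `Ee3` -/
noncomputable def hm_Ee3 : PowerSeries ℤ :=
  (1 : PowerSeries ℤ) + 720 * X ^ 2 + 179280 * X ^ 4 + 16954560 * X ^ 6 + 396974160 * X ^ 8

/-- explicit truncation `M1` -/
noncomputable def hm_M1 : PowerSeries ℤ :=
  1 * X + (-24) * X ^ 2 + 972 * X ^ 3 + (-18752) * X ^ 4 + 365550 * X ^ 5 + (-5368608) * X ^ 6 + 65593976 * X ^ 7 + (-675079680) * X ^ 8 + 5523276357 * X ^ 9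

/-- explicit truncation `M2` -/
noncomputable def hm_M2 : PowerSeries ℤ :=
  1 * X ^ 3 + (-24) * X ^ 4 + 948 * X ^ 5 + (-18176) * X ^ 6 + 342474 * X ^ 7 + (-4924608) * X ^ 8 + 57064248 * X ^ 9

/-- explicit truncation `T` -/
noncomputable def hm_T : PowerSeries ℤ :=
  1 * X + (-8) * X ^ 2 + 252 * X ^ 3 + (-1856) * X ^ 4 + 4830 * X ^ 5 + (-2016) * X ^ 6 + (-16744) * X ^ 7 + 60928 * X ^ 8 + (-113643) * X ^ 9

/-- explicit truncation `T2` -/
noncomputable def hm_T2 : PowerSeries ℤ :=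
  1 * X ^ 2 + (-16) * X ^ 3 + 568 * X ^ 4 + (-7744) * X ^ 5 + 102860 * X ^ 6 + (-1016736) * X ^ 7 + 5877824 * X ^ 8 + (-18555264) * X ^ 9

/-- explicit truncation `T3` -/
noncomputable def hm_T3 : PowerSeries ℤ :=
  1 * X ^ 3 + (-24) * X ^ 4 + 948 * X ^ 5 + (-18176) * X ^ 6 + 342474 * X ^ 7 + (-4924608) * X ^ 8 + 57064248 * X ^ 9

/-! ### The reduction steps, each checked by `ring` -/

theorem hm_step_P2 : hm_P1 * hm_P1 = hm_P2 + X ^ 10 * ((1 : PowerSeries ℤ) + 2 * X ^ 2 + 1 * X ^ 4) := by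
  unfold hm_P1 hm_P2
  ring

theorem hm_step_P3 : hm_P2 * hm_P1 = hm_P3 + X ^ 10 * ((8 : PowerSeries ℤ) + 1 * X + 2 * X ^ 2 + (-4) * X ^ 3 + (-2) * X ^ 4 + (-2) * X ^ 5 + (-2) * X ^ 6) := by
  unfold hm_P2 hm_P1 hm_P3
  ring

theorem hm_step_P6 : hm_P3 * hm_P3 = hm_P6 + X ^ 10 * (49 * X ^ 2) := by
  unfold hm_P3 hm_P6
  ring

theorem hm_step_P12 : hm_P6 * hm_P6 = hm_P12 + X ^ 10 * ((1020 : PowerSeries ℤ) + (-3780) * X + (-1279) * X ^ 2 + 5124 * X ^ 3 + 1764 * X ^ 4 + (-1540) * X ^ 5 + (-5880) * X ^ 6 + 4900 * X ^ 8) := by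
  unfold hm_P6 hm_P12
  ring

theorem hm_step_P24 : hm_P12 * hm_P12 = hm_P24 + X ^ 10 * ((532500 : PowerSeries ℤ) + (-337392) * X + (-789864) * X ^ 2 + 1017720 * X ^ 3 + 826200 * X ^ 4 + (-1468720) * X ^ 5 + (-730620) * X ^ 6 + 993168 * X ^ 7 + 698896 * X ^ 8) := by
  unfold hm_P12 hm_P24
  ring

theorem hm_step_E2 : hm_E * hm_E = hm_E2 + X ^ 10 * ((4837017600 : PowerSeries ℤ) + 9222566400 * X + 16012454400 * X ^ 2 + 24843916800 * X ^ 3 + 34786944000 * X ^ 4 + 45158860800 * X ^ 5 + 49711161600 * X ^ 6 + 51015744000 * X ^ 7 + 33007622400 * X ^ 8) := by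
  unfold hm_E hm_E2
  ring

theorem hm_step_E3 : hm_E2 * hm_E = hm_E3 + X ^ 10 * ((9481630003200 : PowerSeries ℤ) + 25882831180800 * X + 57757565260800 * X ^ 2 + 112719752985600 * X ^ 3 + 189288725760000 * X ^ 4 + 302791487385600 * X ^ 5 + 403892448883200 * X ^ 6 + 506806416000000 * X ^ 7 + 417296315404800 * X ^ 8) := by
  unfold hm_E2 hm_E hm_E3
  ring

theorem hm_step_L1 : hm_E3 * hm_Dh = hm_L1 + X ^ 10 * ((-288074288160 : PowerSeries ℤ) + (-9051951155760) * X + 201649327113600 * X ^ 2 + (-1807540212422160) * X ^ 3 + 8684371855696320 * X ^ 4 + (-19713705487439040) * X ^ 5 + (-2280630830112000) * X ^ 6 + 158755382651322000 * X ^ 7 + (-338141299144140720) * X ^ 8) := by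
  unfold hm_E3 hm_Dh hm_L1
  ring

theorem hm_step_L2 : hm_L1 * hm_D2h = hm_L2 + X ^ 10 * ((49897552896 : PowerSeries ℤ) + 8336023629 * X + (-852949707392) * X ^ 2 + 220664278824 * X ^ 3 + 7721705189376 * X ^ 4 + (-3823777822228) * X ^ 5 + (-37517375078400) * X ^ 6 + 29501416731456 * X ^ 7) := by
  unfold hm_L1 hm_D2h hm_L2
  ring

theorem hm_step_S2 : hm_S * hm_S = hm_S2 + X ^ 10 * ((-1011512338 : PowerSeries ℤ) + 619731088 * X + 7652121848 * X ^ 2 + (-3050952576) * X ^ 3 + (-35001564500) * X ^ 4 + (-3497764928) * X ^ 5 + 89275368688 * X ^ 6 + 66447516672 * X ^ 7 + 12914731449 * X ^ 8) := by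
  unfold hm_S hm_S2
  ring

theorem hm_step_S3 : hm_S2 * hm_S = hm_S3 + X ^ 10 * ((49897552896 : PowerSeries ℤ) + 9347540797 * X + (-906972980144) * X ^ 2 + 757791655224 * X ^ 3 + 5889033292352 * X ^ 4 + (-3706487473220) * X ^ 5 + (-24543427529824) * X ^ 6 + 5389031843136 * X ^ 7 + 5961555407232 * X ^ 8) := by
  unfold hm_S2 hm_S hm_S3
  ring

theorem hm_step_Ee2 : hm_Ee * hm_Ee = hm_Ee2 + X ^ 10 * ((37440000 : PowerSeries ℤ) + 120844800 * X ^ 2 + 235468800 * X ^ 4 + 306950400 * X ^ 6) := by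
  unfold hm_Ee hm_Ee2
  ring

theorem hm_step_Ee3 : hm_Ee2 * hm_Ee = hm_Ee3 + X ^ 10 * ((4595328000 : PowerSeries ℤ) + 25263129600 * X ^ 2 + 71664537600 * X ^ 4 + 138867724800 * X ^ 6) := by
  unfold hm_Ee2 hm_Ee hm_Ee3
  ring

theorem hm_step_M1 : hm_Ee3 * hm_Dh = hm_M1 + X ^ 10 * ((-35507952000 : PowerSeries ℤ) + 178844325840 * X + (-671741568000) * X ^ 2 + 1613124123120 * X ^ 3 + (-968578490880) * X ^ 4 + (-8573702397120) * X ^ 5 + 33536377036800 * X ^ 6 + (-45113334464880) * X ^ 7) := by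
  unfold hm_Ee3 hm_Dh hm_M1
  ring

theorem hm_step_M2 : hm_M1 * hm_D2h = hm_M2 + X ^ 10 * ((-550923264 : PowerSeries ℤ) + 4039708749 * X + 14876626048 * X ^ 2 + (-116567040216) * X ^ 3 + (-162217488384) * X ^ 4 + 1295311309292 * X ^ 5 + 993717288960 * X ^ 6 + (-8130262797504) * X ^ 7) := by
  unfold hm_M1 hm_D2h hm_M2
  ring

theorem hm_step_T2 : hm_T * hm_T = hm_T2 + X ^ 10 * ((21171182 : PowerSeries ℤ) + 75205168 * X + (-441123592) * X ^ 2 + 1077919104 * X ^ 3 + (-1063091540) * X ^ 4 + (-1582148288) * X ^ 5 + 7517897968 * X ^ 6 + (-13848081408) * X ^ 7 + 12914731449 * X ^ 8) := by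
  unfold hm_T hm_T2
  ring

theorem hm_step_T3 : hm_T2 * hm_T = hm_T3 + X ^ 10 * ((-550923264 : PowerSeries ℤ) + 4018542397 * X + (-20537277584) * X ^ 2 + 62619536184 * X ^ 3 + (-77300285248) * X ^ 4 + (-134647882820) * X ^ 5 + 784358330336 * X ^ 6 + (-1798508677824) * X ^ 7 + 2108675866752 * X ^ 8) := by
  unfold hm_T2 hm_T hm_T3
  ring

theorem hm_step_Dh : X * hm_P24 = hm_Dh + X ^ 10 * ((-115920 : PowerSeries ℤ)) := by
  unfold hm_P24 hm_Dh
  ring

theorem hm_step_D2h : X ^ 2 * hm_P24e = hm_D2h + X ^ 10 * ((4830 : PowerSeries ℤ)) := by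
  unfold hm_P24e hm_D2h
  ring

theorem hm_S_eq : hm_Dh + 256 * hm_D2h = hm_S := by
  unfold hm_Dh hm_D2h hm_S
  ring

theorem hm_T_eq : hm_Dh + 16 * hm_D2h = hm_T := by
  unfold hm_Dh hm_D2h hm_T
  ring

theorem hm_L2_eq_S3 : hm_L2 = hm_S3 := rfl

theorem hm_M2_eq_T3 : hm_M2 = hm_T3 := rfl

theorem hm_part_eq : Fermat.Agent.S24.brPartPS ℤ 9 = hm_P1 + X ^ 10 * ((1 : PowerSeries ℤ) + (-2) * X ^ 2 + (-1) * X ^ 3 + (-1) * X ^ 4 + (-1) * X ^ 5 + 1 * X ^ 7 + 1 * X ^ 8 + 1 * X ^ 9 + 2 * X ^ 10 + 1 * X ^ 11 + 1 * X ^ 12 + (-1) * X ^ 13 + (-1) * X ^ 14 + (-2) * X ^ 15 + (-1) * X ^ 16 + (-1) * X ^ 17 + (-1) * X ^ 18 + 1 * X ^ 20 + 1 * X ^ 21 + 1 * X ^ 22 + 2 * X ^ 23 + (-1) * X ^ 25 + (-1) * X ^ 28 + (-1) * X ^ 30 + 1 * X ^ 33 + 1 * X ^ 34 + (-1) * X ^ 35) := by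
  unfold Fermat.Agent.S24.brPartPS hm_P1
  simp only [Finset.prod_range_succ, Finset.prod_range_zero]
  ring

/-! ### Expansions `X ↦ X ^ 2` of the explicit truncations -/

theorem hm_expand_P24 : PowerSeries.expand 2 two_ne_zero hm_P24 =
    hm_P24e + X ^ 10 * ((-6048 : PowerSeries ℤ) + (-16744) * X ^ 2 + 84480 * X ^ 4 + (-113643) * X ^ 6 + (-115920) * X ^ 8) := by
  unfold hm_P24 hm_P24e
  simp only [map_add, map_mul, map_pow, map_neg, map_ofNat, map_one, expand_X]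
  ring

theorem hm_expand_E : PowerSeries.expand 2 two_ne_zero hm_E =
    hm_Ee + X ^ 10 * ((30240 : PowerSeries ℤ) + 60480 * X ^ 2 + 82560 * X ^ 4 + 140400 * X ^ 6 + 181680 * X ^ 8) := by
  unfold hm_E hm_Ee
  simp only [map_add, map_mul, map_pow, map_ofNat, map_one, expand_X]
  ring

/-! ### The congruences for the actual series -/

open ModularCurve

theorem hm_cong_etaProd : hm_Cong 10 etaProd hm_P1 := by
  have h1 : hm_Cong 10 etaProd (Fermat.Agent.S24.brPartPS ℤ 9) := by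
    rw [hm_Cong.iff_coeff]
    intro m hm
    exact Fermat.Agent.S24.br_coeff_etaProd (by omega)
  exact h1.trans (hm_Cong.of_eq hm_part_eq)

theorem hm_cong_eta24 : hm_Cong 10 dedekindEtaUnit hm_P24 := by
  have h1 := hm_cong_etaProd
  have h2 := h1.mul_eq h1 hm_step_P2
  have h3 := h2.mul_eq h1 hm_step_P3
  have h6 := h3.mul_eq h3 hm_step_P6
  have h12 := h6.mul_eq h6 hm_step_P12
  have h24 := h12.mul_eq h12 hm_step_P24
  have : dedekindEtaUnit = etaProd * etaProd * etaProd * (etaProd * etaProd * etaProd) *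
      (etaProd * etaProd * etaProd * (etaProd * etaProd * etaProd)) *
      (etaProd * etaProd * etaProd * (etaProd * etaProd * etaProd) *
      (etaProd * etaProd * etaProd * (etaProd * etaProd * etaProd))) := by
    unfold dedekindEtaUnit
    ring
  rw [this]
  exact h24

theorem hm_E_eq : hm_E = C (1:ℤ) * X ^ 0 + C (240:ℤ) * X ^ 1 + C (2160:ℤ) * X ^ 2 +
    C (6720:ℤ) * X ^ 3 + C (17520:ℤ) * X ^ 4 + C (30240:ℤ) * X ^ 5 + C (60480:ℤ) * X ^ 6 +
    C (82560:ℤ) * X ^ 7 + C (140400:ℤ) * X ^ 8 + C (181680:ℤ) * X ^ 9 := by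
  unfold hm_E
  simp only [map_ofNat, map_one, pow_zero, pow_one, mul_one]

theorem hm_cong_E : hm_Cong 10 eisenstein4 hm_E := by
  rw [hm_Cong.iff_coeff]
  intro m hm
  rw [hm_E_eq]
  unfold eisenstein4
  simp only [coeff_mk, map_add, coeff_C_mul_X_pow]
  interval_cases m <;> simp <;> decide

/-- `D = X * etaProd ^ 24` modulo `X ^ 10`. -/
theorem hm_cong_D : hm_Cong 10 (X * dedekindEtaUnit) hm_Dh :=
  (hm_Cong.const_mul X hm_cong_eta24).trans (hm_Cong.of_eq hm_step_Dh)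

/-- `D₂ = X ^ 2 * (etaProd ^ 24)(X ^ 2)` modulo `X ^ 10`. -/
theorem hm_cong_D2 :
    hm_Cong 10 (X ^ 2 * PowerSeries.expand 2 two_ne_zero dedekindEtaUnit) hm_D2h :=
  (hm_Cong.const_mul (X ^ 2)
    ((hm_cong_eta24.expand two_ne_zero).trans (hm_Cong.of_eq hm_expand_P24))).trans
    (hm_Cong.of_eq hm_step_D2h)

theorem hm_cong_Ee : hm_Cong 10 (PowerSeries.expand 2 two_ne_zero eisenstein4) hm_Ee :=
  (hm_cong_E.expand two_ne_zero).trans (hm_Cong.of_eq hm_expand_E)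

/-- **First identity modulo `X ^ 10`.** -/
theorem hm_trunc_id1 :
    hm_Cong 10
      (eisenstein4 * eisenstein4 * eisenstein4 * (X * dedekindEtaUnit) *
        (X ^ 2 * PowerSeries.expand 2 two_ne_zero dedekindEtaUnit))
      ((X * dedekindEtaUnit + 256 * (X ^ 2 * PowerSeries.expand 2 two_ne_zero dedekindEtaUnit)) *
        (X * dedekindEtaUnit + 256 * (X ^ 2 * PowerSeries.expand 2 two_ne_zero dedekindEtaUnit)) *
        (X * dedekindEtaUnit +
          256 * (X ^ 2 * PowerSeries.expand 2 two_ne_zero dedekindEtaUnit))) := by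
  have hE := hm_cong_E
  have hE2 := hE.mul_eq hE hm_step_E2
  have hE3 := hE2.mul_eq hE hm_step_E3
  have hL1 := hE3.mul_eq hm_cong_D hm_step_L1
  have hL2 := hL1.mul_eq hm_cong_D2 hm_step_L2
  have hS : hm_Cong 10
      (X * dedekindEtaUnit + 256 * (X ^ 2 * PowerSeries.expand 2 two_ne_zero dedekindEtaUnit))
      hm_S := by
    rw [← hm_S_eq]
    exact hm_cong_D.add (hm_Cong.const_mul 256 hm_cong_D2)
  have hS2 := hS.mul_eq hS hm_step_S2
  have hS3 := hS2.mul_eq hS hm_step_S3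
  exact hL2.trans (hm_L2_eq_S3 ▸ hS3.symm)

/-- **Second identity modulo `X ^ 10`.** -/
theorem hm_trunc_id2 :
    hm_Cong 10
      (PowerSeries.expand 2 two_ne_zero eisenstein4 * PowerSeries.expand 2 two_ne_zero eisenstein4 *
        PowerSeries.expand 2 two_ne_zero eisenstein4 * (X * dedekindEtaUnit) *
        (X ^ 2 * PowerSeries.expand 2 two_ne_zero dedekindEtaUnit))
      ((X * dedekindEtaUnit + 16 * (X ^ 2 * PowerSeries.expand 2 two_ne_zero dedekindEtaUnit)) *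
        (X * dedekindEtaUnit + 16 * (X ^ 2 * PowerSeries.expand 2 two_ne_zero dedekindEtaUnit)) *
        (X * dedekindEtaUnit +
          16 * (X ^ 2 * PowerSeries.expand 2 two_ne_zero dedekindEtaUnit))) := by
  have hE := hm_cong_Ee
  have hE2 := hE.mul_eq hE hm_step_Ee2
  have hE3 := hE2.mul_eq hE hm_step_Ee3
  have hM1 := hE3.mul_eq hm_cong_D hm_step_M1
  have hM2 := hM1.mul_eq hm_cong_D2 hm_step_M2
  have hT : hm_Cong 10
      (X * dedekindEtaUnit + 16 * (X ^ 2 * PowerSeries.expand 2 two_ne_zero dedekindEtaUnit))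
      hm_T := by
    rw [← hm_T_eq]
    exact hm_cong_D.add (hm_Cong.const_mul 16 hm_cong_D2)
  have hT2 := hT.mul_eq hT hm_step_T2
  have hT3 := hT2.mul_eq hT hm_step_T3
  exact hM2.trans (hm_M2_eq_T3 ▸ hT3.symm)

end Fermat.Agent.JT3
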