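import Mathlib
import Fermat.Agent.S16.Fricke
import Fermat.Agent.S16.NormExpansion
import Fermat.Agent.S24.Bridge.JqExpansion
import Fermat.Agent.S24.Comb.Index
import Fermat.Prelude.Thm_ModularForm_sturm_bound_Gamma0
import Fermat.Agent.JT3.Hauptmodul.Trunc

/-!
# JT3 / node D0 (Hauptmoduln), level 2: the two identities, exactly

With `E = eisenstein4`, `D = X * etaProd ^ 24`, `D₂ = X ^ 2 * (etaProd ^ 24)(X ^ 2)` in `ℤ⟦X⟧`:

* `hm_id1 : E ^ 3 * D * D₂ = (D + 256 * D₂) ^ 3`          (`j · t² = (t + 256)³`, `t = D / D₂`),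
* `hm_id2 : E(X ^ 2) ^ 3 * D * D₂ = (D + 16 * D₂) ^ 3`    (`j(q²) · t = (t + 16)³`).

Proof: both sides are `q`-expansions of modular forms of weight `36` on `Γ₀(2)` (index `3`), the
Sturm bound is `9`, and the difference vanishes modulo `X ^ 10` by `Hauptmodul/Trunc.lean`.
-/

set_option autoImplicit false

open UpperHalfPlane ModularForm CongruenceSubgroup EisensteinSeries
open scoped MatrixGroups ModularForm Manifold
open Fermat.Agent.S23 Fermat.Agent.S23.QF Fermat.Agent.S16 Fermat.Agent.S24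

noncomputable section

namespace Fermat.Agent.JT3

local notation "Δ" => ModularForm.discriminant

/-- `Δ` as a level one modular form. -/
def hm_DeltaOne : ModularForm 𝒮ℒ 12 := ModularFormClass.modularForm CuspForm.discriminant

theorem hm_coe_DeltaOne : (⇑hm_DeltaOne : ℍ → ℂ) = Δ := rfl

/-- `z ↦ E₄ (2 z)` as a function. -/
def hm_E4two : ℍ → ℂ := fun z => E₄ (alphaN 2 • z)

/-- `z ↦ Δ (2 z)` as a function. -/
def hm_Dtwo : ℍ → ℂ := fun z => Δ (alphaN 2 • z)

theorem hm_isQFun_Delta : IsQFun (Δ : ℍ → ℂ) := by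
  have h : (Δ : ℍ → ℂ) = qH * etaProdH := by
    ext z
    simp only [etaProdH, Pi.mul_apply, Pi.div_apply]
    rw [mul_div_cancel₀]
    exact Function.Periodic.qParam_ne_zero _
  rw [h]
  exact isQFun_qH.mul isQFun_etaProdH

theorem hm_qExpansion_Delta :
    qExpansion 1 (Δ : ℍ → ℂ) =
      (PowerSeries.X * ModularCurve.dedekindEtaUnit).map (Int.castRingHom ℂ) := by
  have h : (Δ : ℍ → ℂ) = qH * etaProdH := by
    ext z
    simp only [etaProdH, Pi.mul_apply, Pi.div_apply]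
    rw [mul_div_cancel₀]
    exact Function.Periodic.qParam_ne_zero _
  rw [h, qExpansion_mul isQFun_qH.analyticAt isQFun_etaProdH.analyticAt, br_qExpansion_qH,
    br_qExpansion_etaProdH, map_mul, PowerSeries.map_X]

theorem hm_isQFun_E4two : IsQFun hm_E4two := ne_isQFun_alphaN 2 isQFun_E4

theorem hm_isQFun_Dtwo : IsQFun hm_Dtwo := ne_isQFun_alphaN 2 hm_isQFun_Delta

theorem hm_qExpansion_E4two :
    qExpansion 1 hm_E4two =
      (PowerSeries.expand 2 two_ne_zero ModularCurve.eisenstein4).map (Int.castRingHom ℂ) := by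
  unfold hm_E4two
  rw [ne_qExpansion_alphaN 2 isQFun_E4, expandP_eq_expand two_ne_zero,
    br_qExpansion_E4, PowerSeries.map_expand]

theorem hm_qExpansion_Dtwo :
    qExpansion 1 hm_Dtwo =
      (PowerSeries.X ^ 2 * PowerSeries.expand 2 two_ne_zero ModularCurve.dedekindEtaUnit).map
        (Int.castRingHom ℂ) := by
  unfold hm_Dtwo
  rw [ne_qExpansion_alphaN 2 hm_isQFun_Delta, expandP_eq_expand two_ne_zero,
    hm_qExpansion_Delta, ← PowerSeries.map_expand, map_mul (PowerSeries.expand 2 two_ne_zero),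
    PowerSeries.expand_X]


/-! ### The forms at level `2` -/

/-- `E₄` at level `2`. -/
def hm_E4f : ModularForm (Gamma0 2) 4 := fr_ofLevelOne 2 E₄

/-- `Δ` at level `2`. -/
def hm_Df : ModularForm (Gamma0 2) 12 := fr_ofLevelOne 2 hm_DeltaOne

/-- `E₄ (2 z)` at level `2`. -/
def hm_E4sf : ModularForm (Gamma0 2) 4 := sharpForm 2 hm_E4f

/-- `Δ (2 z)` at level `2`. -/
def hm_Dsf : ModularForm (Gamma0 2) 12 := sharpForm 2 hm_Df

theorem hm_coe_E4f : (⇑hm_E4f : ℍ → ℂ) = ⇑E₄ := rfl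

theorem hm_coe_Df : (⇑hm_Df : ℍ → ℂ) = Δ := rfl

theorem hm_coe_E4sf : (⇑hm_E4sf : ℍ → ℂ) = hm_E4two := sharp_levelOne 2 E₄

theorem hm_coe_Dsf : (⇑hm_Dsf : ℍ → ℂ) = hm_Dtwo := sharp_levelOne 2 hm_DeltaOne

theorem hm_index_two : (Gamma0 2).index = 3 := by
  rw [Fermat.Agent.S24.Comb.index_Gamma0 2 two_ne_zero,
    Fermat.Agent.S24.Comb.dedekindPsi_prime Nat.prime_two]

/-- Sturm at level `2`, weight `36`, for forms with integral `q`-expansion. -/
theorem hm_sturm (F : ModularForm (Gamma0 2) 36) (P : PowerSeries ℤ)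
    (hq : qExpansion 1 (⇑F : ℍ → ℂ) = P.map (Int.castRingHom ℂ)) (hP : hm_Cong 10 P 0) :
    P = 0 := by
  have hF : F = 0 := by
    apply ModularForm.sturm_bound_Gamma0 2 F
    intro n hn
    rw [hm_index_two] at hn
    have hn' : n < 10 := by
      have : ((36 : ℤ) * ((3 : ℕ) : ℤ)).toNat / 12 = 9 := by decide
      omega
    rw [hq, PowerSeries.coeff_map, (hm_Cong.iff_coeff.mp hP) n hn']
    simp
  have h0 : P.map (Int.castRingHom ℂ) = 0 := by
    rw [← hq, hF]
    exact qExpansion_zero 1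
  ext n
  have := congrArg (PowerSeries.coeff n) h0
  rw [PowerSeries.coeff_map] at this
  simpa using this


/-- The weight `36` form `E ^ 3 * Δ * Δ₂ - (Δ + a Δ₂) ^ 3` on `Γ₀(2)`. -/
def hm_relForm (E : ModularForm (Gamma0 2) 4) (a : ℂ) : ModularForm (Gamma0 2) 36 :=
  mcast (by norm_num) (((E.pow 3).mul hm_Df).mul hm_Dsf) -
    mcast (by norm_num) ((hm_Df + a • hm_Dsf).pow 3)

theorem hm_coe_relForm (E : ModularForm (Gamma0 2) 4) (a : ℂ) :
    (⇑(hm_relForm E a) : ℍ → ℂ) =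
      (⇑E : ℍ → ℂ) ^ 3 * Δ * hm_Dtwo - ((Δ : ℍ → ℂ) + a • hm_Dtwo) ^ 3 := by
  unfold hm_relForm
  rw [FunLike.coe_sub, ModularForm.coe_mcast, ModularForm.coe_mcast, ModularForm.coe_mul,
    ModularForm.coe_mul, ModularForm.coe_pow, ModularForm.coe_pow, FunLike.coe_add,
    FunLike.coe_smul, hm_coe_Df, hm_coe_Dsf]

/-- The integral power series `P ^ 3 * D * D₂ - (D + c D₂) ^ 3`. -/
def hm_relPS (PE : PowerSeries ℤ) (c : ℤ) : PowerSeries ℤ :=
  PE ^ 3 * (PowerSeries.X * ModularCurve.dedekindEtaUnit) *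
      (PowerSeries.X ^ 2 * PowerSeries.expand 2 two_ne_zero ModularCurve.dedekindEtaUnit) -
    (PowerSeries.X * ModularCurve.dedekindEtaUnit +
      PowerSeries.C c *
        (PowerSeries.X ^ 2 * PowerSeries.expand 2 two_ne_zero ModularCurve.dedekindEtaUnit)) ^ 3

theorem hm_qExpansion_rel {Ef : ℍ → ℂ} (hE : IsQFun Ef) (PE : PowerSeries ℤ)
    (hPE : qExpansion 1 Ef = PE.map (Int.castRingHom ℂ)) (c : ℤ) :
    qExpansion 1 (Ef ^ 3 * Δ * hm_Dtwo - ((Δ : ℍ → ℂ) + (c : ℂ) • hm_Dtwo) ^ 3) =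
      (hm_relPS PE c).map (Int.castRingHom ℂ) := by
  have hD := hm_isQFun_Delta
  have hD2 := hm_isQFun_Dtwo
  rw [qExpansion_sub (((hE.pow 3).mul hD).mul hD2).analyticAt
      ((hD.add (hD2.smul (c : ℂ))).pow 3).analyticAt,
    qExpansion_mul ((hE.pow 3).mul hD).analyticAt hD2.analyticAt,
    qExpansion_mul (hE.pow 3).analyticAt hD.analyticAt,
    qExpansion_pow_of_isQFun hE, qExpansion_pow_of_isQFun (hD.add (hD2.smul (c : ℂ))),
    qExpansion_add hD.analyticAt (hD2.smul (c : ℂ)).analyticAt,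
    qExpansion_smul hD2.analyticAt, hPE, hm_qExpansion_Delta, hm_qExpansion_Dtwo]
  unfold hm_relPS
  simp only [map_sub, map_mul, map_pow, map_add, PowerSeries.map_C, PowerSeries.smul_eq_C_mul]
  simp


theorem hm_relPS_eq_zero (E : ModularForm (Gamma0 2) 4) (PE : PowerSeries ℤ)
    (hPE : qExpansion 1 (⇑E : ℍ → ℂ) = PE.map (Int.castRingHom ℂ)) (c : ℤ)
    (hc : hm_Cong 10 (hm_relPS PE c) 0) : hm_relPS PE c = 0 := by
  apply hm_sturm (hm_relForm E (c : ℂ)) _ _ hc
  rw [hm_coe_relForm]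
  exact hm_qExpansion_rel (fr_isQFun_coe 2 E) PE hPE c

open PowerSeries ModularCurve in
/-- **First level-`2` identity** (`j · t² = (t + 256)³` for `t = Δ(q)/Δ(q²)`), in `ℤ⟦X⟧`. -/
theorem hm_id1 :
    eisenstein4 ^ 3 * (X * dedekindEtaUnit) * (X ^ 2 * expand 2 two_ne_zero dedekindEtaUnit) =
      (X * dedekindEtaUnit + 256 * (X ^ 2 * expand 2 two_ne_zero dedekindEtaUnit)) ^ 3 := by
  have h := hm_relPS_eq_zero hm_E4f eisenstein4 (by rw [hm_coe_E4f]; exact br_qExpansion_E4) 256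
    (by
      have h1 := hm_trunc_id1
      unfold hm_Cong at h1 ⊢
      convert h1 using 1
      unfold hm_relPS
      simp only [map_ofNat]
      ring)
  unfold hm_relPS at h
  simp only [map_ofNat] at h
  exact sub_eq_zero.mp h

open PowerSeries ModularCurve in
/-- **Second level-`2` identity** (`j(q²) · t = (t + 16)³`), in `ℤ⟦X⟧`. -/
theorem hm_id2 :
    (expand 2 two_ne_zero eisenstein4) ^ 3 * (X * dedekindEtaUnit) *
        (X ^ 2 * expand 2 two_ne_zero dedekindEtaUnit) =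
      (X * dedekindEtaUnit + 16 * (X ^ 2 * expand 2 two_ne_zero dedekindEtaUnit)) ^ 3 := by
  have h := hm_relPS_eq_zero hm_E4sf (expand 2 two_ne_zero eisenstein4)
    (by rw [hm_coe_E4sf]; exact hm_qExpansion_E4two) 16
    (by
      have h1 := hm_trunc_id2
      unfold hm_Cong at h1 ⊢
      convert h1 using 1
      unfold hm_relPS
      simp only [map_ofNat]
      ring)
  unfold hm_relPS at h
  simp only [map_ofNat] at h
  exact sub_eq_zero.mp h

end Fermat.Agent.JT3
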