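import Mathlib
import Fermat.Agent.JT.Kronecker
import Fermat.Agent.S28.Formal.Series
import Fermat.Agent.JT3.Hauptmodul.Level2Analytic

/-!
# JT3 / node D0 (Hauptmoduln), level 2: the Hauptmodul `t₂ = Δ(q)/Δ(q²)` over any ring

For every commutative ring `R`, in `LaurentSeries R` (`j = jqModC R`, `j₂ = qExpand R 2 j`):

* `hm_t2_id1 : j * t₂ ^ 2 = (t₂ + 256) ^ 3`,
* `hm_t2_id2 : j₂ * t₂ = (t₂ + 16) ^ 3`,

with `t₂ = hm_t2 R = fs_Delta R * qExpand R 2 (fs_DeltaInv R)` (`= fs_u 1 1 1 2` of the S28 formal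
library), a unit of `LaurentSeries R` of order `-1` and leading coefficient `1`, natural in `R`.
-/

set_option autoImplicit false

noncomputable section

open ModularCurve HahnSeries
open Fermat.Agent.S28 Fermat.Agent.JT

namespace Fermat.Agent.JT3

variable (R : Type*) [CommRing R] {S : Type*} [CommRing S]

/-- Integral power series into Laurent series over `R`. -/
def hm_iota : PowerSeries ℤ →+* LaurentSeries R :=
  (HahnSeries.ofPowerSeries ℤ R).comp (PowerSeries.map (Int.castRingHom R))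

theorem hm_iota_apply (P : PowerSeries ℤ) :
    hm_iota R P = HahnSeries.ofPowerSeries ℤ R (P.map (Int.castRingHom R)) := rfl

theorem hm_iota_X : hm_iota R PowerSeries.X = HahnSeries.single 1 1 := by
  rw [hm_iota_apply, PowerSeries.map_X, HahnSeries.ofPowerSeries_X]

theorem hm_iota_expand (p : ℕ) [NeZero p] (P : PowerSeries ℤ) :
    hm_iota R (PowerSeries.expand p (NeZero.ne p) P) = qExpand R p (hm_iota R P) := by
  rw [hm_iota_apply, PowerSeries.map_expand, kc_ofPowerSeries_expand, hm_iota_apply]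

theorem hm_iota_Delta : hm_iota R (PowerSeries.X * dedekindEtaUnit) = fs_Delta R := by
  rw [map_mul, hm_iota_X, fs_Delta, fs_shift, hm_iota_apply]

theorem hm_iota_Delta2 :
    hm_iota R (PowerSeries.X ^ 2 * PowerSeries.expand 2 two_ne_zero dedekindEtaUnit) =
      qExpand R 2 (fs_Delta R) := by
  have h1 : hm_iota R (PowerSeries.X ^ 2) = qExpand R 2 (hm_iota R PowerSeries.X) := by
    rw [map_pow, hm_iota_X, qExpand_single, HahnSeries.single_pow, one_pow]
    simp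
  have h2 := hm_iota_expand R 2 dedekindEtaUnit
  rw [← hm_iota_Delta, map_mul (hm_iota R), map_mul (hm_iota R), map_mul (qExpand R 2), h1]
  exact congrArg _ h2

/-- `hm_iota_Delta`, split. -/
theorem hm_iota_Delta' :
    hm_iota R PowerSeries.X * hm_iota R dedekindEtaUnit = fs_Delta R := by
  rw [← map_mul, hm_iota_Delta]

/-- `hm_iota_Delta2`, split. -/
theorem hm_iota_Delta2' :
    hm_iota R PowerSeries.X ^ 2 *
      hm_iota R (PowerSeries.expand 2 two_ne_zero dedekindEtaUnit) = qExpand R 2 (fs_Delta R) := by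
  rw [← map_pow, ← map_mul, hm_iota_Delta2]

theorem hm_jq_eq : jqModC R = hm_iota R eisenstein4 ^ 3 * fs_DeltaInv R := by
  rw [jqModC, fs_DeltaInv, fs_shift, jNum, ← hm_iota_apply, ← hm_iota_apply, map_mul, map_pow]
  ring

/-- The level-`2` Hauptmodul `t₂ = Δ(q)/Δ(q²) = q⁻¹ ∏ (1 - qⁿ)²⁴ / (1 - q²ⁿ)²⁴` over `R`. -/
def hm_t2 : LaurentSeries R := fs_Delta R * qExpand R 2 (fs_DeltaInv R)

/-- The inverse `Δ(q²)/Δ(q)` of `t₂`. -/
def hm_t2Inv : LaurentSeries R := fs_DeltaInv R * qExpand R 2 (fs_Delta R)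

theorem hm_D2_mul_inv : qExpand R 2 (fs_Delta R) * qExpand R 2 (fs_DeltaInv R) = 1 := by
  rw [← map_mul, fs_Delta_mul_inv, map_one]

theorem hm_t2_mul_inv : hm_t2 R * hm_t2Inv R = 1 := by
  have h1 := fs_Delta_mul_inv R
  have h2 := hm_D2_mul_inv R
  calc hm_t2 R * hm_t2Inv R
      = (fs_Delta R * fs_DeltaInv R) *
          (qExpand R 2 (fs_Delta R) * qExpand R 2 (fs_DeltaInv R)) := by
        rw [hm_t2, hm_t2Inv]; ring
    _ = 1 := by rw [h1, h2, one_mul]

theorem hm_t2Inv_mul : hm_t2Inv R * hm_t2 R = 1 := by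
  rw [mul_comm, hm_t2_mul_inv]

theorem hm_isUnit_t2 : IsUnit (hm_t2 R) := IsUnit.of_mul_eq_one _ (hm_t2_mul_inv R)

theorem hm_t2_eq_fs_u : hm_t2 R = fs_u (1 : Rˣ) 1 1 2 := by
  rw [fs_u, hm_t2, fs_subst_one_eq_qExpand, fs_subst_one_eq_qExpand, qExpand_one_apply]
  simp

variable {R} in
theorem hm_coeffMap_t2 (φ : R →+* S) : coeffMap φ (hm_t2 R) = hm_t2 S := by
  rw [hm_t2_eq_fs_u, hm_t2_eq_fs_u, fs_coeffMap_u]
  simp

/-! ### `t₂` as a shifted integral power series -/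

/-- `q t₂ = ∏ (1 - qⁿ)²⁴ / (1 - q²ⁿ)²⁴` as an integral power series. -/
def hm_t2Num : PowerSeries ℤ :=
  dedekindEtaUnit * PowerSeries.expand 2 two_ne_zero dedekindEtaUnitInv

theorem hm_constantCoeff_t2Num : PowerSeries.constantCoeff hm_t2Num = 1 := by
  rw [hm_t2Num, map_mul, constantCoeff_dedekindEtaUnit, one_mul,
    ← PowerSeries.coeff_zero_eq_constantCoeff_apply]
  have := PowerSeries.coeff_expand_mul 2 two_ne_zero dedekindEtaUnitInv 0
  rw [mul_zero] at this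
  rw [this, PowerSeries.coeff_zero_eq_constantCoeff_apply, constantCoeff_dedekindEtaUnitInv]

theorem hm_qExpand_shift (p : ℕ) [NeZero p] (m : ℤ) (P : PowerSeries ℤ) :
    qExpand R p (fs_shift m (P.map (Int.castRingHom R))) =
      fs_shift ((p : ℤ) * m)
        ((PowerSeries.expand p (NeZero.ne p) P).map (Int.castRingHom R)) := by
  rw [fs_shift, fs_shift, map_mul, qExpand_single, ← hm_iota_apply, ← hm_iota_apply,
    hm_iota_expand]

theorem hm_t2_eq_shift : hm_t2 R = fs_shift (-1) (hm_t2Num.map (Int.castRingHom R)) := by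
  rw [hm_t2, fs_Delta, fs_DeltaInv, hm_qExpand_shift, fs_shift_mul, ← map_mul]
  rfl

theorem hm_constantCoeff_t2Num_map :
    PowerSeries.constantCoeff (hm_t2Num.map (Int.castRingHom R)) = 1 := by
  rw [← PowerSeries.coeff_zero_eq_constantCoeff_apply, PowerSeries.coeff_map,
    PowerSeries.coeff_zero_eq_constantCoeff_apply, hm_constantCoeff_t2Num, map_one]

theorem hm_t2_order [Nontrivial R] : (hm_t2 R).order = -1 := by
  rw [hm_t2_eq_shift]
  exact fs_shift_order _ _ (by rw [hm_constantCoeff_t2Num_map]; exact one_ne_zero)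

theorem hm_t2_coeff_neg_one : (hm_t2 R).coeff (-1) = 1 := by
  rw [hm_t2_eq_shift, fs_shift_coeff_self, hm_constantCoeff_t2Num_map]

theorem hm_t2_coeff_of_lt {n : ℤ} (h : n < -1) : (hm_t2 R).coeff n = 0 := by
  rw [hm_t2_eq_shift]
  exact fs_shift_coeff_of_lt _ _ h

theorem hm_t2_leadingCoeff [Nontrivial R] : (hm_t2 R).leadingCoeff = 1 := by
  rw [hm_t2_eq_shift, fs_shift_leadingCoeff _ _
    (by rw [hm_constantCoeff_t2Num_map]; exact one_ne_zero), hm_constantCoeff_t2Num_map]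

/-- Algebra behind `hm_t2_id1`. -/
theorem hm_alg1 {A : Type*} [CommRing A] (E D Di D2 D2i c : A)
    (h : E ^ 3 * D * D2 = (D + c * D2) ^ 3) (h1 : Di * D = 1) (h2 : D2 * D2i = 1) :
    (E ^ 3 * Di) * (D * D2i) ^ 2 = (D * D2i + c) ^ 3 := by
  calc (E ^ 3 * Di) * (D * D2i) ^ 2
      = E ^ 3 * D * D2i ^ 2 * (Di * D) := by ring
    _ = E ^ 3 * D * D2i ^ 2 * (D2 * D2i) := by rw [h1, h2]
    _ = (E ^ 3 * D * D2) * D2i ^ 3 := by ring
    _ = (D + c * D2) ^ 3 * D2i ^ 3 := by rw [h]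
    _ = (D * D2i + c * (D2 * D2i)) ^ 3 := by ring
    _ = (D * D2i + c) ^ 3 := by rw [h2, mul_one]

/-- Algebra behind `hm_t2_id2`. -/
theorem hm_alg2 {A : Type*} [CommRing A] (E D D2 D2i c : A)
    (h : E ^ 3 * D * D2 = (D + c * D2) ^ 3) (h2 : D2 * D2i = 1) :
    (E ^ 3 * D2i) * (D * D2i) = (D * D2i + c) ^ 3 := by
  calc (E ^ 3 * D2i) * (D * D2i)
      = E ^ 3 * D * D2i ^ 2 * 1 := by ring
    _ = E ^ 3 * D * D2i ^ 2 * (D2 * D2i) := by rw [h2]
    _ = (E ^ 3 * D * D2) * D2i ^ 3 := by ring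
    _ = (D + c * D2) ^ 3 * D2i ^ 3 := by rw [h]
    _ = (D * D2i + c * (D2 * D2i)) ^ 3 := by ring
    _ = (D * D2i + c) ^ 3 := by rw [h2, mul_one]

/-- **First level-`2` identity**: `j t₂² = (t₂ + 256)³`. -/
theorem hm_t2_id1 : jqModC R * hm_t2 R ^ 2 = (hm_t2 R + 256) ^ 3 := by
  have h := congrArg (hm_iota R) hm_id1
  simp only [map_mul, map_pow, map_add, map_ofNat] at h
  rw [hm_iota_Delta', hm_iota_Delta2'] at h
  rw [hm_jq_eq, hm_t2]
  exact hm_alg1 _ _ _ _ _ _ h (fs_DeltaInv_mul R) (hm_D2_mul_inv R)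

/-- **Second level-`2` identity**: `j(q²) t₂ = (t₂ + 16)³`. -/
theorem hm_t2_id2 : qExpand R 2 (jqModC R) * hm_t2 R = (hm_t2 R + 16) ^ 3 := by
  have h := congrArg (hm_iota R) hm_id2
  simp only [map_mul, map_pow, map_add, map_ofNat] at h
  rw [hm_iota_Delta', hm_iota_Delta2',
    show hm_iota R (PowerSeries.expand 2 two_ne_zero eisenstein4) =
      qExpand R 2 (hm_iota R eisenstein4) from hm_iota_expand R 2 eisenstein4] at h
  rw [hm_jq_eq, map_mul, map_pow, hm_t2]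
  exact hm_alg2 _ _ _ _ _ h (hm_D2_mul_inv R)

end Fermat.Agent.JT3
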