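import Mathlib
import Fermat.Agent.JT3.Hauptmodul.Level2
import Fermat.Prelude.Thm_ModularCurve_coeffMap_qExpand

/-!
# JT3 / node D0 (Hauptmoduln), level 4 and the Legendre modulus, over any ring

Pure algebra on top of `Hauptmodul/Level2.lean`.  In `LaurentSeries R` (`R` any commutative ring)
put `a = t₂(q) = hm_t2 R`, `b = t₂(q²) = qExpand R 2 (hm_t2 R)`, `j₂ = j(q²)`.  Then
`j₂ a = (a + 16)³`, `j₂ b² = (b + 256)³`, hence `(a b - 4096) (a² b + 48 a b + 4096 a - b²) = 0`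
with `a b - 4096` a unit.  Consequently

* `t₄ := (b - 16 a) / (a + 16)` (`hm_t4`) satisfies `a (t₄ + 16) = t₄²`, `b = t₄ (t₄ + 16)` and
  `j₂ t₄² (t₄ + 16)² = (t₄² + 16 t₄ + 256)³`  (Hauptmodul of `Γ₀(4)`, cusps `t₄ = 0, -16, ∞`);
* `λ := 16 (a + 16) / (b + 256) = 16 / (t₄ + 16)` (`hm_lam`) is an integral power series
  `16 q - 128 q² + ⋯` of order `1` solving the **Legendre equation**
  `256 (λ² - λ + 1)³ = j(q²) λ² (λ - 1)²`.
-/

set_option autoImplicit false

noncomputable section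

open ModularCurve HahnSeries
open Fermat.Agent.S28 Fermat.Agent.JT

namespace Fermat.Agent.JT3

/-! ### Abstract algebra -/

section alg

variable {A : Type*} [CommRing A]

/-- The two level-`2` relations force the level-`4` relation, once `a b - 4096` is a unit. -/
theorem hm_alg_Q (j a b : A) (h1 : j * a = (a + 16) ^ 3) (h2 : j * b ^ 2 = (b + 256) ^ 3)
    (hu : IsUnit (a * b - 4096)) : a ^ 2 * b + 48 * a * b + 4096 * a - b ^ 2 = 0 := by
  have hP : (a * b - 4096) * (a ^ 2 * b + 48 * a * b + 4096 * a - b ^ 2) = (a * b - 4096) * 0 := by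
    linear_combination (-b ^ 2) * h1 + a * h2
  exact hu.mul_left_cancel hP

theorem hm_alg_t4a (a b t : A) (hQ : a ^ 2 * b + 48 * a * b + 4096 * a - b ^ 2 = 0)
    (ht : t * (a + 16) = b - 16 * a) (hv : IsUnit (a + 16)) : a * (t + 16) = t ^ 2 := by
  have h : (a + 16) ^ 2 * (a * (t + 16)) = (a + 16) ^ 2 * t ^ 2 := by
    linear_combination hQ + (a * (a + 16) - (t * (a + 16) + (b - 16 * a))) * ht
  exact (hv.pow 2).mul_left_cancel h

theorem hm_alg_t4b (a b t : A) (hQ : a ^ 2 * b + 48 * a * b + 4096 * a - b ^ 2 = 0)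
    (ht : t * (a + 16) = b - 16 * a) (hv : IsUnit (a + 16)) : b = t * (t + 16) := by
  have h : (a + 16) ^ 2 * b = (a + 16) ^ 2 * (t * (t + 16)) := by
    linear_combination hQ - (t * (a + 16) + (b - 16 * a) + 16 * (a + 16)) * ht
  exact (hv.pow 2).mul_left_cancel h

theorem hm_alg_t4j (j a t : A) (h1 : j * a = (a + 16) ^ 3) (ha : a * (t + 16) = t ^ 2) :
    j * t ^ 2 * (t + 16) ^ 2 = (t ^ 2 + 16 * t + 256) ^ 3 := by
  have h3 : (a + 16) * (t + 16) = t ^ 2 + 16 * t + 256 := by linear_combination ha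
  rw [← h3, mul_pow, ← h1, ← ha]
  ring

theorem hm_alg_legendre (j t l : A) (hj : j * t ^ 2 * (t + 16) ^ 2 = (t ^ 2 + 16 * t + 256) ^ 3)
    (hl : l * (t + 16) = 16) (hw : IsUnit (t + 16)) :
    256 * (l ^ 2 - l + 1) ^ 3 = j * l ^ 2 * (l - 1) ^ 2 := by
  have h : (t + 16) ^ 6 * (256 * (l ^ 2 - l + 1) ^ 3) =
      (t + 16) ^ 6 * (j * l ^ 2 * (l - 1) ^ 2) := by
    have e1 : (t + 16) ^ 2 * (l ^ 2 - l + 1) = t ^ 2 + 16 * t + 256 := by
      linear_combination (l * (t + 16) + 16 - (t + 16)) * hl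
    have e2 : (t + 16) * (l - 1) = -t := by linear_combination hl
    calc (t + 16) ^ 6 * (256 * (l ^ 2 - l + 1) ^ 3)
        = 256 * ((t + 16) ^ 2 * (l ^ 2 - l + 1)) ^ 3 := by ring
      _ = 256 * (j * t ^ 2 * (t + 16) ^ 2) := by rw [e1, hj]
      _ = j * (l * (t + 16)) ^ 2 * ((t + 16) * (l - 1)) ^ 2 * (t + 16) ^ 2 := by
          rw [hl, e2]; ring
      _ = (t + 16) ^ 6 * (j * l ^ 2 * (l - 1) ^ 2) := by ring
  exact (hw.pow 6).mul_left_cancel h

end alg

/-! ### Units of `LaurentSeries R` of the form `q ^ m * P` -/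

variable (R : Type*) [CommRing R] {S : Type*} [CommRing S]

variable {R} in
theorem hm_isUnit_shift (m : ℤ) (P : PowerSeries R) (h : IsUnit (PowerSeries.constantCoeff P)) :
    IsUnit (fs_shift m P) := by
  obtain ⟨u, hu⟩ := PowerSeries.isUnit_iff_constantCoeff.mpr h
  refine IsUnit.of_mul_eq_one (fs_shift (-m) (↑u⁻¹ : PowerSeries R)) ?_
  rw [fs_shift_mul, ← hu, Units.mul_inv, add_neg_cancel]
  exact fs_shift_zero_one

variable {R} in
theorem hm_shift_add (m : ℤ) (P P' : PowerSeries R) :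
    fs_shift m (P + P') = fs_shift m P + fs_shift m P' := by
  rw [fs_shift, fs_shift, fs_shift, map_add, mul_add]

variable {R} in
theorem hm_shift_sub (m : ℤ) (P P' : PowerSeries R) :
    fs_shift m (P - P') = fs_shift m P - fs_shift m P' := by
  rw [fs_shift, fs_shift, fs_shift, map_sub, mul_sub]

theorem hm_shift_natCast_X_pow (n : ℕ) (c : ℕ) :
    fs_shift (-(n : ℤ)) ((c : PowerSeries R) * PowerSeries.X ^ n) = (c : LaurentSeries R) := by
  rw [fs_shift, map_mul, map_pow, HahnSeries.ofPowerSeries_X, HahnSeries.single_pow, one_pow,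
    map_natCast, mul_left_comm, HahnSeries.single_mul_single]
  simp

/-! ### The series `a + 16`, `b + 256`, `a b - 4096` -/

/-- `q (t₂ + 16)` as an integral power series. -/
def hm_aNum : PowerSeries ℤ := hm_t2Num + 16 * PowerSeries.X

/-- `q² (t₂(q²) + 256)` as an integral power series. -/
def hm_bNum : PowerSeries ℤ :=
  PowerSeries.expand 2 two_ne_zero hm_t2Num + 256 * PowerSeries.X ^ 2

theorem hm_constantCoeff_expand_t2Num :
    PowerSeries.constantCoeff (PowerSeries.expand 2 two_ne_zero hm_t2Num) = 1 := by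
  rw [← PowerSeries.coeff_zero_eq_constantCoeff_apply]
  have := PowerSeries.coeff_expand_mul 2 two_ne_zero hm_t2Num 0
  rw [mul_zero] at this
  rw [this, PowerSeries.coeff_zero_eq_constantCoeff_apply, hm_constantCoeff_t2Num]

theorem hm_constantCoeff_aNum : PowerSeries.constantCoeff hm_aNum = 1 := by
  rw [hm_aNum, map_add, hm_constantCoeff_t2Num, map_mul, PowerSeries.constantCoeff_X, mul_zero,
    add_zero]

theorem hm_constantCoeff_bNum : PowerSeries.constantCoeff hm_bNum = 1 := by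
  rw [hm_bNum, map_add, hm_constantCoeff_expand_t2Num, map_mul, map_pow,
    PowerSeries.constantCoeff_X]
  norm_num

theorem hm_constantCoeff_map (P : PowerSeries ℤ) (h : PowerSeries.constantCoeff P = 1) :
    PowerSeries.constantCoeff (P.map (Int.castRingHom R)) = 1 := by
  rw [← PowerSeries.coeff_zero_eq_constantCoeff_apply, PowerSeries.coeff_map,
    PowerSeries.coeff_zero_eq_constantCoeff_apply, h, map_one]

/-- `t₂(q²)`. -/
def hm_t2two : LaurentSeries R := qExpand R 2 (hm_t2 R)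

theorem hm_t2two_eq_shift :
    hm_t2two R =
      fs_shift (-2) ((PowerSeries.expand 2 two_ne_zero hm_t2Num).map (Int.castRingHom R)) := by
  rw [hm_t2two, hm_t2_eq_shift, hm_qExpand_shift]
  rfl

theorem hm_a_add_eq_shift :
    hm_t2 R + 16 = fs_shift (-1) (hm_aNum.map (Int.castRingHom R)) := by
  have h := hm_shift_natCast_X_pow R 1 16
  rw [pow_one] at h
  rw [hm_aNum, map_add, hm_shift_add, ← hm_t2_eq_shift, map_mul, PowerSeries.map_X, map_ofNat]
  congr 1
  exact_mod_cast h.symm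

theorem hm_b_add_eq_shift :
    hm_t2two R + 256 = fs_shift (-2) (hm_bNum.map (Int.castRingHom R)) := by
  have h := hm_shift_natCast_X_pow R 2 256
  rw [hm_bNum, map_add, hm_shift_add, ← hm_t2two_eq_shift, map_mul, map_pow, PowerSeries.map_X,
    map_ofNat]
  congr 1
  exact_mod_cast h.symm

theorem hm_isUnit_a_add : IsUnit (hm_t2 R + 16) := by
  rw [hm_a_add_eq_shift]
  exact hm_isUnit_shift _ _ (by rw [hm_constantCoeff_map R _ hm_constantCoeff_aNum]; exact isUnit_one)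

theorem hm_isUnit_b_add : IsUnit (hm_t2two R + 256) := by
  rw [hm_b_add_eq_shift]
  exact hm_isUnit_shift _ _ (by rw [hm_constantCoeff_map R _ hm_constantCoeff_bNum]; exact isUnit_one)

theorem hm_isUnit_ab_sub : IsUnit (hm_t2 R * hm_t2two R - 4096) := by
  have h := hm_shift_natCast_X_pow R 3 4096
  have h1 : fs_shift (-3) (hm_t2Num.map (Int.castRingHom R) *
      (PowerSeries.expand 2 two_ne_zero hm_t2Num).map (Int.castRingHom R)) =
      hm_t2 R * hm_t2two R := by
    rw [hm_t2_eq_shift, hm_t2two_eq_shift, fs_shift_mul]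
    norm_num
  have h2 : fs_shift (-3) ((4096 * PowerSeries.X ^ 3 : PowerSeries ℤ).map (Int.castRingHom R)) =
      4096 := by
    rw [map_mul, map_pow, PowerSeries.map_X, map_ofNat]
    exact_mod_cast h
  have e : hm_t2 R * hm_t2two R - 4096 =
      fs_shift (-3) ((hm_t2Num * PowerSeries.expand 2 two_ne_zero hm_t2Num -
        4096 * PowerSeries.X ^ 3).map (Int.castRingHom R)) := by
    rw [map_sub, hm_shift_sub, map_mul, h1, h2]
  rw [e]
  refine hm_isUnit_shift _ _ ?_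
  rw [hm_constantCoeff_map R _ ?_]
  · exact isUnit_one
  · rw [map_sub, map_mul, hm_constantCoeff_t2Num, hm_constantCoeff_expand_t2Num, map_mul, map_pow,
      PowerSeries.constantCoeff_X]
    norm_num

/-! ### The relations -/

theorem hm_t2two_id1 :
    qExpand R 2 (jqModC R) * hm_t2two R ^ 2 = (hm_t2two R + 256) ^ 3 := by
  have h := congrArg (qExpand R 2) (hm_t2_id1 R)
  rw [map_mul, map_pow, map_pow, map_add, map_ofNat] at h
  exact h

/-- The level-`4` relation between `t₂(q)` and `t₂(q²)`. -/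
theorem hm_level4_rel :
    hm_t2 R ^ 2 * hm_t2two R + 48 * hm_t2 R * hm_t2two R + 4096 * hm_t2 R - hm_t2two R ^ 2 = 0 :=
  hm_alg_Q _ _ _ (hm_t2_id2 R) (hm_t2two_id1 R) (hm_isUnit_ab_sub R)

/-- The Hauptmodul `t₄ = (t₂(q²) - 16 t₂(q)) / (t₂(q) + 16)` of `Γ₀(4)`. -/
def hm_t4 : LaurentSeries R :=
  (hm_t2two R - 16 * hm_t2 R) * ((hm_isUnit_a_add R).unit⁻¹ : (LaurentSeries R)ˣ)

theorem hm_t4_mul : hm_t4 R * (hm_t2 R + 16) = hm_t2two R - 16 * hm_t2 R := by
  rw [hm_t4, mul_assoc, IsUnit.val_inv_mul, mul_one]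

/-- `t₂ (t₄ + 16) = t₄²`. -/
theorem hm_t4_id_a : hm_t2 R * (hm_t4 R + 16) = hm_t4 R ^ 2 :=
  hm_alg_t4a _ _ _ (hm_level4_rel R) (hm_t4_mul R) (hm_isUnit_a_add R)

/-- `t₂(q²) = t₄ (t₄ + 16)`. -/
theorem hm_t4_id_b : hm_t2two R = hm_t4 R * (hm_t4 R + 16) :=
  hm_alg_t4b _ _ _ (hm_level4_rel R) (hm_t4_mul R) (hm_isUnit_a_add R)

/-- `j(q²) t₄² (t₄ + 16)² = (t₄² + 16 t₄ + 256)³`. -/
theorem hm_t4_id_j :
    qExpand R 2 (jqModC R) * hm_t4 R ^ 2 * (hm_t4 R + 16) ^ 2 =
      (hm_t4 R ^ 2 + 16 * hm_t4 R + 256) ^ 3 :=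
  hm_alg_t4j _ _ _ (hm_t2_id2 R) (hm_t4_id_a R)

/-- `(t₄ + 16) (t₂ + 16) = t₂(q²) + 256`. -/
theorem hm_t4_add_mul : (hm_t4 R + 16) * (hm_t2 R + 16) = hm_t2two R + 256 := by
  linear_combination hm_t4_mul R

theorem hm_isUnit_t4_add : IsUnit (hm_t4 R + 16) := by
  have h := hm_isUnit_b_add R
  rw [← hm_t4_add_mul] at h
  exact isUnit_of_mul_isUnit_left h

/-! ### The Legendre modulus -/

/-- `q⁻¹ λ` as an integral power series (constant coefficient `16`). -/
def hm_lamNum : PowerSeries ℤ := 16 * hm_aNum * hm_bNum.invOfUnit 1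

/-- The Legendre modulus `λ = 16 (t₂(q) + 16) / (t₂(q²) + 256) = 16 q - 128 q² + 704 q³ - ⋯`. -/
def hm_lam : LaurentSeries R := fs_shift 1 (hm_lamNum.map (Int.castRingHom R))

theorem hm_bNum_mul_inv : hm_bNum * hm_bNum.invOfUnit 1 = 1 :=
  PowerSeries.mul_invOfUnit _ _ (by rw [hm_constantCoeff_bNum]; rfl)

theorem hm_lam_mul_b : hm_lam R * (hm_t2two R + 256) = 16 * (hm_t2 R + 16) := by
  rw [hm_lam, hm_b_add_eq_shift, hm_a_add_eq_shift, fs_shift_mul, ← map_mul, hm_lamNum,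
    mul_assoc, mul_assoc, mul_comm (PowerSeries.invOfUnit _ _), hm_bNum_mul_inv, mul_one,
    map_mul, map_ofNat, fs_shift, fs_shift, map_mul, map_ofNat]
  norm_num
  ring

theorem hm_lam_mul : hm_lam R * (hm_t4 R + 16) = 16 := by
  have h := hm_lam_mul_b R
  rw [← hm_t4_add_mul, ← mul_assoc] at h
  exact (hm_isUnit_a_add R).mul_right_cancel (by rw [h])

/-- **The Legendre equation** `256 (λ² - λ + 1)³ = j(q²) λ² (λ - 1)²`. -/
theorem hm_legendre :
    256 * (hm_lam R ^ 2 - hm_lam R + 1) ^ 3 =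
      qExpand R 2 (jqModC R) * hm_lam R ^ 2 * (hm_lam R - 1) ^ 2 :=
  hm_alg_legendre _ _ _ (hm_t4_id_j R) (hm_lam_mul R) (hm_isUnit_t4_add R)

theorem hm_constantCoeff_lamNum : PowerSeries.constantCoeff hm_lamNum = 16 := by
  rw [hm_lamNum, map_mul, map_mul, hm_constantCoeff_aNum, PowerSeries.constantCoeff_invOfUnit,
    map_ofNat]
  norm_num

theorem hm_lam_coeff_one : (hm_lam R).coeff 1 = 16 := by
  rw [hm_lam, fs_shift_coeff_self, ← PowerSeries.coeff_zero_eq_constantCoeff_apply,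
    PowerSeries.coeff_map, PowerSeries.coeff_zero_eq_constantCoeff_apply, hm_constantCoeff_lamNum]
  simp

theorem hm_lam_coeff_of_lt {n : ℤ} (h : n < 1) : (hm_lam R).coeff n = 0 :=
  fs_shift_coeff_of_lt _ _ h

variable {R} in
theorem hm_coeffMap_lam (φ : R →+* S) : coeffMap φ (hm_lam R) = hm_lam S := by
  rw [hm_lam, hm_lam, fs_coeffMap_shift, fs_map_map_intCast]

theorem hm_lam_order [Nontrivial R] (h16 : (16 : R) ≠ 0) : (hm_lam R).order = 1 :=
  fs_order_eq_of (by rw [hm_lam_coeff_one]; exact h16) fun _ hn => hm_lam_coeff_of_lt R hn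

/-- `λ` is (the image of) an integral power series. -/
theorem hm_lam_eq_ofPowerSeries :
    hm_lam R = HahnSeries.ofPowerSeries ℤ R
      ((PowerSeries.X * hm_lamNum).map (Int.castRingHom R)) := by
  rw [hm_lam, fs_shift, map_mul, PowerSeries.map_X, map_mul, HahnSeries.ofPowerSeries_X]

variable {R} in
theorem hm_coeffMap_t2two (φ : R →+* S) : coeffMap φ (hm_t2two R) = hm_t2two S := by
  rw [hm_t2two, hm_t2two, coeffMap_qExpand, hm_coeffMap_t2]

variable {R} in
theorem hm_coeffMap_t4 (φ : R →+* S) : coeffMap φ (hm_t4 R) = hm_t4 S := by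
  have h := congrArg (coeffMap φ) (hm_t4_mul R)
  rw [map_mul, map_add, map_sub, map_mul, map_ofNat, hm_coeffMap_t2, hm_coeffMap_t2two,
    ← hm_t4_mul S] at h
  exact (hm_isUnit_a_add S).mul_right_cancel h

end Fermat.Agent.JT3
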