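import Mathlib
import Fermat.Agent.JT3.Cover.Identities
import Fermat.Agent.JT3.Hauptmodul.Level4

/-!
# JT3 / route (X), `ℓ = 2`: the Hesse modulus as a Laurent series, by Hensel's lemma

For a commutative ring `R` in which `3` is a unit, the monic polynomial
`W³ (W³ + 216 Q)³ - J(Q) (W³ - 27 Q)³ ∈ R⟦Q⟧[W]` (`J = Q j(Q)`) has a unique root `w ≡ 1 mod Q`
(`R⟦Q⟧` is `(Q)`-adically complete, hence Henselian).  Put `c = q⁻¹ w(q³)` and `μ = c / 3`:

* `hm_hesC_id : c³ (c³ + 216)³ = j(q³) (c³ - 27)³`,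
* `hm_hesse : cv_hesN μ = j(q³) * cv_hesD μ`, i.e. `27 μ³ (μ³ + 8)³ = j(q³) (μ³ - 1)³`,
* `μ ∈ q⁻¹ R⟦q³⟧` has order `-1`, leading coefficient `1/3`, `μ(e q) = e⁻¹ μ(q)` for `e³ = 1`,
  and is natural in `R`.
-/

set_option autoImplicit false

noncomputable section

open ModularCurve HahnSeries Polynomial
open Fermat.Agent.S28 Fermat.Agent.JT

namespace Fermat.Agent.JT3

variable (R : Type*) [CommRing R]

/-- `q j(q)` over `R`. -/
def hm_J : PowerSeries R := jNum.map (Int.castRingHom R)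

theorem hm_constantCoeff_J : PowerSeries.constantCoeff (hm_J R) = 1 :=
  hm_constantCoeff_map R _ constantCoeff_jNum

/-- The Hesse polynomial `W³ (W³ + 216 Q)³ - J(Q) (W³ - 27 Q)³` over `R⟦Q⟧`. -/
def hm_hesPoly : Polynomial (PowerSeries R) :=
  X ^ 3 * (X ^ 3 + Polynomial.C (216 * PowerSeries.X : PowerSeries R)) ^ 3 -
    Polynomial.C (hm_J R) * (X ^ 3 - Polynomial.C (27 * PowerSeries.X : PowerSeries R)) ^ 3

theorem hm_hesPoly_monic : (hm_hesPoly R).Monic := by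
  unfold hm_hesPoly
  monicity!

theorem hm_hesPoly_eval (w : PowerSeries R) :
    (hm_hesPoly R).eval w =
      w ^ 3 * (w ^ 3 + 216 * PowerSeries.X) ^ 3 - hm_J R * (w ^ 3 - 27 * PowerSeries.X) ^ 3 := by
  simp [hm_hesPoly]


theorem hm_hesPoly_derivative_eval (w : PowerSeries R) :
    (derivative (hm_hesPoly R)).eval w =
      3 * w ^ 2 * (w ^ 3 + 216 * PowerSeries.X) ^ 3 +
        w ^ 3 * (3 * (w ^ 3 + 216 * PowerSeries.X) ^ 2 * (3 * w ^ 2)) -
        hm_J R * (3 * (w ^ 3 - 27 * PowerSeries.X) ^ 2 * (3 * w ^ 2)) := by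
  unfold hm_hesPoly
  simp only [derivative_sub, derivative_mul, derivative_pow, derivative_add,
    derivative_C, derivative_X, eval_sub, eval_mul, eval_add, eval_pow, eval_X, eval_C,
    Nat.cast_ofNat, add_zero, sub_zero, mul_one, zero_mul, zero_add]

theorem hm_hesPoly_derivative_eval_const {w : PowerSeries R}
    (hw : PowerSeries.constantCoeff w = 1) :
    PowerSeries.constantCoeff ((derivative (hm_hesPoly R)).eval w) = 3 := by
  rw [hm_hesPoly_derivative_eval]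
  simp only [map_sub, map_add, map_mul, map_pow, hw, hm_constantCoeff_J, map_ofNat,
    PowerSeries.constantCoeff_X]
  norm_num

theorem hm_hesPoly_derivative_eval_one :
    PowerSeries.constantCoeff ((derivative (hm_hesPoly R)).eval 1) = 3 :=
  hm_hesPoly_derivative_eval_const R (map_one _)

theorem hm_hes_exists (h3 : IsUnit (3 : R)) :
    ∃ w : PowerSeries R, (hm_hesPoly R).IsRoot w ∧ PowerSeries.constantCoeff w = 1 := by
  have hH : HenselianRing (PowerSeries R) (Ideal.span {PowerSeries.X}) := inferInstance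
  have h1 : (hm_hesPoly R).eval 1 ∈ Ideal.span {(PowerSeries.X : PowerSeries R)} := by
    rw [Ideal.mem_span_singleton, PowerSeries.X_dvd_iff, hm_hesPoly_eval]
    simp [hm_constantCoeff_J]
  have h2 : IsUnit (Ideal.Quotient.mk (Ideal.span {(PowerSeries.X : PowerSeries R)})
      ((derivative (hm_hesPoly R)).eval 1)) := by
    apply IsUnit.map
    rw [PowerSeries.isUnit_iff_constantCoeff, hm_hesPoly_derivative_eval_one]
    exact h3
  obtain ⟨w, hw, hw1⟩ := hH.is_henselian (hm_hesPoly R) (hm_hesPoly_monic R) 1 h1 h2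
  refine ⟨w, hw, ?_⟩
  rw [Ideal.mem_span_singleton, PowerSeries.X_dvd_iff, map_sub, map_one, sub_eq_zero] at hw1
  exact hw1

variable {R} in
theorem hm_hes_unique (h3 : IsUnit (3 : R)) {w w' : PowerSeries R}
    (hw : (hm_hesPoly R).IsRoot w) (hw' : (hm_hesPoly R).IsRoot w')
    (h1 : PowerSeries.constantCoeff w = 1) (h1' : PowerSeries.constantCoeff w' = 1) : w = w' := by
  obtain ⟨k, hk⟩ := Polynomial.binomExpansion (hm_hesPoly R) w (w' - w)
  have e1 : (hm_hesPoly R).eval w = 0 := hw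
  have e2 : (hm_hesPoly R).eval w' = 0 := hw'
  rw [add_sub_cancel, e1, e2] at hk
  have hu : IsUnit ((derivative (hm_hesPoly R)).eval w + k * (w' - w)) := by
    rw [PowerSeries.isUnit_iff_constantCoeff, map_add, hm_hesPoly_derivative_eval_const R h1,
      map_mul, map_sub, h1, h1', sub_self, mul_zero, add_zero]
    exact h3
  have h0 : ((derivative (hm_hesPoly R)).eval w + k * (w' - w)) * (w' - w) = 0 := by
    linear_combination -hk
  have := hu.mul_left_cancel (h0.trans (mul_zero _).symm)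
  exact (sub_eq_zero.mp this).symm

/-- The Hensel root `w ≡ 1 mod Q` of the Hesse polynomial. -/
def hm_hesW (h3 : IsUnit (3 : R)) : PowerSeries R := (hm_hes_exists R h3).choose

theorem hm_hesW_isRoot (h3 : IsUnit (3 : R)) : (hm_hesPoly R).IsRoot (hm_hesW R h3) :=
  (hm_hes_exists R h3).choose_spec.1

theorem hm_constantCoeff_hesW (h3 : IsUnit (3 : R)) :
    PowerSeries.constantCoeff (hm_hesW R h3) = 1 :=
  (hm_hes_exists R h3).choose_spec.2

theorem hm_hesW_eq (h3 : IsUnit (3 : R)) :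
    hm_hesW R h3 ^ 3 * (hm_hesW R h3 ^ 3 + 216 * PowerSeries.X) ^ 3 =
      hm_J R * (hm_hesW R h3 ^ 3 - 27 * PowerSeries.X) ^ 3 := by
  have h : (hm_hesPoly R).eval (hm_hesW R h3) = 0 := hm_hesW_isRoot R h3
  rw [hm_hesPoly_eval] at h
  exact sub_eq_zero.mp h

variable {R} {S : Type*} [CommRing S]

theorem hm_map_J (φ : R →+* S) : (hm_J R).map φ = hm_J S := by
  rw [hm_J, hm_J, fs_map_map_intCast]

theorem hm_map_hesW (φ : R →+* S) (h3 : IsUnit (3 : R)) (h3' : IsUnit (3 : S)) :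
    (hm_hesW R h3).map φ = hm_hesW S h3' := by
  apply hm_hes_unique h3' _ (hm_hesW_isRoot S h3') _ (hm_constantCoeff_hesW S h3')
  · show (hm_hesPoly S).eval _ = 0
    rw [hm_hesPoly_eval, sub_eq_zero]
    have h := congrArg (PowerSeries.map φ) (hm_hesW_eq R h3)
    simp only [map_mul, map_pow, map_add, map_sub, map_ofNat, PowerSeries.map_X, hm_map_J] at h
    exact h
  · rw [← PowerSeries.coeff_zero_eq_constantCoeff_apply, PowerSeries.coeff_map,
      PowerSeries.coeff_zero_eq_constantCoeff_apply, hm_constantCoeff_hesW, map_one]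

variable (R)

/-! ### The Laurent series `c = q⁻¹ w(q³)` and `μ = c / 3` -/

theorem hm_alg_hes {A : Type*} [CommRing A] (s t W J : A) (hst : s ^ 3 * t = 1)
    (h : W ^ 3 * (W ^ 3 + 216 * t) ^ 3 = J * (W ^ 3 - 27 * t) ^ 3) :
    (s * W) ^ 3 * ((s * W) ^ 3 + 216) ^ 3 = (s ^ 3 * J) * ((s * W) ^ 3 - 27) ^ 3 := by
  have e1 : (s * W) ^ 3 + 216 = s ^ 3 * (W ^ 3 + 216 * t) := by linear_combination (-216) * hst
  have e2 : (s * W) ^ 3 - 27 = s ^ 3 * (W ^ 3 - 27 * t) := by linear_combination 27 * hst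
  rw [e1, e2]
  calc (s * W) ^ 3 * (s ^ 3 * (W ^ 3 + 216 * t)) ^ 3
      = s ^ 12 * (W ^ 3 * (W ^ 3 + 216 * t) ^ 3) := by ring
    _ = s ^ 12 * (J * (W ^ 3 - 27 * t) ^ 3) := by rw [h]
    _ = s ^ 3 * J * (s ^ 3 * (W ^ 3 - 27 * t)) ^ 3 := by ring

/-- `c = q⁻¹ w(q³)` (`= η(q)³/η(q⁹)³ + 3`). -/
def hm_hesC (h3 : IsUnit (3 : R)) : LaurentSeries R :=
  HahnSeries.single (-1) 1 * qExpand R 3 (HahnSeries.ofPowerSeries ℤ R (hm_hesW R h3))

theorem hm_hesC_id (h3 : IsUnit (3 : R)) :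
    hm_hesC R h3 ^ 3 * (hm_hesC R h3 ^ 3 + 216) ^ 3 =
      qExpand R 3 (jqModC R) * (hm_hesC R h3 ^ 3 - 27) ^ 3 := by
  have h := congrArg (fun x => qExpand R 3 (HahnSeries.ofPowerSeries ℤ R x)) (hm_hesW_eq R h3)
  simp only [map_mul, map_pow, map_add, map_sub, map_ofNat, HahnSeries.ofPowerSeries_X,
    qExpand_single] at h
  have hj : qExpand R 3 (jqModC R) =
      (HahnSeries.single (-1) (1 : R)) ^ 3 *
        qExpand R 3 (HahnSeries.ofPowerSeries ℤ R (hm_J R)) := by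
    rw [jqModC, map_mul, qExpand_single, HahnSeries.single_pow, one_pow, hm_J]
    norm_num
  have hst : (HahnSeries.single (-1) (1 : R)) ^ 3 *
      HahnSeries.single (((3 : ℕ) : ℤ) * 1) (1 : R) = 1 := by
    rw [HahnSeries.single_pow, one_pow, HahnSeries.single_mul_single]
    norm_num
  rw [hj, hm_hesC]
  exact hm_alg_hes _ _ _ _ hst h

theorem hm_hesC_coeff (h3 : IsUnit (3 : R)) (n : ℤ) :
    (hm_hesC R h3).coeff n =
      (qExpand R 3 (HahnSeries.ofPowerSeries ℤ R (hm_hesW R h3))).coeff (n + 1) := by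
  have h := HahnSeries.coeff_single_mul_add (r := (1 : R))
    (x := qExpand R 3 (HahnSeries.ofPowerSeries ℤ R (hm_hesW R h3))) (a := n + 1) (b := -1)
  rw [one_mul, add_neg_cancel_right] at h
  exact h

theorem hm_hesC_coeff_neg_one (h3 : IsUnit (3 : R)) : (hm_hesC R h3).coeff (-1) = 1 := by
  rw [hm_hesC_coeff]
  have h := qExpand_coeff_mul (R := R) 3 (HahnSeries.ofPowerSeries ℤ R (hm_hesW R h3)) 0
  rw [mul_zero] at h
  rw [show (-1 : ℤ) + 1 = 0 by norm_num, h, show (0 : ℤ) = ((0 : ℕ) : ℤ) from rfl,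
    HahnSeries.ofPowerSeries_apply_coeff, PowerSeries.coeff_zero_eq_constantCoeff_apply,
    hm_constantCoeff_hesW]

theorem hm_hesC_coeff_of_not_dvd (h3 : IsUnit (3 : R)) {n : ℤ} (h : ¬ (3 : ℤ) ∣ n + 1) :
    (hm_hesC R h3).coeff n = 0 := by
  rw [hm_hesC_coeff]
  exact qExpand_coeff_of_not_dvd 3 _ (by exact_mod_cast h)

theorem hm_hesC_coeff_of_lt (h3 : IsUnit (3 : R)) {n : ℤ} (h : n < -1) :
    (hm_hesC R h3).coeff n = 0 := by
  by_cases hd : (3 : ℤ) ∣ n + 1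
  · obtain ⟨k, hk⟩ := hd
    rw [hm_hesC_coeff, hk]
    have := qExpand_coeff_mul (R := R) 3 (HahnSeries.ofPowerSeries ℤ R (hm_hesW R h3)) k
    rw [show ((3 : ℕ) : ℤ) = 3 by norm_num] at this
    rw [this]
    exact ofPowerSeries_coeff_of_neg _ (by omega)
  · exact hm_hesC_coeff_of_not_dvd R h3 hd

theorem hm_hesC_order [Nontrivial R] (h3 : IsUnit (3 : R)) : (hm_hesC R h3).order = -1 :=
  fs_order_eq_of (by rw [hm_hesC_coeff_neg_one]; exact one_ne_zero)
    fun _ hn => hm_hesC_coeff_of_lt R h3 hn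

/-- Twisting `q ↦ e q` with `e³ = 1` multiplies `c` by `e⁻¹`. -/
theorem hm_twist_hesC (h3 : IsUnit (3 : R)) (e : Rˣ) (he : e ^ 3 = 1) :
    fs_twist e (hm_hesC R h3) = HahnSeries.C ((e⁻¹ : Rˣ) : R) * hm_hesC R h3 := by
  have h := fs_qExpand_twist (R := R) e 3 (HahnSeries.ofPowerSeries ℤ R (hm_hesW R h3))
  rw [he, fs_twist_one] at h
  rw [hm_hesC, map_mul, ← h, fs_twist_single, ← mul_assoc]
  congr 1
  rw [HahnSeries.C_apply, HahnSeries.single_mul_single, zero_add, zpow_neg_one]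

variable {R} in
theorem hm_coeffMap_hesC (φ : R →+* S) (h3 : IsUnit (3 : R)) (h3' : IsUnit (3 : S)) :
    coeffMap φ (hm_hesC R h3) = hm_hesC S h3' := by
  rw [hm_hesC, hm_hesC, map_mul, coeffMap_single, map_one, coeffMap_qExpand,
    fs_coeffMap_ofPowerSeries, hm_map_hesW φ h3 h3']

/-- The Hesse modulus `μ = c / 3 = (1/3) q⁻¹ + ⋯ ∈ q⁻¹ R⟦q³⟧`. -/
def hm_mu (h3 : IsUnit (3 : R)) : LaurentSeries R :=
  HahnSeries.C ((h3.unit⁻¹ : Rˣ) : R) * hm_hesC R h3

theorem hm_three_mul_mu (h3 : IsUnit (3 : R)) : 3 * hm_mu R h3 = hm_hesC R h3 := by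
  have h : (3 : LaurentSeries R) * HahnSeries.C ((h3.unit⁻¹ : Rˣ) : R) = 1 := by
    have : (3 : LaurentSeries R) = HahnSeries.C (3 : R) := by
      rw [map_ofNat]
    rw [this, ← map_mul, IsUnit.mul_val_inv, map_one]
  rw [hm_mu, ← mul_assoc, h, one_mul]

/-- **The Hesse equation** `27 μ³ (μ³ + 8)³ = j(q³) (μ³ - 1)³`. -/
theorem hm_hesse (h3 : IsUnit (3 : R)) :
    cv_hesN (hm_mu R h3) = qExpand R 3 (jqModC R) * cv_hesD (hm_mu R h3) := by
  have h := hm_hesC_id R h3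
  rw [← hm_three_mul_mu] at h
  have hu : IsUnit ((3 : LaurentSeries R) ^ 9) := by
    have : (3 : LaurentSeries R) = HahnSeries.C (3 : R) := by rw [map_ofNat]
    rw [this]
    exact ((h3.map (HahnSeries.C : R →+* LaurentSeries R))).pow 9
  apply hu.mul_left_cancel
  unfold cv_hesN cv_hesD
  linear_combination h

theorem hm_mu_coeff (h3 : IsUnit (3 : R)) (n : ℤ) :
    (hm_mu R h3).coeff n = ((h3.unit⁻¹ : Rˣ) : R) * (hm_hesC R h3).coeff n := by
  rw [hm_mu, HahnSeries.C_apply]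
  have h := HahnSeries.coeff_single_mul_add (r := ((h3.unit⁻¹ : Rˣ) : R)) (x := hm_hesC R h3)
    (a := n) (b := 0)
  rw [add_zero] at h
  exact h

theorem hm_mu_coeff_neg_one (h3 : IsUnit (3 : R)) :
    (hm_mu R h3).coeff (-1) = ((h3.unit⁻¹ : Rˣ) : R) := by
  rw [hm_mu_coeff, hm_hesC_coeff_neg_one, mul_one]

theorem hm_mu_coeff_of_lt (h3 : IsUnit (3 : R)) {n : ℤ} (h : n < -1) :
    (hm_mu R h3).coeff n = 0 := by
  rw [hm_mu_coeff, hm_hesC_coeff_of_lt R h3 h, mul_zero]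

theorem hm_mu_coeff_of_not_dvd (h3 : IsUnit (3 : R)) {n : ℤ} (h : ¬ (3 : ℤ) ∣ n + 1) :
    (hm_mu R h3).coeff n = 0 := by
  rw [hm_mu_coeff, hm_hesC_coeff_of_not_dvd R h3 h, mul_zero]

theorem hm_mu_order [Nontrivial R] (h3 : IsUnit (3 : R)) : (hm_mu R h3).order = -1 :=
  fs_order_eq_of (by rw [hm_mu_coeff_neg_one]; exact (h3.unit⁻¹).ne_zero)
    fun _ hn => hm_mu_coeff_of_lt R h3 hn

/-- Twisting `q ↦ e q` with `e³ = 1` multiplies `μ` by `e⁻¹`. -/
theorem hm_twist_mu (h3 : IsUnit (3 : R)) (e : Rˣ) (he : e ^ 3 = 1) :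
    fs_twist e (hm_mu R h3) = HahnSeries.C ((e⁻¹ : Rˣ) : R) * hm_mu R h3 := by
  rw [hm_mu, map_mul, fs_twist_C, hm_twist_hesC R h3 e he]
  ring

variable {R} in
theorem hm_coeffMap_mu (φ : R →+* S) (h3 : IsUnit (3 : R)) (h3' : IsUnit (3 : S)) :
    coeffMap φ (hm_mu R h3) = hm_mu S h3' := by
  have h : (3 : LaurentSeries S) * coeffMap φ (hm_mu R h3) = 3 * hm_mu S h3' := by
    rw [hm_three_mul_mu, ← hm_coeffMap_hesC φ h3 h3', ← hm_three_mul_mu R h3, map_mul, map_ofNat]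
  have hu : IsUnit (3 : LaurentSeries S) := by
    have : (3 : LaurentSeries S) = HahnSeries.C (3 : S) := by rw [map_ofNat]
    rw [this]
    exact h3'.map (HahnSeries.C : S →+* LaurentSeries S)
  exact hu.mul_left_cancel h

end Fermat.Agent.JT3
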