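import Mathlib
import Fermat.Agent.JT3.Cover.Identities
import Fermat.Agent.JT3.Hauptmodul.Level4

/-!
# JT3 / route (X), `ℓ` odd: the Legendre equation for `hm_lam` in the `cv_` notation
-/

set_option autoImplicit false

open ModularCurve

namespace Fermat.Agent.JT3

/-- `hm_legendre` in the notation of `Cover/Identities.lean`. -/
theorem hm_legendre_cv (R : Type*) [CommRing R] :
    cv_legN (hm_lam R) = qExpand R 2 (jqModC R) * cv_legD (hm_lam R) := by
  unfold cv_legN cv_legD
  rw [hm_legendre R]
  ring

end Fermat.Agent.JT3
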