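import Mathlib
import Fermat.Prelude.Def_ModularCurve_X0
import Fermat.Agent.S24.Bridge.JqExpansion
import Fermat.Agent.JT3.Hauptmodul.Trunc

/-!
# JT3 / Hauptmoduln, level 3: the two (squared) identities modulo `X ^ 17`

Truncated formal computation: with `E = eisenstein4`, `D = X * etaProd ^ 24`,
`D₃ = X ^ 3 * (etaProd ^ 24)(X ^ 3)`, `E₃ = E(X ^ 3)` in `ℤ⟦X⟧`,

* `D * D₃ * (E ^ 3 - 756 D - 19131876 D₃) ^ 2 ≡ (D ^ 2 + 196830 D D₃ + 387420489 D₃ ^ 2) ^ 2`,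
* `D * D₃ * (E₃ ^ 3 - 36 D - 756 D₃) ^ 2 ≡ (D ^ 2 + 270 D D₃ + 729 D₃ ^ 2) ^ 2`   `(mod X ^ 17)`.

Together with the Sturm bound on `Γ₀(3)` in weight `48` (index `4`, bound `16`) this gives the two
identities exactly (`Hauptmodul/Level3Analytic.lean`).  They are the squares of
`j t₃³ = (t₃ + 27)(t₃ + 243)³` and `j(q³) t₃ = (t₃ + 27)(t₃ + 3)³` for
`t₃ = q⁻¹ ∏ (1 - qⁿ)¹² / (1 - q³ⁿ)¹²`.  The explicit polynomials below were generated by a script;
every step is checked by `ring`.  Prefix `hm3_`.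
-/

set_option autoImplicit false
set_option maxRecDepth 8000

open PowerSeries

namespace Fermat.Agent.JT3

theorem hm3_cong_sub {n : ℕ} {f g f' g' : PowerSeries ℤ} (h1 : hm_Cong n f g)
    (h2 : hm_Cong n f' g') : hm_Cong n (f - f') (g - g') := by
  unfold hm_Cong at *
  have : f - f' - (g - g') = (f - g) - (f' - g') := by ring
  rw [this]
  exact dvd_sub h1 h2

/-! ### The explicit truncations -/

/-- explicit truncation `P1` -/
noncomputable def hm3_P1 : PowerSeries ℤ :=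
  (1 : PowerSeries ℤ) + (-1) * X + (-1) * X ^ 2 + 1 * X ^ 5 + 1 * X ^ 7 + (-1) * X ^ 12 + (-1) * X ^ 15

/-- explicit truncation `P2` -/
noncomputable def hm3_P2 : PowerSeries ℤ :=
  (1 : PowerSeries ℤ) + (-2) * X + (-1) * X ^ 2 + 2 * X ^ 3 + 1 * X ^ 4 + 2 * X ^ 5 + (-2) * X ^ 6 + (-2) * X ^ 8 + (-2) * X ^ 9 + 1 * X ^ 10 + 2 * X ^ 13 + 3 * X ^ 14 + (-2) * X ^ 15 + 2 * X ^ 16

/-- explicit truncation `P3` -/
noncomputable def hm3_P3 : PowerSeries ℤ :=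
  (1 : PowerSeries ℤ) + (-3) * X + 5 * X ^ 3 + (-7) * X ^ 6 + 9 * X ^ 10 + (-11) * X ^ 15

/-- explicit truncation `P6` -/
noncomputable def hm3_P6 : PowerSeries ℤ :=
  (1 : PowerSeries ℤ) + (-6) * X + 9 * X ^ 2 + 10 * X ^ 3 + (-30) * X ^ 4 + 11 * X ^ 6 + 42 * X ^ 7 + (-70) * X ^ 9 + 18 * X ^ 10 + (-54) * X ^ 11 + 49 * X ^ 12 + 90 * X ^ 13 + (-22) * X ^ 15 + (-60) * X ^ 16

/-- explicit truncation `P12` -/
noncomputable def hm3_P12 : PowerSeries ℤ :=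
  (1 : PowerSeries ℤ) + (-12) * X + 54 * X ^ 2 + (-88) * X ^ 3 + (-99) * X ^ 4 + 540 * X ^ 5 + (-418) * X ^ 6 + (-648) * X ^ 7 + 594 * X ^ 8 + 836 * X ^ 9 + 1056 * X ^ 10 + (-4104) * X ^ 11 + (-209) * X ^ 12 + 4104 * X ^ 13 + (-594) * X ^ 14 + 4256 * X ^ 15 + (-6480) * X ^ 16

/-- explicit truncation `P24` -/
noncomputable def hm3_P24 : PowerSeries ℤ :=
  (1 : PowerSeries ℤ) + (-24) * X + 252 * X ^ 2 + (-1472) * X ^ 3 + 4830 * X ^ 4 + (-6048) * X ^ 5 + (-16744) * X ^ 6 + 84480 * X ^ 7 + (-113643) * X ^ 8 + (-115920) * X ^ 9 + 534612 * X ^ 10 + (-370944) * X ^ 11 + (-577738) * X ^ 12 + 401856 * X ^ 13 + 1217160 * X ^ 14 + 987136 * X ^ 15 + (-6905934) * X ^ 16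

/-- explicit truncation `E` -/
noncomputable def hm3_E : PowerSeries ℤ :=
  (1 : PowerSeries ℤ) + 240 * X + 2160 * X ^ 2 + 6720 * X ^ 3 + 17520 * X ^ 4 + 30240 * X ^ 5 + 60480 * X ^ 6 + 82560 * X ^ 7 + 140400 * X ^ 8 + 181680 * X ^ 9 + 272160 * X ^ 10 + 319680 * X ^ 11 + 490560 * X ^ 12 + 527520 * X ^ 13 + 743040 * X ^ 14 + 846720 * X ^ 15 + 1123440 * X ^ 16

/-- explicit truncation `E2` -/
noncomputable def hm3_E2 : PowerSeries ℤ :=
  (1 : PowerSeries ℤ) + 480 * X + 61920 * X ^ 2 + 1050240 * X ^ 3 + 7926240 * X ^ 4 + 37500480 * X ^ 5 + 135480960 * X ^ 6 + 395301120 * X ^ 7 + 1014559200 * X ^ 8 + 2296875360 * X ^ 9 + 4837561920 * X ^ 10 + 9353842560 * X ^ 11 + 17342613120 * X ^ 12 + 30119288640 * X ^ 13 + 50993844480 * X ^ 14 + 82051050240 * X ^ 15 + 129863578080 * X ^ 16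

/-- explicit truncation `E3` -/
noncomputable def hm3_E3 : PowerSeries ℤ :=
  (1 : PowerSeries ℤ) + 720 * X + 179280 * X ^ 2 + 16954560 * X ^ 3 + 396974160 * X ^ 4 + 4632858720 * X ^ 5 + 34413301440 * X ^ 6 + 187477879680 * X ^ 7 + 814940600400 * X ^ 8 + 2975469665040 * X ^ 9 + 9486467837280 * X ^ 10 + 27053330840640 * X ^ 11 + 70485969919680 * X ^ 12 + 169930679355360 * X ^ 13 + 384163875688320 * X ^ 14 + 820167497170560 * X ^ 15 + 1668890801059920 * X ^ 16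

/-- explicit truncation `Dh` -/
noncomputable def hm3_Dh : PowerSeries ℤ :=
  1 * X + (-24) * X ^ 2 + 252 * X ^ 3 + (-1472) * X ^ 4 + 4830 * X ^ 5 + (-6048) * X ^ 6 + (-16744) * X ^ 7 + 84480 * X ^ 8 + (-113643) * X ^ 9 + (-115920) * X ^ 10 + 534612 * X ^ 11 + (-370944) * X ^ 12 + (-577738) * X ^ 13 + 401856 * X ^ 14 + 1217160 * X ^ 15 + 987136 * X ^ 16

/-- explicit truncation `P24e` -/
noncomputable def hm3_P24e : PowerSeries ℤ :=
  (1 : PowerSeries ℤ) + (-24) * X ^ 3 + 252 * X ^ 6 + (-1472) * X ^ 9 + 4830 * X ^ 12 + (-6048) * X ^ 15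

/-- explicit truncation `D3h` -/
noncomputable def hm3_D3h : PowerSeries ℤ :=
  1 * X ^ 3 + (-24) * X ^ 6 + 252 * X ^ 9 + (-1472) * X ^ 12 + 4830 * X ^ 15

/-- explicit truncation `Ee` -/
noncomputable def hm3_Ee : PowerSeries ℤ :=
  (1 : PowerSeries ℤ) + 240 * X ^ 3 + 2160 * X ^ 6 + 6720 * X ^ 9 + 17520 * X ^ 12 + 30240 * X ^ 15

/-- explicit truncation `Ee2` -/
noncomputable def hm3_Ee2 : PowerSeries ℤ :=
  (1 : PowerSeries ℤ) + 480 * X ^ 3 + 61920 * X ^ 6 + 1050240 * X ^ 9 + 7926240 * X ^ 12 + 37500480 * X ^ 15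

/-- explicit truncation `Ee3` -/
noncomputable def hm3_Ee3 : PowerSeries ℤ :=
  (1 : PowerSeries ℤ) + 720 * X ^ 3 + 179280 * X ^ 6 + 16954560 * X ^ 9 + 396974160 * X ^ 12 + 4632858720 * X ^ 15

/-- explicit truncation `L` -/
noncomputable def hm3_L : PowerSeries ℤ :=
  1 * X ^ 4 + (-24) * X ^ 5 + 252 * X ^ 6 + (-1496) * X ^ 7 + 5406 * X ^ 8 + (-12096) * X ^ 9 + 18836 * X ^ 10 + (-37488) * X ^ 11 + 95013 * X ^ 12 + (-86480) * X ^ 13 + (-240420) * X ^ 14 + 461448 * X ^ 15 + 156468 * X ^ 16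

/-- explicit truncation `DD` -/
noncomputable def hm3_DD : PowerSeries ℤ :=
  1 * X ^ 2 + (-48) * X ^ 3 + 1080 * X ^ 4 + (-15040) * X ^ 5 + 143820 * X ^ 6 + (-985824) * X ^ 7 + 4857920 * X ^ 8 + (-16295040) * X ^ 9 + 28412910 * X ^ 10 + 38671600 * X ^ 11 + (-424520544) * X ^ 12 + 1268350272 * X ^ 13 + (-1211937160) * X ^ 14 + (-4306546080) * X ^ 15 + 18293091840 * X ^ 16

/-- explicit truncation `TT` -/
noncomputable def hm3_TT : PowerSeries ℤ :=
  1 * X ^ 6 + (-48) * X ^ 9 + 1080 * X ^ 12 + (-15040) * X ^ 15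

/-- explicit truncation `A1` -/
noncomputable def hm3_A1 : PowerSeries ℤ :=
  (1 : PowerSeries ℤ) + (-36) * X + 197424 * X ^ 2 + (-2367828) * X ^ 3 + 398086992 * X ^ 4 + 4629207240 * X ^ 5 + 34877038752 * X ^ 6 + 187490538144 * X ^ 7 + 814876733520 * X ^ 8 + 2970734346396 * X ^ 9 + 9486555472800 * X ^ 10 + 27052926673968 * X ^ 11 + 70514412474816 * X ^ 12 + 169931116125288 * X ^ 13 + 384163571885184 * X ^ 14 + 820074170036520 * X ^ 15 + 1668890054785104 * X ^ 16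

/-- explicit truncation `A1s` -/
noncomputable def hm3_A1s : PowerSeries ℤ :=
  (1 : PowerSeries ℤ) + (-72) * X + 396144 * X ^ 2 + (-18950184) * X ^ 3 + 39942893376 * X ^ 4 + (-954335999088) * X ^ 5 + 162526913211024 * X ^ 6 + (-59505997601088) * X ^ 7 + 150310179590128992 * X ^ 8 + 3594466247553264312 * X ^ 9 + 48631417400980693152 * X ^ 10 + 469494553014161059680 * X ^ 11 + 3590732165460948648864 * X ^ 12 + 22953669471447451867728 * X ^ 13 + 126950632927311897842688 * X ^ 14 + 621886626324436636458576 * X ^ 15 + 2745675023060155245187104 * X ^ 16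

/-- explicit truncation `L1` -/
noncomputable def hm3_L1 : PowerSeries ℤ :=
  1 * X ^ 4 + (-96) * X ^ 5 + 398124 * X ^ 6 + (-28477280) * X ^ 7 + 40497639198 * X ^ 8 + (-1918333919232) * X ^ 9 + 195527078239364 * X ^ 10 + (-4260506392772544) * X ^ 11 + 194338960283947653 * X ^ 12 + (-276756497621582912) * X ^ 13 + 1222330942278791628 * X ^ 14 + (-19025088944838264288) * X ^ 15 + 17056116962597468244 * X ^ 16

/-- explicit truncation `B1` -/
noncomputable def hm3_B1 : PowerSeries ℤ :=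
  1 * X ^ 2 + (-48) * X ^ 3 + 197910 * X ^ 4 + (-4738960) * X ^ 5 + 437165469 * X ^ 6 + (-295443504) * X ^ 7 + 1068920900 * X ^ 8 + (-20993334192) * X ^ 9 + 3735902790 * X ^ 10 + (-7340091440) * X ^ 11 + 436691016366 * X ^ 12 + (-15753508128) * X ^ 13 + (-48533805760) * X ^ 14 + (-5740283890800) * X ^ 15 + 49090688280 * X ^ 16

/-- explicit truncation `B1s` -/
noncomputable def hm3_B1s : PowerSeries ℤ :=
  1 * X ^ 4 + (-96) * X ^ 5 + 398124 * X ^ 6 + (-28477280) * X ^ 7 + 40497639198 * X ^ 8 + (-1918333919232) * X ^ 9 + 195527078239364 * X ^ 10 + (-4260506392772544) * X ^ 11 + 194338960283947653 * X ^ 12 + (-276756497621582912) * X ^ 13 + 1222330942278791628 * X ^ 14 + (-19025088944838264288) * X ^ 15 + 17056116962597468244 * X ^ 16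

/-- explicit truncation `A2` -/
noncomputable def hm3_A2 : PowerSeries ℤ :=
  (1 : PowerSeries ℤ) + (-36) * X + 864 * X ^ 2 + (-9108) * X ^ 3 + 52992 * X ^ 4 + (-173880) * X ^ 5 + 415152 * X ^ 6 + 602784 * X ^ 7 + (-3041280) * X ^ 8 + 20855196 * X ^ 9 + 4173120 * X ^ 10 + (-19246032) * X ^ 11 + 411440976 * X ^ 12 + 20798568 * X ^ 13 + (-14466816) * X ^ 14 + 4585389480 * X ^ 15 + (-35536896) * X ^ 16

/-- explicit truncation `A2s` -/
noncomputable def hm3_A2s : PowerSeries ℤ :=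
  (1 : PowerSeries ℤ) + (-72) * X + 3024 * X ^ 2 + (-80424) * X ^ 3 + 1508256 * X ^ 4 + (-19901808) * X ^ 5 + 187875504 * X ^ 6 + (-1294452288) * X ^ 7 + 6643449792 * X ^ 8 + (-24688613448) * X ^ 9 + 56504850912 * X ^ 10 + 10610978400 * X ^ 11 + (-730078502976) * X ^ 12 + 3629589741648 * X ^ 13 + (-7912128114432) * X ^ 14 + 2710010642256 * X ^ 15 + 87421775197824 * X ^ 16

/-- explicit truncation `L2` -/
noncomputable def hm3_L2 : PowerSeries ℤ :=
  1 * X ^ 4 + (-96) * X ^ 5 + 5004 * X ^ 6 + (-172640) * X ^ 7 + 4313598 * X ^ 8 + (-81292032) * X ^ 9 + 1183151204 * X ^ 10 + (-13547815104) * X ^ 11 + 124014231333 * X ^ 12 + (-918863335232) * X ^ 13 + 5547786538668 * X ^ 14 + (-27215285112288) * X ^ 15 + 106195231483284 * X ^ 16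

/-- explicit truncation `B2` -/
noncomputable def hm3_B2 : PowerSeries ℤ :=
  1 * X ^ 2 + (-48) * X ^ 3 + 1350 * X ^ 4 + (-21520) * X ^ 5 + 212589 * X ^ 6 + (-1389744) * X ^ 7 + 6317540 * X ^ 8 + (-19595952) * X ^ 9 + 33498630 * X ^ 10 + 28549840 * X ^ 11 + (-398079714) * X ^ 12 + 1245000672 * X ^ 13 + (-1276850560) * X ^ 14 + (-4192919280) * X ^ 15 + 18335338200 * X ^ 16

/-- explicit truncation `B2s` -/
noncomputable def hm3_B2s : PowerSeries ℤ :=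
  1 * X ^ 4 + (-96) * X ^ 5 + 5004 * X ^ 6 + (-172640) * X ^ 7 + 4313598 * X ^ 8 + (-81292032) * X ^ 9 + 1183151204 * X ^ 10 + (-13547815104) * X ^ 11 + 124014231333 * X ^ 12 + (-918863335232) * X ^ 13 + 5547786538668 * X ^ 14 + (-27215285112288) * X ^ 15 + 106195231483284 * X ^ 16

/-! ### The reduction steps, each checked by `ring` -/

theorem hm3_step_P2 : hm3_P1 * hm3_P1 = hm3_P2 + X ^ 17 * ((-2) * X ^ 2 + (-2) * X ^ 3 + (-2) * X ^ 5 + 1 * X ^ 7 + 2 * X ^ 10 + 1 * X ^ 13) := by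
  unfold hm3_P1 hm3_P2
  ring

theorem hm3_step_P3 : hm3_P2 * hm3_P1 = hm3_P3 + X ^ 17 * (2 * X ^ 2 + 9 * X ^ 4 + (-3) * X ^ 5 + 4 * X ^ 6 + 2 * X ^ 7 + (-3) * X ^ 8 + (-3) * X ^ 9 + 2 * X ^ 10 + (-4) * X ^ 11 + (-3) * X ^ 12 + 2 * X ^ 13 + (-2) * X ^ 14) := by
  unfold hm3_P1 hm3_P2 hm3_P3
  ring

theorem hm3_step_P6 : hm3_P3 * hm3_P3 = hm3_P6 + X ^ 17 * ((-110) * X + 81 * X ^ 3 + 154 * X ^ 4 + (-198) * X ^ 8 + 121 * X ^ 13) := by
  unfold hm3_P3 hm3_P6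
  ring

theorem hm3_step_P12 : hm3_P6 * hm3_P6 = hm3_P12 + X ^ 17 * ((-4752 : PowerSeries ℤ) + (-78) * X + 3696 * X ^ 2 + 19044 * X ^ 3 + (-9288) * X ^ 4 + (-11088) * X ^ 5 + (-7092) * X ^ 6 + (-4239) * X ^ 7 + 16428 * X ^ 8 + 8316 * X ^ 9 + 4324 * X ^ 10 + (-9840) * X ^ 11 + (-10800) * X ^ 12 + 484 * X ^ 13 + 2640 * X ^ 14 + 3600 * X ^ 15) := by
  unfold hm3_P12 hm3_P6
  ring

theorem hm3_step_P24 : hm3_P12 * hm3_P12 = hm3_P24 + X ^ 17 * ((2736936 : PowerSeries ℤ) + 10547968 * X + (-6613728) * X ^ 2 + (-4937724) * X ^ 3 + (-13928136) * X ^ 4 + 22459128 * X ^ 5 + 22844160 * X ^ 6 + (-35478687) * X ^ 7 + 1314192 * X ^ 8 + (-31527900) * X ^ 9 + 46533280 * X ^ 10 + 37994724 * X ^ 11 + (-58243968) * X ^ 12 + 25811776 * X ^ 13 + (-55157760) * X ^ 14 + 41990400 * X ^ 15) := by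
  unfold hm3_P12 hm3_P24
  ring

theorem hm3_step_E2 : hm3_E * hm3_E = hm3_E2 + X ^ 17 * ((196960204800 : PowerSeries ℤ) + 295727558400 * X + 423175449600 * X ^ 2 + 595536422400 * X ^ 3 + 793441382400 * X ^ 4 + 1045243929600 * X ^ 5 + 1294036531200 * X ^ 6 + 1605501964800 * X ^ 7 + 1861730265600 * X ^ 8 + 2160158515200 * X ^ 9 + 2332953446400 * X ^ 10 + 2547661363200 * X ^ 11 + 2443567795200 * X ^ 12 + 2386456473600 * X ^ 13 + 1902478233600 * X ^ 14 + 1262117433600 * X ^ 15) := by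
  unfold hm3_E hm3_E2
  ring

theorem hm3_step_E3 : hm3_E2 * hm3_E = hm3_E3 + X ^ 17 * ((3249429176217600 : PowerSeries ℤ) + 6049316745100800 * X + 10548455223859200 * X ^ 2 + 17359911039052800 * X ^ 3 + 26683865550028800 * X ^ 4 + 39795628238899200 * X ^ 5 + 55397764877414400 * X ^ 6 + 76767940097049600 * X ^ 7 + 99776975669683200 * X ^ 8 + 128718870030950400 * X ^ 9 + 156238679184076800 * X ^ 10 + 189865902448742400 * X ^ 11 + 206487568706918400 * X ^ 12 + 223256622958387200 * X ^ 13 + 202137520713523200 * X ^ 14 + 145893938158195200 * X ^ 15) := by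
  unfold hm3_E hm3_E2 hm3_E3
  ring

theorem hm3_step_Ee2 : hm3_Ee * hm3_Ee = hm3_Ee2 + X ^ 17 * (135360000 * X + 366105600 * X ^ 4 + 713376000 * X ^ 7 + 1059609600 * X ^ 10 + 914457600 * X ^ 13) := by
  unfold hm3_Ee hm3_Ee2
  ring

theorem hm3_step_Ee3 : hm3_Ee2 * hm3_Ee = hm3_Ee3 + X ^ 17 * (34277760000 * X + 154538035200 * X ^ 4 + 422630208000 * X ^ 7 + 896697907200 * X ^ 10 + 1134014515200 * X ^ 13) := by
  unfold hm3_Ee hm3_Ee2 hm3_Ee3
  ring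

theorem hm3_step_L : hm3_Dh * hm3_D3h = hm3_L + X ^ 17 * ((1634448 : PowerSeries ℤ) + (-8398404) * X + 3178416 * X ^ 2 + 24052020 * X ^ 3 + 15380928 * X ^ 4 + (-79520520) * X ^ 5 + (-277642752) * X ^ 6 + 303858198 * X ^ 7 + 539295008 * X ^ 8 + 1990643928 * X ^ 9 + (-3583319040) * X ^ 10 + (-4243538732) * X ^ 11 + 1940964480 * X ^ 12 + 5878882800 * X ^ 13 + 4767866880 * X ^ 14) := by
  unfold hm3_D3h hm3_Dh hm3_L
  ring

theorem hm3_step_DD : hm3_Dh * hm3_Dh = hm3_DD + X ^ 17 * ((-23522231424 : PowerSeries ℤ) + (-26285206815) * X + 136881654624 * X ^ 2 + (-147408997688) * X ^ 3 + (-155893067904) * X ^ 4 + 518318345196 * X ^ 5 + (-181421549120) * X ^ 6 + (-683155108416) * X ^ 7 + 351742401792 * X ^ 8 + 1108208126116 * X ^ 9 + (-311861859072) * X ^ 10 + (-1977255276192) * X ^ 11 + (-162365858816) * X ^ 12 + 2274851514432 * X ^ 13 + 2403004907520 * X ^ 14 + 974437482496 * X ^ 15) := by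
  unfold hm3_DD hm3_Dh
  ring

theorem hm3_step_TT : hm3_D3h * hm3_D3h = hm3_TT + X ^ 17 * (143820 * X + (-973728) * X ^ 4 + 4601104 * X ^ 7 + (-14219520) * X ^ 10 + 23328900 * X ^ 13) := by
  unfold hm3_D3h hm3_TT
  ring

theorem hm3_step_A1s : hm3_A1 * hm3_A1 = hm3_A1s + X ^ 17 * ((11072546135274236261213952 : PowerSeries ℤ) + 41224941699191158730321232 * X + 142950395919283588517648256 * X ^ 2 + 465089201628700655593158912 * X ^ 3 + 1425892041681937393776643584 * X ^ 4 + 4129395113498940827524472256 * X ^ 5 + 11284181125696585970116621056 * X ^ 6 + 29047652845563943834984165824 * X ^ 7 + 70225699735509218190083956608 * X ^ 8 + 159089570302879621514221100352 * X ^ 9 + 336513506220080093767412371968 * X ^ 10 + 661655491399703238934773631104 * X ^ 11 + 1197277944144066035645014059264 * X ^ 12 + 1954775173420899046380696708672 * X ^ 13 + 2737227253120193111928863996160 * X ^ 14 + 2785194014960627430527620290816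 * X ^ 15) := by
  unfold hm3_A1 hm3_A1s
  ring

theorem hm3_step_L1 : hm3_L * hm3_A1s = hm3_L1 + X ^ 17 * ((-57650757705276675408 : PowerSeries ℤ) + 834987131271402640272 * X + (-446171017879960221168) * X ^ 2 + 1277018695019821183488 * X ^ 3 + (-11095960512592459738335240) * X ^ 4 + 224523495591840603299512800 * X ^ 5 + (-1943852027297040354168325728) * X ^ 6 + 9142088062230952287325181856 * X ^ 7 + (-24476456024040038581535769936) * X ^ 8 + 37842148793039567248594832256 * X ^ 9 + (-58609366137386087410403291952) * X ^ 10 + 187726353903818750993335413408 * X ^ 11 + (-324787328277262621206599238912) * X ^ 12 + (-353283137467093248995696859648) * X ^ 13 + 1364291604688794469214499236160 * X ^ 14 + 429610279508176370903935788672 * X ^ 15) := by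
  unfold hm3_A1s hm3_L hm3_L1
  ring

theorem hm3_step_B1s : hm3_B1 * hm3_B1 = hm3_B1s + X ^ 17 * ((-57650757705275040960 : PowerSeries ℤ) + 834987131271276561612 * X + (-446171017828247932032) * X ^ 2 + 1277018581266498839604 * X ^ 3 + (-23414418215756275940064) * X ^ 4 + 7309207718991415986072 * X ^ 5 + (-16791464219920034982720) * X ^ 6 + 431688017272827104724996 * X ^ 7 + (-57997785462691752660416) * X ^ 8 + 42494832466128606034464 * X ^ 9 + (-5012652317880267519877440) * X ^ 10 + 226089673281239306803360 * X ^ 11 + 555648945613032313336320 * X ^ 12 + 32946094031118773867654400 * X ^ 13 + (-563588974243936719648000) * X ^ 14 + 2409895675804129358400 * X ^ 15) := by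
  unfold hm3_B1 hm3_B1s
  ring

theorem hm3_step_A2s : hm3_A2 * hm3_A2 = hm3_A2s + X ^ 17 * ((-270490817587968 : PowerSeries ℤ) + 635619611683152 * X + 1296073062902016 * X ^ 2 + (-4873278186724608) * X ^ 3 + 20676408661252224 * X ^ 4 + 10258398977651136 * X ^ 5 + (-44200787886687744) * X ^ 6 + 359836901388506304 * X ^ 7 + 54460127072924928 * X ^ 8 + (-188269606150411968) * X ^ 9 + 3774000356345219328 * X ^ 10 + 161705688229206144 * X ^ 11 + (-134150204886921216) * X ^ 12 + 21026824894765956672 * X ^ 13 + (-325901018140508160) * X ^ 14 + 1262870977314816 * X ^ 15) := by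
  unfold hm3_A2 hm3_A2s
  ring

theorem hm3_step_L2 : hm3_L * hm3_A2s = hm3_L2 + X ^ 17 * ((-307957654540368 : PowerSeries ℤ) + 502057521976752 * X + 725481966411792 * X ^ 2 + (-8797602043072512) * X ^ 3 + 34430078220800760 * X ^ 4 + (-77511291136212960) * X ^ 5 + 80228922889544352 * X ^ 6 + 60500416124514816 * X ^ 7 + (-282142793473221456) * X ^ 8 + 668704818733785216 * X ^ 9 + (-3543399380287267632) * X ^ 10 + 11534710251700631808 * X ^ 11 + (-11294896924171245312) * X ^ 12 + (-21005409064022045568) * X ^ 13 + 40764633266658000960 * X ^ 14 + 13678710321653125632 * X ^ 15) := by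
  unfold hm3_A2s hm3_L hm3_L2
  ring

theorem hm3_step_B2s : hm3_B2 * hm3_B2 = hm3_B2s + X ^ 17 * ((-307957652905920 : PowerSeries ℤ) + 502057395898092 * X + 725533678700928 * X ^ 2 + (-8799917945649996) * X ^ 3 + 34222046899201056 * X ^ 4 + (-71332261277234088) * X ^ 5 + 6782890968949440 * X ^ 6 + 540008064605406276 * X ^ 7 + (-2063637698966062016) * X ^ 8 + 3555606356191032864 * X ^ 9 + 1205814549039595200 * X ^ 10 + (-23407879663409748320) * X ^ 11 + 56362479422100134400 * X ^ 12 + (-29242401608323065600) * X ^ 13 + (-153757186088200992000) * X ^ 14 + 336184626908379240000 * X ^ 15) := by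
  unfold hm3_B2 hm3_B2s
  ring

theorem hm3_step_Dh : X * hm3_P24 = hm3_Dh + X ^ 17 * ((-6905934 : PowerSeries ℤ)) := by
  unfold hm3_P24 hm3_Dh
  ring

theorem hm3_step_D3h : X ^ 3 * hm3_P24e = hm3_D3h + X ^ 17 * ((-6048) * X) := by
  unfold hm3_P24e hm3_D3h
  ring

theorem hm3_A1_eq : hm3_E3 - 756 * hm3_Dh - 19131876 * hm3_D3h = hm3_A1 := by
  unfold hm3_E3 hm3_Dh hm3_D3h hm3_A1
  ring

theorem hm3_B1_eq : hm3_DD + 196830 * hm3_L + 387420489 * hm3_TT = hm3_B1 := by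
  unfold hm3_DD hm3_L hm3_TT hm3_B1
  ring

theorem hm3_A2_eq : hm3_Ee3 - 36 * hm3_Dh - 756 * hm3_D3h = hm3_A2 := by
  unfold hm3_Ee3 hm3_Dh hm3_D3h hm3_A2
  ring

theorem hm3_B2_eq : hm3_DD + 270 * hm3_L + 729 * hm3_TT = hm3_B2 := by
  unfold hm3_DD hm3_L hm3_TT hm3_B2
  ring

theorem hm3_L1_eq_B1s : hm3_L1 = hm3_B1s := rfl

theorem hm3_L2_eq_B2s : hm3_L2 = hm3_B2s := rfl

/-- truncated partial product -/
noncomputable def hm3_Q0 : PowerSeries ℤ := 1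

/-- truncated partial product -/
noncomputable def hm3_Q1 : PowerSeries ℤ :=
  (1 : PowerSeries ℤ) + (-1) * X

/-- truncated partial product -/
noncomputable def hm3_Q2 : PowerSeries ℤ :=
  (1 : PowerSeries ℤ) + (-1) * X + (-1) * X ^ 2 + 1 * X ^ 3

/-- truncated partial product -/
noncomputable def hm3_Q3 : PowerSeries ℤ :=
  (1 : PowerSeries ℤ) + (-1) * X + (-1) * X ^ 2 + 1 * X ^ 4 + 1 * X ^ 5 + (-1) * X ^ 6

/-- truncated partial product -/
noncomputable def hm3_Q4 : PowerSeries ℤ :=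
  (1 : PowerSeries ℤ) + (-1) * X + (-1) * X ^ 2 + 2 * X ^ 5 + (-1) * X ^ 8 + (-1) * X ^ 9 + 1 * X ^ 10

/-- truncated partial product -/
noncomputable def hm3_Q5 : PowerSeries ℤ :=
  (1 : PowerSeries ℤ) + (-1) * X + (-1) * X ^ 2 + 1 * X ^ 5 + 1 * X ^ 6 + 1 * X ^ 7 + (-1) * X ^ 8 + (-1) * X ^ 9 + (-1) * X ^ 10 + 1 * X ^ 13 + 1 * X ^ 14 + (-1) * X ^ 15

/-- truncated partial product -/
noncomputable def hm3_Q6 : PowerSeries ℤ :=
  (1 : PowerSeries ℤ) + (-1) * X + (-1) * X ^ 2 + 1 * X ^ 5 + 2 * X ^ 7 + (-1) * X ^ 9 + (-1) * X ^ 10 + (-1) * X ^ 11 + (-1) * X ^ 12 + 2 * X ^ 14 + 1 * X ^ 16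

/-- truncated partial product -/
noncomputable def hm3_Q7 : PowerSeries ℤ :=
  (1 : PowerSeries ℤ) + (-1) * X + (-1) * X ^ 2 + 1 * X ^ 5 + 1 * X ^ 7 + 1 * X ^ 8 + (-1) * X ^ 10 + (-1) * X ^ 11 + (-2) * X ^ 12 + 2 * X ^ 16

/-- truncated partial product -/
noncomputable def hm3_Q8 : PowerSeries ℤ :=
  (1 : PowerSeries ℤ) + (-1) * X + (-1) * X ^ 2 + 1 * X ^ 5 + 1 * X ^ 7 + 1 * X ^ 9 + (-1) * X ^ 11 + (-2) * X ^ 12 + (-1) * X ^ 13 + (-1) * X ^ 15 + 1 * X ^ 16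

/-- truncated partial product -/
noncomputable def hm3_Q9 : PowerSeries ℤ :=
  (1 : PowerSeries ℤ) + (-1) * X + (-1) * X ^ 2 + 1 * X ^ 5 + 1 * X ^ 7 + 1 * X ^ 10 + (-2) * X ^ 12 + (-1) * X ^ 13 + (-1) * X ^ 14 + (-1) * X ^ 15

/-- truncated partial product -/
noncomputable def hm3_Q10 : PowerSeries ℤ :=
  (1 : PowerSeries ℤ) + (-1) * X + (-1) * X ^ 2 + 1 * X ^ 5 + 1 * X ^ 7 + 1 * X ^ 11 + (-1) * X ^ 12 + (-1) * X ^ 13 + (-1) * X ^ 14 + (-2) * X ^ 15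

/-- truncated partial product -/
noncomputable def hm3_Q11 : PowerSeries ℤ :=
  (1 : PowerSeries ℤ) + (-1) * X + (-1) * X ^ 2 + 1 * X ^ 5 + 1 * X ^ 7 + (-1) * X ^ 14 + (-2) * X ^ 15 + (-1) * X ^ 16

/-- truncated partial product -/
noncomputable def hm3_Q12 : PowerSeries ℤ :=
  (1 : PowerSeries ℤ) + (-1) * X + (-1) * X ^ 2 + 1 * X ^ 5 + 1 * X ^ 7 + (-1) * X ^ 12 + 1 * X ^ 13 + (-2) * X ^ 15 + (-1) * X ^ 16

/-- truncated partial product -/
noncomputable def hm3_Q13 : PowerSeries ℤ :=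
  (1 : PowerSeries ℤ) + (-1) * X + (-1) * X ^ 2 + 1 * X ^ 5 + 1 * X ^ 7 + (-1) * X ^ 12 + 1 * X ^ 14 + (-1) * X ^ 15 + (-1) * X ^ 16

/-- truncated partial product -/
noncomputable def hm3_Q14 : PowerSeries ℤ :=
  (1 : PowerSeries ℤ) + (-1) * X + (-1) * X ^ 2 + 1 * X ^ 5 + 1 * X ^ 7 + (-1) * X ^ 12

/-- truncated partial product -/
noncomputable def hm3_Q15 : PowerSeries ℤ :=
  (1 : PowerSeries ℤ) + (-1) * X + (-1) * X ^ 2 + 1 * X ^ 5 + 1 * X ^ 7 + (-1) * X ^ 12 + (-1) * X ^ 15 + 1 * X ^ 16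

/-- truncated partial product -/
noncomputable def hm3_Q16 : PowerSeries ℤ :=
  (1 : PowerSeries ℤ) + (-1) * X + (-1) * X ^ 2 + 1 * X ^ 5 + 1 * X ^ 7 + (-1) * X ^ 12 + (-1) * X ^ 15

theorem hm3_qstep0 : hm3_Q0 * (1 - X ^ (0 + 1)) = hm3_Q1 + X ^ 17 * ((0 : PowerSeries ℤ)) := by
  unfold hm3_Q0 hm3_Q1
  ring

theorem hm3_qstep1 : hm3_Q1 * (1 - X ^ (1 + 1)) = hm3_Q2 + X ^ 17 * ((0 : PowerSeries ℤ)) := by
  unfold hm3_Q1 hm3_Q2
  ring

theorem hm3_qstep2 : hm3_Q2 * (1 - X ^ (2 + 1)) = hm3_Q3 + X ^ 17 * ((0 : PowerSeries ℤ)) := by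
  unfold hm3_Q2 hm3_Q3
  ring

theorem hm3_qstep3 : hm3_Q3 * (1 - X ^ (3 + 1)) = hm3_Q4 + X ^ 17 * ((0 : PowerSeries ℤ)) := by
  unfold hm3_Q3 hm3_Q4
  ring

theorem hm3_qstep4 : hm3_Q4 * (1 - X ^ (4 + 1)) = hm3_Q5 + X ^ 17 * ((0 : PowerSeries ℤ)) := by
  unfold hm3_Q4 hm3_Q5
  ring

theorem hm3_qstep5 : hm3_Q5 * (1 - X ^ (5 + 1)) = hm3_Q6 + X ^ 17 * ((-1) * X ^ 2 + (-1) * X ^ 3 + 1 * X ^ 4) := by
  unfold hm3_Q5 hm3_Q6
  ring

theorem hm3_qstep6 : hm3_Q6 * (1 - X ^ (6 + 1)) = hm3_Q7 + X ^ 17 * ((1 : PowerSeries ℤ) + 1 * X + 1 * X ^ 2 + (-2) * X ^ 4 + (-1) * X ^ 6) := by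
  unfold hm3_Q6 hm3_Q7
  ring

theorem hm3_qstep7 : hm3_Q7 * (1 - X ^ (7 + 1)) = hm3_Q8 + X ^ 17 * (1 * X + 1 * X ^ 2 + 2 * X ^ 3 + (-2) * X ^ 7) := by
  unfold hm3_Q7 hm3_Q8
  ring

theorem hm3_qstep8 : hm3_Q8 * (1 - X ^ (8 + 1)) = hm3_Q9 + X ^ 17 * ((-1) * X + 1 * X ^ 3 + 2 * X ^ 4 + 1 * X ^ 5 + 1 * X ^ 7 + (-1) * X ^ 8) := by
  unfold hm3_Q8 hm3_Q9
  ring

theorem hm3_qstep9 : hm3_Q9 * (1 - X ^ (9 + 1)) = hm3_Q10 + X ^ 17 * ((-1 : PowerSeries ℤ) + (-1) * X ^ 3 + 2 * X ^ 5 + 1 * X ^ 6 + 1 * X ^ 7 + 1 * X ^ 8) := by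
  unfold hm3_Q9 hm3_Q10
  ring

theorem hm3_qstep10 : hm3_Q10 * (1 - X ^ (10 + 1)) = hm3_Q11 + X ^ 17 * ((-1) * X + (-1) * X ^ 5 + 1 * X ^ 6 + 1 * X ^ 7 + 1 * X ^ 8 + 2 * X ^ 9) := by
  unfold hm3_Q10 hm3_Q11
  ring

theorem hm3_qstep11 : hm3_Q11 * (1 - X ^ (11 + 1)) = hm3_Q12 + X ^ 17 * ((-1 : PowerSeries ℤ) + (-1) * X ^ 2 + 1 * X ^ 9 + 2 * X ^ 10 + 1 * X ^ 11) := by
  unfold hm3_Q11 hm3_Q12
  ring

theorem hm3_qstep12 : hm3_Q12 * (1 - X ^ (12 + 1)) = hm3_Q13 + X ^ 17 * ((-1) * X + (-1) * X ^ 3 + 1 * X ^ 8 + (-1) * X ^ 9 + 2 * X ^ 11 + 1 * X ^ 12) := by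
  unfold hm3_Q12 hm3_Q13
  ring

theorem hm3_qstep13 : hm3_Q13 * (1 - X ^ (13 + 1)) = hm3_Q14 + X ^ 17 * ((-1) * X ^ 2 + (-1) * X ^ 4 + 1 * X ^ 9 + (-1) * X ^ 11 + 1 * X ^ 12 + 1 * X ^ 13) := by
  unfold hm3_Q13 hm3_Q14
  ring

theorem hm3_qstep14 : hm3_Q14 * (1 - X ^ (14 + 1)) = hm3_Q15 + X ^ 17 * ((1 : PowerSeries ℤ) + (-1) * X ^ 3 + (-1) * X ^ 5 + 1 * X ^ 10) := by
  unfold hm3_Q14 hm3_Q15
  ring

theorem hm3_qstep15 : hm3_Q15 * (1 - X ^ (15 + 1)) = hm3_Q16 + X ^ 17 * ((1 : PowerSeries ℤ) + 1 * X + (-1) * X ^ 4 + (-1) * X ^ 6 + 1 * X ^ 11 + 1 * X ^ 14 + (-1) * X ^ 15) := by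
  unfold hm3_Q15 hm3_Q16
  ring

theorem hm3_cong_part0 : hm_Cong 17 (Fermat.Agent.S24.brPartPS ℤ 0) hm3_Q0 := by
  unfold Fermat.Agent.S24.brPartPS hm3_Q0
  rw [Finset.prod_range_zero]
  exact hm_Cong.refl _

theorem hm3_cong_part1 : hm_Cong 17 (Fermat.Agent.S24.brPartPS ℤ 1) hm3_Q1 := by
  have h : Fermat.Agent.S24.brPartPS ℤ 1 = Fermat.Agent.S24.brPartPS ℤ 0 * (1 - X ^ (0 + 1)) :=
    Finset.prod_range_succ _ _
  rw [h]
  exact hm3_cong_part0.mul_eq (hm_Cong.refl _) hm3_qstep0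

theorem hm3_cong_part2 : hm_Cong 17 (Fermat.Agent.S24.brPartPS ℤ 2) hm3_Q2 := by
  have h : Fermat.Agent.S24.brPartPS ℤ 2 = Fermat.Agent.S24.brPartPS ℤ 1 * (1 - X ^ (1 + 1)) :=
    Finset.prod_range_succ _ _
  rw [h]
  exact hm3_cong_part1.mul_eq (hm_Cong.refl _) hm3_qstep1

theorem hm3_cong_part3 : hm_Cong 17 (Fermat.Agent.S24.brPartPS ℤ 3) hm3_Q3 := by
  have h : Fermat.Agent.S24.brPartPS ℤ 3 = Fermat.Agent.S24.brPartPS ℤ 2 * (1 - X ^ (2 + 1)) :=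
    Finset.prod_range_succ _ _
  rw [h]
  exact hm3_cong_part2.mul_eq (hm_Cong.refl _) hm3_qstep2

theorem hm3_cong_part4 : hm_Cong 17 (Fermat.Agent.S24.brPartPS ℤ 4) hm3_Q4 := by
  have h : Fermat.Agent.S24.brPartPS ℤ 4 = Fermat.Agent.S24.brPartPS ℤ 3 * (1 - X ^ (3 + 1)) :=
    Finset.prod_range_succ _ _
  rw [h]
  exact hm3_cong_part3.mul_eq (hm_Cong.refl _) hm3_qstep3

theorem hm3_cong_part5 : hm_Cong 17 (Fermat.Agent.S24.brPartPS ℤ 5) hm3_Q5 := by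
  have h : Fermat.Agent.S24.brPartPS ℤ 5 = Fermat.Agent.S24.brPartPS ℤ 4 * (1 - X ^ (4 + 1)) :=
    Finset.prod_range_succ _ _
  rw [h]
  exact hm3_cong_part4.mul_eq (hm_Cong.refl _) hm3_qstep4

theorem hm3_cong_part6 : hm_Cong 17 (Fermat.Agent.S24.brPartPS ℤ 6) hm3_Q6 := by
  have h : Fermat.Agent.S24.brPartPS ℤ 6 = Fermat.Agent.S24.brPartPS ℤ 5 * (1 - X ^ (5 + 1)) :=
    Finset.prod_range_succ _ _
  rw [h]
  exact hm3_cong_part5.mul_eq (hm_Cong.refl _) hm3_qstep5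

theorem hm3_cong_part7 : hm_Cong 17 (Fermat.Agent.S24.brPartPS ℤ 7) hm3_Q7 := by
  have h : Fermat.Agent.S24.brPartPS ℤ 7 = Fermat.Agent.S24.brPartPS ℤ 6 * (1 - X ^ (6 + 1)) :=
    Finset.prod_range_succ _ _
  rw [h]
  exact hm3_cong_part6.mul_eq (hm_Cong.refl _) hm3_qstep6

theorem hm3_cong_part8 : hm_Cong 17 (Fermat.Agent.S24.brPartPS ℤ 8) hm3_Q8 := by
  have h : Fermat.Agent.S24.brPartPS ℤ 8 = Fermat.Agent.S24.brPartPS ℤ 7 * (1 - X ^ (7 + 1)) :=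
    Finset.prod_range_succ _ _
  rw [h]
  exact hm3_cong_part7.mul_eq (hm_Cong.refl _) hm3_qstep7

theorem hm3_cong_part9 : hm_Cong 17 (Fermat.Agent.S24.brPartPS ℤ 9) hm3_Q9 := by
  have h : Fermat.Agent.S24.brPartPS ℤ 9 = Fermat.Agent.S24.brPartPS ℤ 8 * (1 - X ^ (8 + 1)) :=
    Finset.prod_range_succ _ _
  rw [h]
  exact hm3_cong_part8.mul_eq (hm_Cong.refl _) hm3_qstep8

theorem hm3_cong_part10 : hm_Cong 17 (Fermat.Agent.S24.brPartPS ℤ 10) hm3_Q10 := by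
  have h : Fermat.Agent.S24.brPartPS ℤ 10 = Fermat.Agent.S24.brPartPS ℤ 9 * (1 - X ^ (9 + 1)) :=
    Finset.prod_range_succ _ _
  rw [h]
  exact hm3_cong_part9.mul_eq (hm_Cong.refl _) hm3_qstep9

theorem hm3_cong_part11 : hm_Cong 17 (Fermat.Agent.S24.brPartPS ℤ 11) hm3_Q11 := by
  have h : Fermat.Agent.S24.brPartPS ℤ 11 = Fermat.Agent.S24.brPartPS ℤ 10 * (1 - X ^ (10 + 1)) :=
    Finset.prod_range_succ _ _
  rw [h]
  exact hm3_cong_part10.mul_eq (hm_Cong.refl _) hm3_qstep10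

theorem hm3_cong_part12 : hm_Cong 17 (Fermat.Agent.S24.brPartPS ℤ 12) hm3_Q12 := by
  have h : Fermat.Agent.S24.brPartPS ℤ 12 = Fermat.Agent.S24.brPartPS ℤ 11 * (1 - X ^ (11 + 1)) :=
    Finset.prod_range_succ _ _
  rw [h]
  exact hm3_cong_part11.mul_eq (hm_Cong.refl _) hm3_qstep11

theorem hm3_cong_part13 : hm_Cong 17 (Fermat.Agent.S24.brPartPS ℤ 13) hm3_Q13 := by
  have h : Fermat.Agent.S24.brPartPS ℤ 13 = Fermat.Agent.S24.brPartPS ℤ 12 * (1 - X ^ (12 + 1)) :=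
    Finset.prod_range_succ _ _
  rw [h]
  exact hm3_cong_part12.mul_eq (hm_Cong.refl _) hm3_qstep12

theorem hm3_cong_part14 : hm_Cong 17 (Fermat.Agent.S24.brPartPS ℤ 14) hm3_Q14 := by
  have h : Fermat.Agent.S24.brPartPS ℤ 14 = Fermat.Agent.S24.brPartPS ℤ 13 * (1 - X ^ (13 + 1)) :=
    Finset.prod_range_succ _ _
  rw [h]
  exact hm3_cong_part13.mul_eq (hm_Cong.refl _) hm3_qstep13

theorem hm3_cong_part15 : hm_Cong 17 (Fermat.Agent.S24.brPartPS ℤ 15) hm3_Q15 := by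
  have h : Fermat.Agent.S24.brPartPS ℤ 15 = Fermat.Agent.S24.brPartPS ℤ 14 * (1 - X ^ (14 + 1)) :=
    Finset.prod_range_succ _ _
  rw [h]
  exact hm3_cong_part14.mul_eq (hm_Cong.refl _) hm3_qstep14

theorem hm3_cong_part16 : hm_Cong 17 (Fermat.Agent.S24.brPartPS ℤ 16) hm3_Q16 := by
  have h : Fermat.Agent.S24.brPartPS ℤ 16 = Fermat.Agent.S24.brPartPS ℤ 15 * (1 - X ^ (15 + 1)) :=
    Finset.prod_range_succ _ _
  rw [h]
  exact hm3_cong_part15.mul_eq (hm_Cong.refl _) hm3_qstep15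

theorem hm3_Q16_eq : hm3_Q16 = hm3_P1 := rfl


/-! ### Expansions `X ↦ X ^ 3` of the explicit truncations -/

theorem hm3_expand_P24 : PowerSeries.expand 3 three_ne_zero hm3_P24 =
    hm3_P24e + X ^ 17 * ((-16744) * X + 84480 * X ^ 4 + (-113643) * X ^ 7 + (-115920) * X ^ 10 + 534612 * X ^ 13 + (-370944) * X ^ 16 + (-577738) * X ^ 19 + 401856 * X ^ 22 + 1217160 * X ^ 25 + 987136 * X ^ 28 + (-6905934) * X ^ 31) := by
  unfold hm3_P24 hm3_P24e
  simp only [map_add, map_mul, map_pow, map_neg, map_ofNat, map_one, expand_X]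
  ring

theorem hm3_expand_E : PowerSeries.expand 3 three_ne_zero hm3_E =
    hm3_Ee + X ^ 17 * (60480 * X + 82560 * X ^ 4 + 140400 * X ^ 7 + 181680 * X ^ 10 + 272160 * X ^ 13 + 319680 * X ^ 16 + 490560 * X ^ 19 + 527520 * X ^ 22 + 743040 * X ^ 25 + 846720 * X ^ 28 + 1123440 * X ^ 31) := by
  unfold hm3_E hm3_Ee
  simp only [map_add, map_mul, map_pow, map_ofNat, map_one, expand_X]
  ring

/-! ### The congruences for the actual series -/

open ModularCurve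

theorem hm3_cong_etaProd : hm_Cong 17 etaProd hm3_P1 := by
  have h1 : hm_Cong 17 etaProd (Fermat.Agent.S24.brPartPS ℤ 16) := by
    rw [hm_Cong.iff_coeff]
    intro m hm
    exact Fermat.Agent.S24.br_coeff_etaProd (by omega)
  exact h1.trans (hm3_Q16_eq ▸ hm3_cong_part16)

theorem hm3_cong_eta24 : hm_Cong 17 dedekindEtaUnit hm3_P24 := by
  have h1 := hm3_cong_etaProd
  have h2 := h1.mul_eq h1 hm3_step_P2
  have h3 := h2.mul_eq h1 hm3_step_P3
  have h6 := h3.mul_eq h3 hm3_step_P6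
  have h12 := h6.mul_eq h6 hm3_step_P12
  have h24 := h12.mul_eq h12 hm3_step_P24
  have : dedekindEtaUnit = etaProd * etaProd * etaProd * (etaProd * etaProd * etaProd) *
      (etaProd * etaProd * etaProd * (etaProd * etaProd * etaProd)) *
      (etaProd * etaProd * etaProd * (etaProd * etaProd * etaProd) *
      (etaProd * etaProd * etaProd * (etaProd * etaProd * etaProd))) := by
    unfold dedekindEtaUnit
    ring
  rw [this]
  exact h24

theorem hm3_E_eq : hm3_E = C (1:ℤ) * X ^ 0 +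
    C (240:ℤ) * X ^ 1 +
    C (2160:ℤ) * X ^ 2 +
    C (6720:ℤ) * X ^ 3 +
    C (17520:ℤ) * X ^ 4 +
    C (30240:ℤ) * X ^ 5 +
    C (60480:ℤ) * X ^ 6 +
    C (82560:ℤ) * X ^ 7 +
    C (140400:ℤ) * X ^ 8 +
    C (181680:ℤ) * X ^ 9 +
    C (272160:ℤ) * X ^ 10 +
    C (319680:ℤ) * X ^ 11 +
    C (490560:ℤ) * X ^ 12 +
    C (527520:ℤ) * X ^ 13 +
    C (743040:ℤ) * X ^ 14 +
    C (846720:ℤ) * X ^ 15 +
    C (1123440:ℤ) * X ^ 16 := by
  unfold hm3_E
  simp only [map_ofNat, map_one, pow_zero, pow_one, mul_one]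

theorem hm3_cong_E : hm_Cong 17 eisenstein4 hm3_E := by
  rw [hm_Cong.iff_coeff]
  intro m hm
  rw [hm3_E_eq]
  unfold eisenstein4
  simp only [coeff_mk, map_add, coeff_C_mul_X_pow]
  interval_cases m <;> simp <;> decide

/-- `D = X * etaProd ^ 24` modulo `X ^ 17`. -/
theorem hm3_cong_D : hm_Cong 17 (X * dedekindEtaUnit) hm3_Dh :=
  (hm_Cong.const_mul X hm3_cong_eta24).trans (hm_Cong.of_eq hm3_step_Dh)

/-- `D₃ = X ^ 3 * (etaProd ^ 24)(X ^ 3)` modulo `X ^ 17`. -/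
theorem hm3_cong_D3 :
    hm_Cong 17 (X ^ 3 * PowerSeries.expand 3 three_ne_zero dedekindEtaUnit) hm3_D3h :=
  (hm_Cong.const_mul (X ^ 3)
    ((hm3_cong_eta24.expand three_ne_zero).trans (hm_Cong.of_eq hm3_expand_P24))).trans
    (hm_Cong.of_eq hm3_step_D3h)

theorem hm3_cong_Ee : hm_Cong 17 (PowerSeries.expand 3 three_ne_zero eisenstein4) hm3_Ee :=
  (hm3_cong_E.expand three_ne_zero).trans (hm_Cong.of_eq hm3_expand_E)

/-- The common part: `D * D₃`, `D * D`, `D₃ * D₃`. -/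
theorem hm3_cong_L : hm_Cong 17
    (X * dedekindEtaUnit * (X ^ 3 * PowerSeries.expand 3 three_ne_zero dedekindEtaUnit)) hm3_L :=
  hm3_cong_D.mul_eq hm3_cong_D3 hm3_step_L

theorem hm3_cong_DD : hm_Cong 17 (X * dedekindEtaUnit * (X * dedekindEtaUnit)) hm3_DD :=
  hm3_cong_D.mul_eq hm3_cong_D hm3_step_DD

theorem hm3_cong_TT : hm_Cong 17
    (X ^ 3 * PowerSeries.expand 3 three_ne_zero dedekindEtaUnit *
      (X ^ 3 * PowerSeries.expand 3 three_ne_zero dedekindEtaUnit)) hm3_TT :=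
  hm3_cong_D3.mul_eq hm3_cong_D3 hm3_step_TT

/-- **First identity modulo `X ^ 17`.** -/
theorem hm3_trunc_id1 :
    hm_Cong 17
      (X * dedekindEtaUnit * (X ^ 3 * PowerSeries.expand 3 three_ne_zero dedekindEtaUnit) *
        ((eisenstein4 * eisenstein4 * eisenstein4 - 756 * (X * dedekindEtaUnit) -
            19131876 * (X ^ 3 * PowerSeries.expand 3 three_ne_zero dedekindEtaUnit)) *
          (eisenstein4 * eisenstein4 * eisenstein4 - 756 * (X * dedekindEtaUnit) -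
            19131876 * (X ^ 3 * PowerSeries.expand 3 three_ne_zero dedekindEtaUnit))))
      ((X * dedekindEtaUnit * (X * dedekindEtaUnit) +
          196830 * (X * dedekindEtaUnit *
            (X ^ 3 * PowerSeries.expand 3 three_ne_zero dedekindEtaUnit)) +
          387420489 * (X ^ 3 * PowerSeries.expand 3 three_ne_zero dedekindEtaUnit *
            (X ^ 3 * PowerSeries.expand 3 three_ne_zero dedekindEtaUnit))) *
        (X * dedekindEtaUnit * (X * dedekindEtaUnit) +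
          196830 * (X * dedekindEtaUnit *
            (X ^ 3 * PowerSeries.expand 3 three_ne_zero dedekindEtaUnit)) +
          387420489 * (X ^ 3 * PowerSeries.expand 3 three_ne_zero dedekindEtaUnit *
            (X ^ 3 * PowerSeries.expand 3 three_ne_zero dedekindEtaUnit)))) := by
  have hE := hm3_cong_E
  have hE2 := hE.mul_eq hE hm3_step_E2
  have hE3 := hE2.mul_eq hE hm3_step_E3
  have hA : hm_Cong 17
      (eisenstein4 * eisenstein4 * eisenstein4 - 756 * (X * dedekindEtaUnit) -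
        19131876 * (X ^ 3 * PowerSeries.expand 3 three_ne_zero dedekindEtaUnit)) hm3_A1 := by
    rw [← hm3_A1_eq]
    exact hm3_cong_sub (hm3_cong_sub hE3 (hm_Cong.const_mul 756 hm3_cong_D))
      (hm_Cong.const_mul 19131876 hm3_cong_D3)
  have hAs := hA.mul_eq hA hm3_step_A1s
  have hL1 := hm3_cong_L.mul_eq hAs hm3_step_L1
  have hB : hm_Cong 17
      (X * dedekindEtaUnit * (X * dedekindEtaUnit) +
        196830 * (X * dedekindEtaUnit *
          (X ^ 3 * PowerSeries.expand 3 three_ne_zero dedekindEtaUnit)) +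
        387420489 * (X ^ 3 * PowerSeries.expand 3 three_ne_zero dedekindEtaUnit *
          (X ^ 3 * PowerSeries.expand 3 three_ne_zero dedekindEtaUnit))) hm3_B1 := by
    rw [← hm3_B1_eq]
    exact (hm3_cong_DD.add (hm_Cong.const_mul 196830 hm3_cong_L)).add
      (hm_Cong.const_mul 387420489 hm3_cong_TT)
  have hBs := hB.mul_eq hB hm3_step_B1s
  exact hL1.trans (hm3_L1_eq_B1s ▸ hBs.symm)

/-- **Second identity modulo `X ^ 17`.** -/
theorem hm3_trunc_id2 :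
    hm_Cong 17
      (X * dedekindEtaUnit * (X ^ 3 * PowerSeries.expand 3 three_ne_zero dedekindEtaUnit) *
        ((PowerSeries.expand 3 three_ne_zero eisenstein4 *
              PowerSeries.expand 3 three_ne_zero eisenstein4 *
              PowerSeries.expand 3 three_ne_zero eisenstein4 - 36 * (X * dedekindEtaUnit) -
            756 * (X ^ 3 * PowerSeries.expand 3 three_ne_zero dedekindEtaUnit)) *
          (PowerSeries.expand 3 three_ne_zero eisenstein4 *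
              PowerSeries.expand 3 three_ne_zero eisenstein4 *
              PowerSeries.expand 3 three_ne_zero eisenstein4 - 36 * (X * dedekindEtaUnit) -
            756 * (X ^ 3 * PowerSeries.expand 3 three_ne_zero dedekindEtaUnit))))
      ((X * dedekindEtaUnit * (X * dedekindEtaUnit) +
          270 * (X * dedekindEtaUnit *
            (X ^ 3 * PowerSeries.expand 3 three_ne_zero dedekindEtaUnit)) +
          729 * (X ^ 3 * PowerSeries.expand 3 three_ne_zero dedekindEtaUnit *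
            (X ^ 3 * PowerSeries.expand 3 three_ne_zero dedekindEtaUnit))) *
        (X * dedekindEtaUnit * (X * dedekindEtaUnit) +
          270 * (X * dedekindEtaUnit *
            (X ^ 3 * PowerSeries.expand 3 three_ne_zero dedekindEtaUnit)) +
          729 * (X ^ 3 * PowerSeries.expand 3 three_ne_zero dedekindEtaUnit *
            (X ^ 3 * PowerSeries.expand 3 three_ne_zero dedekindEtaUnit)))) := by
  have hE := hm3_cong_Ee
  have hE2 := hE.mul_eq hE hm3_step_Ee2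
  have hE3 := hE2.mul_eq hE hm3_step_Ee3
  have hA : hm_Cong 17
      (PowerSeries.expand 3 three_ne_zero eisenstein4 *
          PowerSeries.expand 3 three_ne_zero eisenstein4 *
          PowerSeries.expand 3 three_ne_zero eisenstein4 - 36 * (X * dedekindEtaUnit) -
        756 * (X ^ 3 * PowerSeries.expand 3 three_ne_zero dedekindEtaUnit)) hm3_A2 := by
    rw [← hm3_A2_eq]
    exact hm3_cong_sub (hm3_cong_sub hE3 (hm_Cong.const_mul 36 hm3_cong_D))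
      (hm_Cong.const_mul 756 hm3_cong_D3)
  have hAs := hA.mul_eq hA hm3_step_A2s
  have hL2 := hm3_cong_L.mul_eq hAs hm3_step_L2
  have hB : hm_Cong 17
      (X * dedekindEtaUnit * (X * dedekindEtaUnit) +
        270 * (X * dedekindEtaUnit *
          (X ^ 3 * PowerSeries.expand 3 three_ne_zero dedekindEtaUnit)) +
        729 * (X ^ 3 * PowerSeries.expand 3 three_ne_zero dedekindEtaUnit *
          (X ^ 3 * PowerSeries.expand 3 three_ne_zero dedekindEtaUnit))) hm3_B2 := by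
    rw [← hm3_B2_eq]
    exact (hm3_cong_DD.add (hm_Cong.const_mul 270 hm3_cong_L)).add
      (hm_Cong.const_mul 729 hm3_cong_TT)
  have hBs := hB.mul_eq hB hm3_step_B2s
  exact hL2.trans (hm3_L2_eq_B2s ▸ hBs.symm)

end Fermat.Agent.JT3
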