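import Mathlib
import Fermat.Agent.S16.Fricke
import Fermat.Agent.S16.NormExpansion
import Fermat.Agent.S24.Bridge.JqExpansion
import Fermat.Agent.S24.Comb.Index
import Fermat.Prelude.Thm_ModularForm_sturm_bound_Gamma0
import Fermat.Agent.JT3.Hauptmodul.Level2Analytic
import Fermat.Agent.JT3.Hauptmodul.Level3Trunc

/-!
# JT3 / Hauptmoduln, level 3: the two (squared) identities, exactly

With `E = eisenstein4`, `D = X * etaProd ^ 24`, `D₃ = X ^ 3 * (etaProd ^ 24)(X ^ 3)`, `E₃ = E(X ^ 3)`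
in `ℤ⟦X⟧`:

* `hm3_id1 : D * D₃ * (E ^ 3 - 756 D - 19131876 D₃) ^ 2
    = (D ^ 2 + 196830 D D₃ + 387420489 D₃ ^ 2) ^ 2`,
* `hm3_id2 : D * D₃ * (E₃ ^ 3 - 36 D - 756 D₃) ^ 2 = (D ^ 2 + 270 D D₃ + 729 D₃ ^ 2) ^ 2`.

These are the squares of `j t₃³ = (t₃ + 27)(t₃ + 243)³` and `j(q³) t₃ = (t₃ + 27)(t₃ + 3)³` for the
level-`3` Hauptmodul `t₃ = (η(q)/η(q³))¹²` (`t₃² = Δ(q)/Δ(q³)`); the square is taken because only
`Δ(q) Δ(q³) = (η(q) η(q³))²⁴`, not `(η(q) η(q³))¹²`, is available as a modular form on `Γ₀(3)`.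

Proof: both sides are `q`-expansions of modular forms of weight `48` on `Γ₀(3)` (index `4`), the
Sturm bound is `16`, and the difference vanishes modulo `X ^ 17` by `Hauptmodul/Level3Trunc.lean`.
Prefix `hm3_`.
-/

set_option autoImplicit false

open UpperHalfPlane ModularForm CongruenceSubgroup EisensteinSeries
open scoped MatrixGroups ModularForm Manifold
open Fermat.Agent.S23 Fermat.Agent.S23.QF Fermat.Agent.S16 Fermat.Agent.S24

noncomputable section

namespace Fermat.Agent.JT3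

local notation "Δ" => ModularForm.discriminant

/-- `z ↦ E₄ (3 z)` as a function. -/
def hm3_E4three : ℍ → ℂ := fun z => E₄ (alphaN 3 • z)

/-- `z ↦ Δ (3 z)` as a function. -/
def hm3_Dthree : ℍ → ℂ := fun z => Δ (alphaN 3 • z)

theorem hm3_isQFun_E4three : IsQFun hm3_E4three := ne_isQFun_alphaN 3 isQFun_E4

theorem hm3_isQFun_Dthree : IsQFun hm3_Dthree := ne_isQFun_alphaN 3 hm_isQFun_Delta

theorem hm3_qExpansion_E4three :
    qExpansion 1 hm3_E4three =
      (PowerSeries.expand 3 three_ne_zero ModularCurve.eisenstein4).map (Int.castRingHom ℂ) := by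
  unfold hm3_E4three
  rw [ne_qExpansion_alphaN 3 isQFun_E4, expandP_eq_expand three_ne_zero,
    br_qExpansion_E4, PowerSeries.map_expand]

theorem hm3_qExpansion_Dthree :
    qExpansion 1 hm3_Dthree =
      (PowerSeries.X ^ 3 * PowerSeries.expand 3 three_ne_zero ModularCurve.dedekindEtaUnit).map
        (Int.castRingHom ℂ) := by
  unfold hm3_Dthree
  rw [ne_qExpansion_alphaN 3 hm_isQFun_Delta, expandP_eq_expand three_ne_zero,
    hm_qExpansion_Delta, ← PowerSeries.map_expand, map_mul (PowerSeries.expand 3 three_ne_zero),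
    PowerSeries.expand_X]

/-! ### The forms at level `3` -/

/-- `E₄` at level `3`. -/
def hm3_E4f : ModularForm (Gamma0 3) 4 := fr_ofLevelOne 3 E₄

/-- `Δ` at level `3`. -/
def hm3_Df : ModularForm (Gamma0 3) 12 := fr_ofLevelOne 3 hm_DeltaOne

/-- `E₄ (3 z)` at level `3`. -/
def hm3_E4sf : ModularForm (Gamma0 3) 4 := sharpForm 3 hm3_E4f

/-- `Δ (3 z)` at level `3`. -/
def hm3_Dsf : ModularForm (Gamma0 3) 12 := sharpForm 3 hm3_Df

theorem hm3_coe_E4f : (⇑hm3_E4f : ℍ → ℂ) = ⇑E₄ := rfl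

theorem hm3_coe_Df : (⇑hm3_Df : ℍ → ℂ) = Δ := rfl

theorem hm3_coe_E4sf : (⇑hm3_E4sf : ℍ → ℂ) = hm3_E4three := sharp_levelOne 3 E₄

theorem hm3_coe_Dsf : (⇑hm3_Dsf : ℍ → ℂ) = hm3_Dthree := sharp_levelOne 3 hm_DeltaOne

theorem hm3_index_three : (Gamma0 3).index = 4 := by
  rw [Fermat.Agent.S24.Comb.index_Gamma0 3 three_ne_zero,
    Fermat.Agent.S24.Comb.dedekindPsi_prime Nat.prime_three]

/-- Sturm at level `3`, weight `48`, for forms with integral `q`-expansion. -/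
theorem hm3_sturm (F : ModularForm (Gamma0 3) 48) (P : PowerSeries ℤ)
    (hq : qExpansion 1 (⇑F : ℍ → ℂ) = P.map (Int.castRingHom ℂ)) (hP : hm_Cong 17 P 0) :
    P = 0 := by
  have hF : F = 0 := by
    apply ModularForm.sturm_bound_Gamma0 3 F
    intro n hn
    rw [hm3_index_three] at hn
    have hn' : n < 17 := by
      have : ((48 : ℤ) * ((4 : ℕ) : ℤ)).toNat / 12 = 16 := by decide
      omega
    rw [hq, PowerSeries.coeff_map, (hm_Cong.iff_coeff.mp hP) n hn']
    simp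
  have h0 : P.map (Int.castRingHom ℂ) = 0 := by
    rw [← hq, hF]
    exact qExpansion_zero 1
  ext n
  have := congrArg (PowerSeries.coeff n) h0
  rw [PowerSeries.coeff_map] at this
  simpa using this

/-- The weight `48` form `Δ Δ₃ (E³ - a Δ - b Δ₃)² - (Δ² + c Δ Δ₃ + d Δ₃²)²` on `Γ₀(3)`. -/
def hm3_relForm (E : ModularForm (Gamma0 3) 4) (a b c d : ℂ) : ModularForm (Gamma0 3) 48 :=
  mcast (by norm_num)
      ((hm3_Df.mul hm3_Dsf).mul
        (((mcast (by norm_num) (E.pow 3) : ModularForm (Gamma0 3) 12) - a • hm3_Df -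
          b • hm3_Dsf).pow 2)) -
    mcast (by norm_num)
      (((mcast (by norm_num) (hm3_Df.pow 2) : ModularForm (Gamma0 3) 24) +
          c • (mcast (by norm_num) (hm3_Df.mul hm3_Dsf) : ModularForm (Gamma0 3) 24) +
          d • (mcast (by norm_num) (hm3_Dsf.pow 2) : ModularForm (Gamma0 3) 24)).pow 2)

theorem hm3_coe_relForm (E : ModularForm (Gamma0 3) 4) (a b c d : ℂ) :
    (⇑(hm3_relForm E a b c d) : ℍ → ℂ) =
      (Δ : ℍ → ℂ) * hm3_Dthree * ((⇑E : ℍ → ℂ) ^ 3 - a • (Δ : ℍ → ℂ) - b • hm3_Dthree) ^ 2 -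
        ((Δ : ℍ → ℂ) ^ 2 + c • ((Δ : ℍ → ℂ) * hm3_Dthree) + d • hm3_Dthree ^ 2) ^ 2 := by
  unfold hm3_relForm
  rw [FunLike.coe_sub, ModularForm.coe_mcast, ModularForm.coe_mcast, ModularForm.coe_mul,
    ModularForm.coe_mul, ModularForm.coe_pow, ModularForm.coe_pow, FunLike.coe_sub,
    FunLike.coe_sub, FunLike.coe_add, FunLike.coe_add, FunLike.coe_smul, FunLike.coe_smul,
    FunLike.coe_smul, FunLike.coe_smul, ModularForm.coe_mcast, ModularForm.coe_mcast,
    ModularForm.coe_mcast, ModularForm.coe_mcast, ModularForm.coe_pow, ModularForm.coe_pow,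
    ModularForm.coe_pow, ModularForm.coe_mul, hm3_coe_Df, hm3_coe_Dsf]

/-- The integral power series `D D₃ (P³ - a D - b D₃)² - (D² + c D D₃ + d D₃²)²`. -/
def hm3_relPS (PE : PowerSeries ℤ) (a b c d : ℤ) : PowerSeries ℤ :=
  (PowerSeries.X * ModularCurve.dedekindEtaUnit) *
      (PowerSeries.X ^ 3 * PowerSeries.expand 3 three_ne_zero ModularCurve.dedekindEtaUnit) *
      (PE ^ 3 - PowerSeries.C a * (PowerSeries.X * ModularCurve.dedekindEtaUnit) -
        PowerSeries.C b *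
          (PowerSeries.X ^ 3 *
            PowerSeries.expand 3 three_ne_zero ModularCurve.dedekindEtaUnit)) ^ 2 -
    ((PowerSeries.X * ModularCurve.dedekindEtaUnit) ^ 2 +
      PowerSeries.C c * ((PowerSeries.X * ModularCurve.dedekindEtaUnit) *
        (PowerSeries.X ^ 3 * PowerSeries.expand 3 three_ne_zero ModularCurve.dedekindEtaUnit)) +
      PowerSeries.C d *
        (PowerSeries.X ^ 3 *
          PowerSeries.expand 3 three_ne_zero ModularCurve.dedekindEtaUnit) ^ 2) ^ 2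

theorem hm3_qExpansion_rel {Ef : ℍ → ℂ} (hE : IsQFun Ef) (PE : PowerSeries ℤ)
    (hPE : qExpansion 1 Ef = PE.map (Int.castRingHom ℂ)) (a b c d : ℤ) :
    qExpansion 1 ((Δ : ℍ → ℂ) * hm3_Dthree *
          (Ef ^ 3 - (a : ℂ) • (Δ : ℍ → ℂ) - (b : ℂ) • hm3_Dthree) ^ 2 -
        ((Δ : ℍ → ℂ) ^ 2 + (c : ℂ) • ((Δ : ℍ → ℂ) * hm3_Dthree) +
          (d : ℂ) • hm3_Dthree ^ 2) ^ 2) =
      (hm3_relPS PE a b c d).map (Int.castRingHom ℂ) := by
  have hD := hm_isQFun_Delta
  have hD3 := hm3_isQFun_Dthree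
  have hA : IsQFun (Ef ^ 3 - (a : ℂ) • (Δ : ℍ → ℂ) - (b : ℂ) • hm3_Dthree) :=
    ((hE.pow 3).sub (hD.smul (a : ℂ))).sub (hD3.smul (b : ℂ))
  have hB : IsQFun ((Δ : ℍ → ℂ) ^ 2 + (c : ℂ) • ((Δ : ℍ → ℂ) * hm3_Dthree) +
      (d : ℂ) • hm3_Dthree ^ 2) :=
    ((hD.pow 2).add ((hD.mul hD3).smul (c : ℂ))).add ((hD3.pow 2).smul (d : ℂ))
  rw [qExpansion_sub ((hD.mul hD3).mul (hA.pow 2)).analyticAt (hB.pow 2).analyticAt,
    qExpansion_mul (hD.mul hD3).analyticAt (hA.pow 2).analyticAt,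
    qExpansion_mul hD.analyticAt hD3.analyticAt,
    qExpansion_pow_of_isQFun hA, qExpansion_pow_of_isQFun hB,
    qExpansion_sub ((hE.pow 3).sub (hD.smul (a : ℂ))).analyticAt (hD3.smul (b : ℂ)).analyticAt,
    qExpansion_sub (hE.pow 3).analyticAt (hD.smul (a : ℂ)).analyticAt,
    qExpansion_add ((hD.pow 2).add ((hD.mul hD3).smul (c : ℂ))).analyticAt
      ((hD3.pow 2).smul (d : ℂ)).analyticAt,
    qExpansion_add (hD.pow 2).analyticAt ((hD.mul hD3).smul (c : ℂ)).analyticAt,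
    qExpansion_smul hD.analyticAt, qExpansion_smul hD3.analyticAt,
    qExpansion_smul (hD.mul hD3).analyticAt, qExpansion_smul (hD3.pow 2).analyticAt,
    qExpansion_mul hD.analyticAt hD3.analyticAt,
    qExpansion_pow_of_isQFun hE, qExpansion_pow_of_isQFun hD, qExpansion_pow_of_isQFun hD3,
    hPE, hm_qExpansion_Delta, hm3_qExpansion_Dthree]
  unfold hm3_relPS
  simp only [map_sub, map_mul, map_pow, map_add, PowerSeries.map_C, PowerSeries.smul_eq_C_mul]
  simp

theorem hm3_relPS_eq_zero (E : ModularForm (Gamma0 3) 4) (PE : PowerSeries ℤ)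
    (hPE : qExpansion 1 (⇑E : ℍ → ℂ) = PE.map (Int.castRingHom ℂ)) (a b c d : ℤ)
    (hc : hm_Cong 17 (hm3_relPS PE a b c d) 0) : hm3_relPS PE a b c d = 0 := by
  apply hm3_sturm (hm3_relForm E (a : ℂ) (b : ℂ) (c : ℂ) (d : ℂ)) _ _ hc
  rw [hm3_coe_relForm]
  exact hm3_qExpansion_rel (fr_isQFun_coe 3 E) PE hPE a b c d

open PowerSeries ModularCurve in
/-- **First level-`3` identity, squared**, in `ℤ⟦X⟧`. -/
theorem hm3_id1 :
    (X * dedekindEtaUnit) * (X ^ 3 * expand 3 three_ne_zero dedekindEtaUnit) *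
        (eisenstein4 ^ 3 - 756 * (X * dedekindEtaUnit) -
          19131876 * (X ^ 3 * expand 3 three_ne_zero dedekindEtaUnit)) ^ 2 =
      ((X * dedekindEtaUnit) ^ 2 +
        196830 * ((X * dedekindEtaUnit) * (X ^ 3 * expand 3 three_ne_zero dedekindEtaUnit)) +
        387420489 * (X ^ 3 * expand 3 three_ne_zero dedekindEtaUnit) ^ 2) ^ 2 := by
  have h := hm3_relPS_eq_zero hm3_E4f eisenstein4 (by rw [hm3_coe_E4f]; exact br_qExpansion_E4)
    756 19131876 196830 387420489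
    (by
      have h1 := hm3_trunc_id1
      unfold hm_Cong at h1 ⊢
      convert h1 using 1
      unfold hm3_relPS
      simp only [map_ofNat]
      ring)
  unfold hm3_relPS at h
  simp only [map_ofNat] at h
  exact sub_eq_zero.mp h

open PowerSeries ModularCurve in
/-- **Second level-`3` identity, squared**, in `ℤ⟦X⟧`. -/
theorem hm3_id2 :
    (X * dedekindEtaUnit) * (X ^ 3 * expand 3 three_ne_zero dedekindEtaUnit) *
        ((expand 3 three_ne_zero eisenstein4) ^ 3 - 36 * (X * dedekindEtaUnit) -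
          756 * (X ^ 3 * expand 3 three_ne_zero dedekindEtaUnit)) ^ 2 =
      ((X * dedekindEtaUnit) ^ 2 +
        270 * ((X * dedekindEtaUnit) * (X ^ 3 * expand 3 three_ne_zero dedekindEtaUnit)) +
        729 * (X ^ 3 * expand 3 three_ne_zero dedekindEtaUnit) ^ 2) ^ 2 := by
  have h := hm3_relPS_eq_zero hm3_E4sf (expand 3 three_ne_zero eisenstein4)
    (by rw [hm3_coe_E4sf]; exact hm3_qExpansion_E4three) 36 756 270 729
    (by
      have h1 := hm3_trunc_id2
      unfold hm_Cong at h1 ⊢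
      convert h1 using 1
      unfold hm3_relPS
      simp only [map_ofNat]
      ring)
  unfold hm3_relPS at h
  simp only [map_ofNat] at h
  exact sub_eq_zero.mp h

end Fermat.Agent.JT3
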