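import Mathlib
import Fermat.Agent.JT.Kronecker
import Fermat.Agent.S28.Formal.Series
import Fermat.Agent.JT3.Hauptmodul.Level2
import Fermat.Agent.JT3.Hauptmodul.Level3Analytic

/-!
# JT3 / Hauptmoduln, level 3: the Hauptmodul `t₃ = (η(q)/η(q³))¹²` over any ring

For every commutative ring `R`, in `LaurentSeries R` (`j = jqModC R`, `j₃ = qExpand R 3 j`):

* `hm3_t3_id1 : j * t₃ ^ 3 = (t₃ + 27) * (t₃ + 243) ^ 3`,
* `hm3_t3_id2 : j₃ * t₃ = (t₃ + 27) * (t₃ + 3) ^ 3`,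

with `t₃ = hm3_t3 R = q⁻¹ ∏ (1 - qⁿ)¹² / (1 - q³ⁿ)¹²`, a unit of `LaurentSeries R` of order `-1` and
leading coefficient `1`, natural in `R`.  The squared identities of `Level3Analytic.lean` are
unsquared in the domain `ℤ⟦X⟧` (the sign is fixed by the constant coefficients).  Prefix `hm3_`.
-/

set_option autoImplicit false

noncomputable section

open ModularCurve HahnSeries
open Fermat.Agent.S28 Fermat.Agent.JT

namespace Fermat.Agent.JT3

/-! ### The twelfth power of the eta product, integrally -/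

/-- `∏ (1 - Xⁿ)¹²`. -/
def hm3_eta12 : PowerSeries ℤ := etaProd ^ 12

/-- `∏ (1 - Xⁿ)⁻¹²`. -/
def hm3_eta12Inv : PowerSeries ℤ := hm3_eta12 * dedekindEtaUnitInv

theorem hm3_eta12_sq : hm3_eta12 ^ 2 = dedekindEtaUnit := by
  rw [hm3_eta12, dedekindEtaUnit, ← pow_mul]

theorem hm3_eta12_mul_inv : hm3_eta12 * hm3_eta12Inv = 1 := by
  rw [hm3_eta12Inv, ← mul_assoc, ← pow_two, hm3_eta12_sq, dedekindEtaUnit_mul_inv]

theorem hm3_eta12Inv_sq : hm3_eta12Inv ^ 2 = dedekindEtaUnitInv := by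
  have h1 : hm3_eta12Inv ^ 2 = (hm3_eta12 ^ 2 * dedekindEtaUnitInv) * dedekindEtaUnitInv := by
    rw [hm3_eta12Inv]; ring
  rw [h1, hm3_eta12_sq, dedekindEtaUnit_mul_inv, one_mul]

theorem hm3_constantCoeff_eta12 : PowerSeries.constantCoeff hm3_eta12 = 1 := by
  rw [hm3_eta12, map_pow, constantCoeff_etaProd, one_pow]

theorem hm3_constantCoeff_eta12Inv : PowerSeries.constantCoeff hm3_eta12Inv = 1 := by
  rw [hm3_eta12Inv, map_mul, hm3_constantCoeff_eta12, constantCoeff_dedekindEtaUnitInv, one_mul]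

theorem hm3_expand_eta12_sq :
    (PowerSeries.expand 3 three_ne_zero hm3_eta12) ^ 2 =
      PowerSeries.expand 3 three_ne_zero dedekindEtaUnit := by
  rw [← map_pow, hm3_eta12_sq]

/-! ### Unsquaring in `ℤ⟦X⟧` -/

/-- If `(X² u)² = (X² v)²` in `ℤ⟦X⟧` and `u`, `v` have constant coefficient `1`, then `u = v`. -/
theorem hm3_unsquare (u v : PowerSeries ℤ) (hu : PowerSeries.constantCoeff u = 1)
    (hv : PowerSeries.constantCoeff v = 1)
    (h : (PowerSeries.X ^ 2 * u) ^ 2 = (PowerSeries.X ^ 2 * v) ^ 2) : u = v := by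
  have h1 : (PowerSeries.X : PowerSeries ℤ) ^ 4 * ((u - v) * (u + v)) = 0 := by
    have : (PowerSeries.X : PowerSeries ℤ) ^ 4 * ((u - v) * (u + v)) =
        (PowerSeries.X ^ 2 * u) ^ 2 - (PowerSeries.X ^ 2 * v) ^ 2 := by ring
    rw [this, h, sub_self]
  have hX : (PowerSeries.X : PowerSeries ℤ) ^ 4 ≠ 0 := pow_ne_zero 4 PowerSeries.X_ne_zero
  rcases mul_eq_zero.mp ((mul_eq_zero.mp h1).resolve_left hX) with h2 | h2
  · exact sub_eq_zero.mp h2
  · exfalso
    have h3 := congrArg (PowerSeries.constantCoeff (R := ℤ)) h2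
    rw [map_add, hu, hv, map_zero] at h3
    norm_num at h3

open PowerSeries in
/-- **First level-`3` identity, integrally and unsquared**:
`E³ a b = (a + 27 X b)(a + 243 X b)³` for `a = ∏ (1 - Xⁿ)¹²`, `b = a(X³)`. -/
theorem hm3_lin1 :
    eisenstein4 ^ 3 * hm3_eta12 * expand 3 three_ne_zero hm3_eta12 =
      (hm3_eta12 + 27 * (X * expand 3 three_ne_zero hm3_eta12)) *
        (hm3_eta12 + 243 * (X * expand 3 three_ne_zero hm3_eta12)) ^ 3 := by
  set a := hm3_eta12 with ha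
  set b := expand 3 three_ne_zero hm3_eta12 with hb
  have ha0 : constantCoeff a = 1 := hm3_constantCoeff_eta12
  have hb0 : constantCoeff b = 1 := by
    rw [hb, constantCoeff_expand, hm3_constantCoeff_eta12]
  have hE0 : constantCoeff eisenstein4 = 1 := constantCoeff_eisenstein4
  have h := hm3_id1
  rw [← hm3_expand_eta12_sq, ← hm3_eta12_sq, ← ha, ← hb] at h
  have key := hm3_unsquare
    (a * b * (eisenstein4 ^ 3 - 756 * (X * a ^ 2) - 19131876 * (X ^ 3 * b ^ 2)))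
    (a ^ 4 + 196830 * (X ^ 2 * a ^ 2 * b ^ 2) + 387420489 * (X ^ 4 * b ^ 4))
    (by simp [ha0, hb0, hE0]) (by simp [ha0, hb0])
    (by
      have e1 : (X ^ 2 * (a * b * (eisenstein4 ^ 3 - 756 * (X * a ^ 2) -
            19131876 * (X ^ 3 * b ^ 2)))) ^ 2 =
          X * a ^ 2 * (X ^ 3 * b ^ 2) *
            (eisenstein4 ^ 3 - 756 * (X * a ^ 2) - 19131876 * (X ^ 3 * b ^ 2)) ^ 2 := by ring
      have e2 : (X ^ 2 * (a ^ 4 + 196830 * (X ^ 2 * a ^ 2 * b ^ 2) +
            387420489 * (X ^ 4 * b ^ 4))) ^ 2 =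
          ((X * a ^ 2) ^ 2 + 196830 * (X * a ^ 2 * (X ^ 3 * b ^ 2)) +
            387420489 * (X ^ 3 * b ^ 2) ^ 2) ^ 2 := by ring
      rw [e1, e2, h])
  linear_combination key

open PowerSeries in
/-- **Second level-`3` identity, integrally and unsquared**:
`E(X³)³ a b = (a + 27 X b)(a + 3 X b)³`. -/
theorem hm3_lin2 :
    (expand 3 three_ne_zero eisenstein4) ^ 3 * hm3_eta12 * expand 3 three_ne_zero hm3_eta12 =
      (hm3_eta12 + 27 * (X * expand 3 three_ne_zero hm3_eta12)) *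
        (hm3_eta12 + 3 * (X * expand 3 three_ne_zero hm3_eta12)) ^ 3 := by
  set a := hm3_eta12 with ha
  set b := expand 3 three_ne_zero hm3_eta12 with hb
  set E3 := expand 3 three_ne_zero eisenstein4 with hE3
  have ha0 : constantCoeff a = 1 := hm3_constantCoeff_eta12
  have hb0 : constantCoeff b = 1 := by
    rw [hb, constantCoeff_expand, hm3_constantCoeff_eta12]
  have hE0 : constantCoeff E3 = 1 := by
    rw [hE3, constantCoeff_expand, constantCoeff_eisenstein4]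
  have h := hm3_id2
  rw [← hm3_expand_eta12_sq, ← hm3_eta12_sq, ← ha, ← hb, ← hE3] at h
  have key := hm3_unsquare
    (a * b * (E3 ^ 3 - 36 * (X * a ^ 2) - 756 * (X ^ 3 * b ^ 2)))
    (a ^ 4 + 270 * (X ^ 2 * a ^ 2 * b ^ 2) + 729 * (X ^ 4 * b ^ 4))
    (by simp [ha0, hb0, hE0]) (by simp [ha0, hb0])
    (by
      have e1 : (X ^ 2 * (a * b * (E3 ^ 3 - 36 * (X * a ^ 2) - 756 * (X ^ 3 * b ^ 2)))) ^ 2 =
          X * a ^ 2 * (X ^ 3 * b ^ 2) *
            (E3 ^ 3 - 36 * (X * a ^ 2) - 756 * (X ^ 3 * b ^ 2)) ^ 2 := by ring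
      have e2 : (X ^ 2 * (a ^ 4 + 270 * (X ^ 2 * a ^ 2 * b ^ 2) + 729 * (X ^ 4 * b ^ 4))) ^ 2 =
          ((X * a ^ 2) ^ 2 + 270 * (X * a ^ 2 * (X ^ 3 * b ^ 2)) +
            729 * (X ^ 3 * b ^ 2) ^ 2) ^ 2 := by ring
      rw [e1, e2, h])
  linear_combination key

/-! ### The Hauptmodul over a ring -/

variable (R : Type*) [CommRing R] {S : Type*} [CommRing S]

/-- `q t₃ = ∏ (1 - qⁿ)¹² / (1 - q³ⁿ)¹²` as an integral power series. -/
def hm3_t3Num : PowerSeries ℤ := hm3_eta12 * PowerSeries.expand 3 three_ne_zero hm3_eta12Inv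

/-- `q⁻¹ t₃⁻¹ = ∏ (1 - q³ⁿ)¹² / (1 - qⁿ)¹²` as an integral power series. -/
def hm3_t3InvNum : PowerSeries ℤ := hm3_eta12Inv * PowerSeries.expand 3 three_ne_zero hm3_eta12

theorem hm3_t3Num_mul_inv : hm3_t3Num * hm3_t3InvNum = 1 := by
  have h1 : hm3_t3Num * hm3_t3InvNum = (hm3_eta12 * hm3_eta12Inv) *
      PowerSeries.expand 3 three_ne_zero (hm3_eta12 * hm3_eta12Inv) := by
    rw [hm3_t3Num, hm3_t3InvNum, map_mul]; ring
  rw [h1, hm3_eta12_mul_inv, map_one, mul_one]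

theorem hm3_constantCoeff_t3Num : PowerSeries.constantCoeff hm3_t3Num = 1 := by
  rw [hm3_t3Num, map_mul, PowerSeries.constantCoeff_expand, hm3_constantCoeff_eta12,
    hm3_constantCoeff_eta12Inv, one_mul]

theorem hm3_constantCoeff_t3InvNum : PowerSeries.constantCoeff hm3_t3InvNum = 1 := by
  rw [hm3_t3InvNum, map_mul, PowerSeries.constantCoeff_expand, hm3_constantCoeff_eta12,
    hm3_constantCoeff_eta12Inv, one_mul]

/-- The level-`3` Hauptmodul `t₃ = q⁻¹ ∏ (1 - qⁿ)¹² / (1 - q³ⁿ)¹²` over `R`. -/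
def hm3_t3 : LaurentSeries R := fs_shift (-1) (hm3_t3Num.map (Int.castRingHom R))

/-- The inverse of `t₃`. -/
def hm3_t3Inv : LaurentSeries R := fs_shift 1 (hm3_t3InvNum.map (Int.castRingHom R))

theorem hm3_t3_mul_inv : hm3_t3 R * hm3_t3Inv R = 1 := by
  rw [hm3_t3, hm3_t3Inv, fs_shift_mul, ← map_mul, hm3_t3Num_mul_inv, map_one]
  exact fs_shift_zero_one

theorem hm3_t3Inv_mul : hm3_t3Inv R * hm3_t3 R = 1 := by
  rw [mul_comm, hm3_t3_mul_inv]

theorem hm3_isUnit_t3 : IsUnit (hm3_t3 R) := IsUnit.of_mul_eq_one _ (hm3_t3_mul_inv R)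

variable {R} in
theorem hm3_coeffMap_t3 (φ : R →+* S) : coeffMap φ (hm3_t3 R) = hm3_t3 S := by
  rw [hm3_t3, hm3_t3, fs_coeffMap_shift, fs_map_map_intCast]

variable {R} in
theorem hm3_coeffMap_t3Inv (φ : R →+* S) : coeffMap φ (hm3_t3Inv R) = hm3_t3Inv S := by
  rw [hm3_t3Inv, hm3_t3Inv, fs_coeffMap_shift, fs_map_map_intCast]

theorem hm3_constantCoeff_t3Num_map :
    PowerSeries.constantCoeff (hm3_t3Num.map (Int.castRingHom R)) = 1 := by
  rw [← PowerSeries.coeff_zero_eq_constantCoeff_apply, PowerSeries.coeff_map,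
    PowerSeries.coeff_zero_eq_constantCoeff_apply, hm3_constantCoeff_t3Num, map_one]

theorem hm3_t3_order [Nontrivial R] : (hm3_t3 R).order = -1 := by
  rw [hm3_t3]
  exact fs_shift_order _ _ (by rw [hm3_constantCoeff_t3Num_map]; exact one_ne_zero)

theorem hm3_t3_coeff_neg_one : (hm3_t3 R).coeff (-1) = 1 := by
  rw [hm3_t3, fs_shift_coeff_self, hm3_constantCoeff_t3Num_map]

theorem hm3_t3_coeff_of_lt {n : ℤ} (h : n < -1) : (hm3_t3 R).coeff n = 0 := by
  rw [hm3_t3]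
  exact fs_shift_coeff_of_lt _ _ h

theorem hm3_t3_leadingCoeff [Nontrivial R] : (hm3_t3 R).leadingCoeff = 1 := by
  rw [hm3_t3, fs_shift_leadingCoeff _ _
    (by rw [hm3_constantCoeff_t3Num_map]; exact one_ne_zero), hm3_constantCoeff_t3Num_map]

theorem hm3_t3_ne_zero [Nontrivial R] : hm3_t3 R ≠ 0 := (hm3_isUnit_t3 R).ne_zero

/-! ### The identities -/

/-- Algebra behind `hm3_t3_id1`: `J = e³/(x α²)`, `T = α/(x β)`, `e³ α β = P(α, x β)`. -/
theorem hm3_alg1 {A : Type*} [CommRing A] (e α β x J T : A) (hy : IsUnit (x * β))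
    (hT : T * (x * β) = α) (hJ : J * (x * α ^ 2) = e ^ 3)
    (h : e ^ 3 * α * β = (α + 27 * (x * β)) * (α + 243 * (x * β)) ^ 3) :
    J * T ^ 3 = (T + 27) * (T + 243) ^ 3 := by
  have key : (x * β) ^ 4 * (J * T ^ 3) = (x * β) ^ 4 * ((T + 27) * (T + 243) ^ 3) := by
    subst hT
    rw [← hJ] at h
    linear_combination h
  exact (hy.pow 4).mul_left_cancel key

/-- Algebra behind `hm3_t3_id2`: `J₃ = e₃³/(x³ β²)`, `T = α/(x β)`, `e₃³ α β = Q(α, x β)`. -/
theorem hm3_alg2 {A : Type*} [CommRing A] (e α β x J T : A) (hy : IsUnit (x * β))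
    (hT : T * (x * β) = α) (hJ : J * (x ^ 3 * β ^ 2) = e ^ 3)
    (h : e ^ 3 * α * β = (α + 27 * (x * β)) * (α + 3 * (x * β)) ^ 3) :
    J * T = (T + 27) * (T + 3) ^ 3 := by
  have key : (x * β) ^ 4 * (J * T) = (x * β) ^ 4 * ((T + 27) * (T + 3) ^ 3) := by
    subst hT
    rw [← hJ] at h
    linear_combination h
  exact (hy.pow 4).mul_left_cancel key

theorem hm3_iota_eta12_unit :
    IsUnit (hm_iota R PowerSeries.X *
      hm_iota R (PowerSeries.expand 3 three_ne_zero hm3_eta12)) := by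
  refine IsUnit.mul ?_ ?_
  · rw [hm_iota_X]
    refine IsUnit.of_mul_eq_one (HahnSeries.single (-1) 1) ?_
    rw [HahnSeries.single_mul_single]
    simp
  · refine IsUnit.of_mul_eq_one (hm_iota R (PowerSeries.expand 3 three_ne_zero hm3_eta12Inv)) ?_
    rw [← map_mul, ← map_mul, hm3_eta12_mul_inv, map_one, map_one]

theorem hm3_t3_mul :
    hm3_t3 R * (hm_iota R PowerSeries.X *
      hm_iota R (PowerSeries.expand 3 three_ne_zero hm3_eta12)) = hm_iota R hm3_eta12 := by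
  have h1 : hm3_t3 R = HahnSeries.single (-1) 1 * hm_iota R hm3_t3Num := rfl
  have h2 : hm3_t3Num * PowerSeries.expand 3 three_ne_zero hm3_eta12 = hm3_eta12 := by
    have : hm3_t3Num * PowerSeries.expand 3 three_ne_zero hm3_eta12 =
        hm3_eta12 * PowerSeries.expand 3 three_ne_zero (hm3_eta12 * hm3_eta12Inv) := by
      rw [hm3_t3Num, map_mul]; ring
    rw [this, hm3_eta12_mul_inv, map_one, mul_one]
  have h3 : (HahnSeries.single (-1) (1 : R) : LaurentSeries R) * hm_iota R PowerSeries.X = 1 := by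
    rw [hm_iota_X, HahnSeries.single_mul_single]
    simp
  calc hm3_t3 R * (hm_iota R PowerSeries.X *
        hm_iota R (PowerSeries.expand 3 three_ne_zero hm3_eta12))
      = (HahnSeries.single (-1) 1 * hm_iota R PowerSeries.X) *
          (hm_iota R hm3_t3Num * hm_iota R (PowerSeries.expand 3 three_ne_zero hm3_eta12)) := by
        rw [h1]; ring
    _ = hm_iota R hm3_eta12 := by rw [h3, one_mul, ← map_mul, h2]

theorem hm3_jq_mul :
    jqModC R * (hm_iota R PowerSeries.X * hm_iota R hm3_eta12 ^ 2) =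
      hm_iota R eisenstein4 ^ 3 := by
  rw [← map_pow, hm3_eta12_sq, hm_iota_Delta', hm_jq_eq, mul_assoc, fs_DeltaInv_mul, mul_one]

/-- **First level-`3` identity**: `j t₃³ = (t₃ + 27)(t₃ + 243)³`. -/
theorem hm3_t3_id1 :
    jqModC R * hm3_t3 R ^ 3 = (hm3_t3 R + 27) * (hm3_t3 R + 243) ^ 3 := by
  have h := congrArg (hm_iota R) hm3_lin1
  simp only [map_mul, map_pow, map_add, map_ofNat] at h
  exact hm3_alg1 _ _ _ _ _ _ (hm3_iota_eta12_unit R) (hm3_t3_mul R) (hm3_jq_mul R) h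

/-- **Second level-`3` identity**: `j(q³) t₃ = (t₃ + 27)(t₃ + 3)³`. -/
theorem hm3_t3_id2 :
    qExpand R 3 (jqModC R) * hm3_t3 R = (hm3_t3 R + 27) * (hm3_t3 R + 3) ^ 3 := by
  have h := congrArg (hm_iota R) hm3_lin2
  simp only [map_mul, map_pow, map_add, map_ofNat] at h
  have hJ : qExpand R 3 (jqModC R) * (hm_iota R PowerSeries.X ^ 3 *
      hm_iota R (PowerSeries.expand 3 three_ne_zero hm3_eta12) ^ 2) =
      hm_iota R (PowerSeries.expand 3 three_ne_zero eisenstein4) ^ 3 := by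
    have h1 := congrArg (qExpand R 3) (hm3_jq_mul R)
    rw [map_mul, map_mul, map_pow, map_pow] at h1
    have hX : qExpand R 3 (hm_iota R PowerSeries.X) = hm_iota R PowerSeries.X ^ 3 := by
      rw [hm_iota_X, qExpand_single, HahnSeries.single_pow, one_pow]
      simp
    rw [hX, ← hm_iota_expand R 3 hm3_eta12, ← hm_iota_expand R 3 eisenstein4] at h1
    exact h1
  exact hm3_alg2 _ _ _ _ _ _ (hm3_iota_eta12_unit R) (hm3_t3_mul R) hJ h

end Fermat.Agent.JT3
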