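import Mathlib
import Fermat.Agent.JT3.Hauptmodul.Hesse
import Fermat.Agent.JT3.Hauptmodul.Level3

/-!
# JT3 / Hauptmoduln: the Hesse modulus in terms of the level-`3` Hauptmodul

The Hesse modulus `μ = c / 3` of `Hauptmodul/Hesse.lean` is defined formally, by Hensel's lemma on
the Hesse equation.  Here it is tied to the eta quotient `t₃ = (η(q)/η(q³))¹²` of
`Hauptmodul/Level3.lean` (`R` any commutative ring in which `3` is a unit, `c = 3 μ = hm_hesC`):

* `hm3_hesC_cube  : c ^ 3 = t₃(q³) + 27`                       (`μ³ = 1 + t₃(q³)/27`),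
* `hm3_t3_hesC    : t₃ * (c ^ 2 + 3 c + 9) = (c - 3) ^ 3`       (`t₃ = t₉³/(t₉² + 9 t₉ + 27)`,
                                                               `t₉ = c - 3 = η(q)³/η(q⁹)³`).

Both are uniqueness statements for Hensel roots in `R⟦X⟧`:
`S (S + 216 X)³ = J (S - 27 X)³` has at most one root `S ≡ 1` (any `R`), and
`(Y + 27 X)(Y + 3 X)³ = J(X³) Y` has at most one root `Y ≡ 1` (`3` a unit).  Prefix `hm3_`.
-/

set_option autoImplicit false

noncomputable section

open ModularCurve HahnSeries Polynomial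
open Fermat.Agent.S28 Fermat.Agent.JT

namespace Fermat.Agent.JT3

/-! ### The two identities for `q t₃` in `ℤ⟦X⟧` -/

theorem hm3_t3Num_mul :
    hm3_t3Num * PowerSeries.expand 3 three_ne_zero hm3_eta12 = hm3_eta12 := by
  have : hm3_t3Num * PowerSeries.expand 3 three_ne_zero hm3_eta12 =
      hm3_eta12 * PowerSeries.expand 3 three_ne_zero (hm3_eta12 * hm3_eta12Inv) := by
    rw [hm3_t3Num, map_mul]; ring
  rw [this, hm3_eta12_mul_inv, map_one, mul_one]

theorem hm3_isUnit_expand_eta12 :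
    IsUnit (PowerSeries.expand 3 three_ne_zero hm3_eta12) := by
  refine IsUnit.of_mul_eq_one (PowerSeries.expand 3 three_ne_zero hm3_eta12Inv) ?_
  rw [← map_mul, hm3_eta12_mul_inv, map_one]

theorem hm3_jNum_mul : jNum * hm3_eta12 ^ 2 = eisenstein4 ^ 3 := by
  rw [hm3_eta12_sq, jNum, mul_assoc, mul_comm dedekindEtaUnitInv, dedekindEtaUnit_mul_inv,
    mul_one]

/-- Algebra: `J = e³/α²`, `P = α/β`, `e³ α β = (α + 27 x β)(α + 243 x β)³`. -/
theorem hm3_algA {A : Type*} [CommRing A] (e α β x J P : A) (hβ : IsUnit β)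
    (hP : P * β = α) (hJ : J * α ^ 2 = e ^ 3)
    (h : e ^ 3 * α * β = (α + 27 * (x * β)) * (α + 243 * (x * β)) ^ 3) :
    J * P ^ 3 = (P + 27 * x) * (P + 243 * x) ^ 3 := by
  have key : β ^ 4 * (J * P ^ 3) = β ^ 4 * ((P + 27 * x) * (P + 243 * x) ^ 3) := by
    subst hP
    rw [← hJ] at h
    linear_combination h
  exact (hβ.pow 4).mul_left_cancel key

/-- Algebra: `J₃ = e₃³/β²`, `P = α/β`, `e₃³ α β = (α + 27 x β)(α + 3 x β)³`. -/
theorem hm3_algB {A : Type*} [CommRing A] (e α β x J P : A) (hβ : IsUnit β)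
    (hP : P * β = α) (hJ : J * β ^ 2 = e ^ 3)
    (h : e ^ 3 * α * β = (α + 27 * (x * β)) * (α + 3 * (x * β)) ^ 3) :
    J * P = (P + 27 * x) * (P + 3 * x) ^ 3 := by
  have key : β ^ 4 * (J * P) = β ^ 4 * ((P + 27 * x) * (P + 3 * x) ^ 3) := by
    subst hP
    rw [← hJ] at h
    linear_combination h
  exact (hβ.pow 4).mul_left_cancel key

/-- `(q j)(q t₃)³ = (q t₃ + 27 q)(q t₃ + 243 q)³` in `ℤ⟦X⟧`. -/
theorem hm3_int1 :
    jNum * hm3_t3Num ^ 3 =
      (hm3_t3Num + 27 * PowerSeries.X) * (hm3_t3Num + 243 * PowerSeries.X) ^ 3 :=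
  hm3_algA _ _ _ _ _ _ hm3_isUnit_expand_eta12 hm3_t3Num_mul hm3_jNum_mul hm3_lin1

/-- `(q³ j(q³))(q t₃) = (q t₃ + 27 q)(q t₃ + 3 q)³` in `ℤ⟦X⟧`. -/
theorem hm3_int2 :
    PowerSeries.expand 3 three_ne_zero jNum * hm3_t3Num =
      (hm3_t3Num + 27 * PowerSeries.X) * (hm3_t3Num + 3 * PowerSeries.X) ^ 3 := by
  have hJ : PowerSeries.expand 3 three_ne_zero jNum *
      PowerSeries.expand 3 three_ne_zero hm3_eta12 ^ 2 =
      PowerSeries.expand 3 three_ne_zero eisenstein4 ^ 3 := by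
    rw [← map_pow, ← map_mul, hm3_jNum_mul, map_pow]
  exact hm3_algB _ _ _ _ _ _ hm3_isUnit_expand_eta12 hm3_t3Num_mul hJ hm3_lin2

variable (R : Type*) [CommRing R]

/-- `q t₃` over `R`. -/
def hm3_tN : PowerSeries R := hm3_t3Num.map (Int.castRingHom R)

theorem hm3_constantCoeff_tN : PowerSeries.constantCoeff (hm3_tN R) = 1 :=
  hm3_constantCoeff_t3Num_map R

theorem hm3_t3_eq : hm3_t3 R = fs_shift (-1) (hm3_tN R) := rfl

theorem hm3_tN_id1 :
    hm_J R * hm3_tN R ^ 3 =
      (hm3_tN R + 27 * PowerSeries.X) * (hm3_tN R + 243 * PowerSeries.X) ^ 3 := by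
  have h := congrArg (PowerSeries.map (Int.castRingHom R)) hm3_int1
  simp only [map_mul, map_pow, map_add, map_ofNat, PowerSeries.map_X] at h
  exact h

theorem hm3_tN_id2 :
    PowerSeries.expand 3 three_ne_zero (hm_J R) * hm3_tN R =
      (hm3_tN R + 27 * PowerSeries.X) * (hm3_tN R + 3 * PowerSeries.X) ^ 3 := by
  have h := congrArg (PowerSeries.map (Int.castRingHom R)) hm3_int2
  simp only [map_mul, map_pow, map_add, map_ofNat, PowerSeries.map_X, PowerSeries.map_expand] at h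
  exact h

/-! ### Uniqueness of the root `S ≡ 1` of `S (S + 216 X)³ = J (S - 27 X)³` -/

/-- The Hesse polynomial in `S = W³`. -/
def hm3_hesSPoly : Polynomial (PowerSeries R) :=
  X * (X + Polynomial.C (216 * PowerSeries.X : PowerSeries R)) ^ 3 -
    Polynomial.C (hm_J R) * (X - Polynomial.C (27 * PowerSeries.X : PowerSeries R)) ^ 3

theorem hm3_hesSPoly_eval (s : PowerSeries R) :
    (hm3_hesSPoly R).eval s =
      s * (s + 216 * PowerSeries.X) ^ 3 - hm_J R * (s - 27 * PowerSeries.X) ^ 3 := by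
  simp [hm3_hesSPoly]

theorem hm3_hesSPoly_derivative_eval (s : PowerSeries R) :
    (derivative (hm3_hesSPoly R)).eval s =
      (s + 216 * PowerSeries.X) ^ 3 + s * (3 * (s + 216 * PowerSeries.X) ^ 2) -
        hm_J R * (3 * (s - 27 * PowerSeries.X) ^ 2) := by
  unfold hm3_hesSPoly
  simp only [derivative_sub, derivative_mul, derivative_pow, derivative_add,
    derivative_C, derivative_X, eval_sub, eval_mul, eval_add, eval_pow, eval_X, eval_C,
    Nat.cast_ofNat, add_zero, sub_zero, mul_one, zero_mul, zero_add, one_mul,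
    Nat.add_one_sub_one]

theorem hm3_hesSPoly_derivative_eval_const {s : PowerSeries R}
    (hs : PowerSeries.constantCoeff s = 1) :
    PowerSeries.constantCoeff ((derivative (hm3_hesSPoly R)).eval s) = 1 := by
  rw [hm3_hesSPoly_derivative_eval]
  simp only [map_sub, map_add, map_mul, map_pow, hs, hm_constantCoeff_J, map_ofNat,
    PowerSeries.constantCoeff_X]
  norm_num

variable {R} in
theorem hm3_hesS_unique {s s' : PowerSeries R}
    (hs : s * (s + 216 * PowerSeries.X) ^ 3 = hm_J R * (s - 27 * PowerSeries.X) ^ 3)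
    (hs' : s' * (s' + 216 * PowerSeries.X) ^ 3 = hm_J R * (s' - 27 * PowerSeries.X) ^ 3)
    (h1 : PowerSeries.constantCoeff s = 1) (h1' : PowerSeries.constantCoeff s' = 1) : s = s' := by
  obtain ⟨k, hk⟩ := Polynomial.binomExpansion (hm3_hesSPoly R) s (s' - s)
  have e1 : (hm3_hesSPoly R).eval s = 0 := by rw [hm3_hesSPoly_eval, hs, sub_self]
  have e2 : (hm3_hesSPoly R).eval s' = 0 := by rw [hm3_hesSPoly_eval, hs', sub_self]
  rw [add_sub_cancel, e1, e2] at hk
  have hu : IsUnit ((derivative (hm3_hesSPoly R)).eval s + k * (s' - s)) := by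
    rw [PowerSeries.isUnit_iff_constantCoeff, map_add, hm3_hesSPoly_derivative_eval_const R h1,
      map_mul, map_sub, h1, h1', sub_self, mul_zero, add_zero]
    exact isUnit_one
  have h0 : ((derivative (hm3_hesSPoly R)).eval s + k * (s' - s)) * (s' - s) = 0 := by
    linear_combination -hk
  have := hu.mul_left_cancel (h0.trans (mul_zero _).symm)
  exact (sub_eq_zero.mp this).symm

/-- **`w³ = q t₃ + 27 q`** for the Hensel root `w` of the Hesse polynomial. -/
theorem hm3_hesW_cube (h3 : IsUnit (3 : R)) :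
    hm_hesW R h3 ^ 3 = hm3_tN R + 27 * PowerSeries.X := by
  apply hm3_hesS_unique (hm_hesW_eq R h3)
  · have h := hm3_tN_id1 R
    have e1 : hm3_tN R + 27 * PowerSeries.X + 216 * PowerSeries.X =
        hm3_tN R + 243 * PowerSeries.X := by ring
    have e2 : hm3_tN R + 27 * PowerSeries.X - 27 * PowerSeries.X = hm3_tN R := by ring
    rw [e1, e2, h]
  · rw [map_pow, hm_constantCoeff_hesW, one_pow]
  · rw [map_add, hm3_constantCoeff_tN, map_mul, PowerSeries.constantCoeff_X, mul_zero, add_zero]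

/-! ### Uniqueness of the root `Y ≡ 1` of `(Y + 27 X)(Y + 3 X)³ = J(X³) Y` -/

/-- The level-`3` quartic. -/
def hm3_quartic : Polynomial (PowerSeries R) :=
  (X + Polynomial.C (27 * PowerSeries.X : PowerSeries R)) *
      (X + Polynomial.C (3 * PowerSeries.X : PowerSeries R)) ^ 3 -
    Polynomial.C (PowerSeries.expand 3 three_ne_zero (hm_J R)) * X

theorem hm3_quartic_eval (y : PowerSeries R) :
    (hm3_quartic R).eval y =
      (y + 27 * PowerSeries.X) * (y + 3 * PowerSeries.X) ^ 3 -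
        PowerSeries.expand 3 three_ne_zero (hm_J R) * y := by
  simp [hm3_quartic]

theorem hm3_quartic_derivative_eval (y : PowerSeries R) :
    (derivative (hm3_quartic R)).eval y =
      (y + 3 * PowerSeries.X) ^ 3 +
        (y + 27 * PowerSeries.X) * (3 * (y + 3 * PowerSeries.X) ^ 2) -
        PowerSeries.expand 3 three_ne_zero (hm_J R) := by
  unfold hm3_quartic
  simp only [derivative_sub, derivative_mul, derivative_pow, derivative_add,
    derivative_C, derivative_X, eval_sub, eval_mul, eval_add, eval_pow, eval_X, eval_C,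
    Nat.cast_ofNat, add_zero, mul_one, zero_mul, zero_add, one_mul,
    Nat.add_one_sub_one]

theorem hm3_quartic_derivative_eval_const {y : PowerSeries R}
    (hy : PowerSeries.constantCoeff y = 1) :
    PowerSeries.constantCoeff ((derivative (hm3_quartic R)).eval y) = 3 := by
  rw [hm3_quartic_derivative_eval]
  simp only [map_sub, map_add, map_mul, map_pow, hy, hm_constantCoeff_J, map_ofNat,
    PowerSeries.constantCoeff_X, PowerSeries.constantCoeff_expand]
  norm_num

variable {R} in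
theorem hm3_quartic_unique (h3 : IsUnit (3 : R)) {y y' : PowerSeries R}
    (hy : (y + 27 * PowerSeries.X) * (y + 3 * PowerSeries.X) ^ 3 =
      PowerSeries.expand 3 three_ne_zero (hm_J R) * y)
    (hy' : (y' + 27 * PowerSeries.X) * (y' + 3 * PowerSeries.X) ^ 3 =
      PowerSeries.expand 3 three_ne_zero (hm_J R) * y')
    (h1 : PowerSeries.constantCoeff y = 1) (h1' : PowerSeries.constantCoeff y' = 1) : y = y' := by
  obtain ⟨k, hk⟩ := Polynomial.binomExpansion (hm3_quartic R) y (y' - y)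
  have e1 : (hm3_quartic R).eval y = 0 := by rw [hm3_quartic_eval, hy, sub_self]
  have e2 : (hm3_quartic R).eval y' = 0 := by rw [hm3_quartic_eval, hy', sub_self]
  rw [add_sub_cancel, e1, e2] at hk
  have hu : IsUnit ((derivative (hm3_quartic R)).eval y + k * (y' - y)) := by
    rw [PowerSeries.isUnit_iff_constantCoeff, map_add, hm3_quartic_derivative_eval_const R h1,
      map_mul, map_sub, h1, h1', sub_self, mul_zero, add_zero]
    exact h3
  have h0 : ((derivative (hm3_quartic R)).eval y + k * (y' - y)) * (y' - y) = 0 := by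
    linear_combination -hk
  have := hu.mul_left_cancel (h0.trans (mul_zero _).symm)
  exact (sub_eq_zero.mp this).symm

/-- Algebra: `P' = U³/V` is a root of the quartic, `W = U + 3 Q`, `V = U² + 9 Q U + 27 Q²`. -/
theorem hm3_algC {A : Type*} [CommRing A] (U Q P J : A)
    (hV : IsUnit (U ^ 2 + 9 * Q * U + 27 * Q ^ 2)) (hU : IsUnit U)
    (hP : P * (U ^ 2 + 9 * Q * U + 27 * Q ^ 2) = U ^ 3)
    (hes : (U + 3 * Q) ^ 3 * ((U + 3 * Q) ^ 3 + 216 * Q ^ 3) ^ 3 =
      J * ((U + 3 * Q) ^ 3 - 27 * Q ^ 3) ^ 3) :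
    (P + 27 * Q) * (P + 3 * Q) ^ 3 = J * P := by
  set V := U ^ 2 + 9 * Q * U + 27 * Q ^ 2 with hVdef
  have hUV : (U + 3 * Q) ^ 3 - 27 * Q ^ 3 = U * V := by rw [hVdef]; ring
  rw [hUV] at hes
  have key : V ^ 4 * (U * V) ^ 3 * ((P + 27 * Q) * (P + 3 * Q) ^ 3) =
      V ^ 4 * (U * V) ^ 3 * (J * P) := by
    have e1 : V ^ 4 * (U * V) ^ 3 * ((P + 27 * Q) * (P + 3 * Q) ^ 3) =
        (U * V) ^ 3 * ((P * V + 27 * Q * V) * (P * V + 3 * Q * V) ^ 3) := by ring
    have e2 : V ^ 4 * (U * V) ^ 3 * (J * P) = V ^ 3 * (P * V) * (J * (U * V) ^ 3) := by ring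
    rw [e1, e2, hP, ← hes, hVdef]
    ring
  exact ((hV.pow 4).mul ((hU.mul hV).pow 3)).mul_left_cancel key

/-- **`q t₃ · (w₃² + 3 q w₃ + 9 q²) = (w₃ - 3 q)³`** for `w₃ = w(q³)`. -/
theorem hm3_tN_hesW (h3 : IsUnit (3 : R)) :
    hm3_tN R *
        (PowerSeries.expand 3 three_ne_zero (hm_hesW R h3) ^ 2 +
          3 * PowerSeries.X * PowerSeries.expand 3 three_ne_zero (hm_hesW R h3) +
          9 * PowerSeries.X ^ 2) =
      (PowerSeries.expand 3 three_ne_zero (hm_hesW R h3) - 3 * PowerSeries.X) ^ 3 := by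
  set W := PowerSeries.expand 3 three_ne_zero (hm_hesW R h3) with hW
  set U := W - 3 * PowerSeries.X with hU
  have hW0 : PowerSeries.constantCoeff W = 1 := by
    rw [hW, PowerSeries.constantCoeff_expand, hm_constantCoeff_hesW]
  have hU0 : PowerSeries.constantCoeff U = 1 := by
    rw [hU, map_sub, hW0, map_mul, PowerSeries.constantCoeff_X, mul_zero, sub_zero]
  have hVeq : W ^ 2 + 3 * PowerSeries.X * W + 9 * PowerSeries.X ^ 2 =
      U ^ 2 + 9 * PowerSeries.X * U + 27 * PowerSeries.X ^ 2 := by rw [hU]; ring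
  rw [hVeq]
  set V := U ^ 2 + 9 * PowerSeries.X * U + 27 * PowerSeries.X ^ 2 with hV
  have hV0 : PowerSeries.constantCoeff V = 1 := by
    rw [hV]
    simp only [map_add, map_mul, map_pow, hU0, PowerSeries.constantCoeff_X, map_ofNat]
    norm_num
  have hVu : IsUnit V := by
    rw [PowerSeries.isUnit_iff_constantCoeff, hV0]; exact isUnit_one
  have hUu : IsUnit U := by
    rw [PowerSeries.isUnit_iff_constantCoeff, hU0]; exact isUnit_one
  obtain ⟨Vi, hVi⟩ := hVu.exists_right_inv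
  have hVi0 : PowerSeries.constantCoeff Vi = 1 := by
    have := congrArg (PowerSeries.constantCoeff (R := R)) hVi
    rwa [map_mul, hV0, one_mul, map_one] at this
  -- the candidate root
  have hP : (U ^ 3 * Vi) * V = U ^ 3 := by
    rw [mul_assoc, mul_comm Vi, hVi, mul_one]
  have hes : (U + 3 * PowerSeries.X) ^ 3 * ((U + 3 * PowerSeries.X) ^ 3 +
        216 * PowerSeries.X ^ 3) ^ 3 =
      PowerSeries.expand 3 three_ne_zero (hm_J R) *
        ((U + 3 * PowerSeries.X) ^ 3 - 27 * PowerSeries.X ^ 3) ^ 3 := by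
    have h := congrArg (PowerSeries.expand 3 three_ne_zero) (hm_hesW_eq R h3)
    simp only [map_mul, map_pow, map_add, map_sub, map_ofNat, PowerSeries.expand_X] at h
    have e : U + 3 * PowerSeries.X = W := by rw [hU]; ring
    rw [e]
    exact h
  have hroot := hm3_algC U PowerSeries.X (U ^ 3 * Vi)
    (PowerSeries.expand 3 three_ne_zero (hm_J R)) hVu hUu hP hes
  have hroot' := hm3_tN_id2 R
  have hc : PowerSeries.constantCoeff (U ^ 3 * Vi) = 1 := by
    rw [map_mul, map_pow, hU0, hVi0, one_pow, one_mul]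
  have := hm3_quartic_unique h3 hroot'.symm hroot (hm3_constantCoeff_tN R) hc
  rw [this, hP]

/-! ### The Laurent series form -/

/-- Algebra: from `w³ = s + 27 x³` to `c³ = T + 27` (`c = w/x`, `T = s/x³`). -/
theorem hm3_algD {A : Type*} [CommRing A] (x c W S T : A) (hx : IsUnit x) (hc : c * x = W)
    (hT : T * x ^ 3 = S) (h : W ^ 3 = S + 27 * x ^ 3) : c ^ 3 = T + 27 := by
  have key : x ^ 3 * c ^ 3 = x ^ 3 * (T + 27) := by
    subst hc hT
    linear_combination h
  exact (hx.pow 3).mul_left_cancel key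

/-- Algebra: from `P (W² + 3 x W + 9 x²) = (W - 3 x)³` to `T (c² + 3 c + 9) = (c - 3)³`. -/
theorem hm3_algE {A : Type*} [CommRing A] (x T c P W : A) (hx : IsUnit x) (hT : T * x = P)
    (hc : c * x = W) (h : P * (W ^ 2 + 3 * x * W + 9 * x ^ 2) = (W - 3 * x) ^ 3) :
    T * (c ^ 2 + 3 * c + 9) = (c - 3) ^ 3 := by
  have key : x ^ 3 * (T * (c ^ 2 + 3 * c + 9)) = x ^ 3 * (c - 3) ^ 3 := by
    subst hT hc
    linear_combination h
  exact (hx.pow 3).mul_left_cancel key

theorem hm3_isUnit_single_one : IsUnit (HahnSeries.single (1 : ℤ) (1 : R) : LaurentSeries R) := by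
  refine IsUnit.of_mul_eq_one (HahnSeries.single (-1) 1) ?_
  rw [HahnSeries.single_mul_single]
  simp

theorem hm3_single_neg_one_mul :
    (HahnSeries.single (-1 : ℤ) (1 : R) : LaurentSeries R) * HahnSeries.single (1 : ℤ) (1 : R) =
      1 := by
  rw [HahnSeries.single_mul_single]
  simp

theorem hm3_hesC_mul (h3 : IsUnit (3 : R)) :
    hm_hesC R h3 * HahnSeries.single (1 : ℤ) (1 : R) =
      HahnSeries.ofPowerSeries ℤ R (PowerSeries.expand 3 three_ne_zero (hm_hesW R h3)) := by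
  rw [hm_hesC, ← kc_ofPowerSeries_expand, mul_comm (HahnSeries.single (-1 : ℤ) (1 : R)), mul_assoc,
    hm3_single_neg_one_mul, mul_one]

theorem hm3_t3_mul_single :
    hm3_t3 R * HahnSeries.single (1 : ℤ) (1 : R) = HahnSeries.ofPowerSeries ℤ R (hm3_tN R) := by
  rw [hm3_t3_eq, fs_shift, mul_comm (HahnSeries.single (-1 : ℤ) (1 : R)), mul_assoc,
    hm3_single_neg_one_mul, mul_one]

/-- **`c³ = t₃(q³) + 27`**, i.e. `μ³ = 1 + t₃(q³)/27`. -/
theorem hm3_hesC_cube (h3 : IsUnit (3 : R)) :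
    hm_hesC R h3 ^ 3 = qExpand R 3 (hm3_t3 R) + 27 := by
  have hT : qExpand R 3 (hm3_t3 R) * (HahnSeries.single (1 : ℤ) (1 : R)) ^ 3 =
      HahnSeries.ofPowerSeries ℤ R (PowerSeries.expand 3 three_ne_zero (hm3_tN R)) := by
    have h1 := congrArg (qExpand R 3) (hm3_t3_mul_single R)
    rw [map_mul, qExpand_single, ← kc_ofPowerSeries_expand] at h1
    rw [HahnSeries.single_pow, one_pow]
    simpa using h1
  have hW : HahnSeries.ofPowerSeries ℤ R (PowerSeries.expand 3 three_ne_zero (hm_hesW R h3)) ^ 3 =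
      HahnSeries.ofPowerSeries ℤ R (PowerSeries.expand 3 three_ne_zero (hm3_tN R)) +
        27 * (HahnSeries.single (1 : ℤ) (1 : R)) ^ 3 := by
    rw [← map_pow, ← map_pow, hm3_hesW_cube R h3, map_add, map_add, map_mul, map_mul, map_ofNat,
      map_ofNat, PowerSeries.expand_X, map_pow, HahnSeries.ofPowerSeries_X]
  exact hm3_algD _ _ _ _ _ (hm3_isUnit_single_one R) (hm3_hesC_mul R h3) hT hW

/-- **`t₃ (c² + 3 c + 9) = (c - 3)³`**. -/
theorem hm3_t3_hesC (h3 : IsUnit (3 : R)) :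
    hm3_t3 R * (hm_hesC R h3 ^ 2 + 3 * hm_hesC R h3 + 9) = (hm_hesC R h3 - 3) ^ 3 := by
  have h := congrArg (HahnSeries.ofPowerSeries ℤ R) (hm3_tN_hesW R h3)
  simp only [map_mul, map_pow, map_add, map_sub, map_ofNat, HahnSeries.ofPowerSeries_X] at h
  exact hm3_algE _ _ _ _ _ (hm3_isUnit_single_one R) (hm3_t3_mul_single R) (hm3_hesC_mul R h3) h

end Fermat.Agent.JT3
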